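/-
S48 wall (W), block A2 (helper36): the AMBIENT FIELD of the dictionary for `Γ₁(M)`.

`AH M` = all functions on `ℍ` which are holomorphic, invariant under `Γ(M)`, and such that every
`SL(2,ℤ)`-translate has a Laurent expansion at `∞` in `u = exp(2πiτ/M)` (finite polar part):
the ring of modular functions of level `M` that are holomorphic on `ℍ`.  It is defined by
PROPERTIES (not by generators), so that it contains the ring `AL M` of cluster A (generated by the
`γ • j_d`) AND the Fricke functions.   `LH M = Frac (AH M)`, with its `SL(2,ℤ)`-action.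

Everything analytic that the abstract dictionary (`F3/Dict/Places*.lean`) needs is then generic:
valuations at the points of `ℍ` (`AmbVal.lean`), at `∞` (`AmbValInf.lean`), invariants
(`AmbInv.lean`), periods (`AmbPer.lean`).
-/
import Mathlib
import Fermat.Agent.F3.DictC.Field
import Fermat.Agent.F3.DictC.Expansion
import Fermat.Agent.F3.DictC.GensExp
import Fermat.Agent.F3.DictC.Periods
import Fermat.Agent.F3.DictC.ValInf
import Fermat.Agent.F3.DictC.EmbFHom

set_option autoImplicit false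

noncomputable section

namespace Fermat.Agent.S48WA2

open UpperHalfPlane Fermat.Agent.F3Dict
open scoped MatrixGroups Manifold

/-- membership condition of `AH M`. -/
def IsAH (M : ℕ) (f : Fun) : Prop :=
  IsHol f ∧ (∀ γ ∈ CongruenceSubgroup.Gamma M, γ • f = f) ∧
    ∀ γ : SL(2, ℤ), ∃ a : LaurentSeries Kc, HasExp M (γ • f) a

theorem isAH_algebraMap (M : ℕ) (c : Kc) : IsAH M (algebraMap Kc Fun c) := by
  have h : ∀ γ : SL(2, ℤ), γ • (algebraMap Kc Fun c) = algebraMap Kc Fun c := by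
    intro γ; ext τ; simp
  refine ⟨isHol_algebraMap c, fun γ _ => h γ, fun γ => ?_⟩
  rw [h γ]
  exact ⟨_, HasExp.algebraMap M c⟩

theorem IsAH.add {M : ℕ} [NeZero M] {f g : Fun} (hf : IsAH M f) (hg : IsAH M g) :
    IsAH M (f + g) := by
  refine ⟨hf.1.add hg.1, fun γ hγ => by rw [smul_add, hf.2.1 γ hγ, hg.2.1 γ hγ], fun γ => ?_⟩
  obtain ⟨a, ha⟩ := hf.2.2 γ
  obtain ⟨b, hb⟩ := hg.2.2 γ
  rw [smul_add]
  exact ⟨a + b, ha.add hb⟩

theorem IsAH.mul {M : ℕ} [NeZero M] {f g : Fun} (hf : IsAH M f) (hg : IsAH M g) :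
    IsAH M (f * g) := by
  refine ⟨hf.1.mul hg.1, fun γ hγ => by rw [smul_mul', hf.2.1 γ hγ, hg.2.1 γ hγ], fun γ => ?_⟩
  obtain ⟨a, ha⟩ := hf.2.2 γ
  obtain ⟨b, hb⟩ := hg.2.2 γ
  rw [smul_mul']
  exact ⟨a * b, ha.mul hb⟩

theorem IsAH.sl_smul {M : ℕ} {f : Fun} (hf : IsAH M f) (g : SL(2, ℤ)) : IsAH M (g • f) := by
  refine ⟨hf.1.sl_smul g, fun γ hγ => ?_, fun γ => ?_⟩
  · have hconj : g⁻¹ * γ * g ∈ CongruenceSubgroup.Gamma M := by
      have hn : (CongruenceSubgroup.Gamma M).Normal := CongruenceSubgroup.Gamma_normal M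
      have := hn.conj_mem γ hγ g⁻¹
      simpa using this
    calc γ • g • f = g • ((g⁻¹ * γ * g) • f) := by
          rw [← mul_smul, ← mul_smul]
          congr 1
          group
      _ = g • f := by rw [hf.2.1 _ hconj]
  · rw [← mul_smul]
    exact hf.2.2 (γ * g)

/-- **the ring of modular functions of level `M`, holomorphic on `ℍ`.** -/
def AH (M : ℕ) [NeZero M] : Subalgebra Kc Fun where
  carrier := {f | IsAH M f}
  mul_mem' := fun hf hg => IsAH.mul hf hg
  add_mem' := fun hf hg => IsAH.add hf hg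
  algebraMap_mem' c := isAH_algebraMap M c

theorem mem_AH {M : ℕ} [NeZero M] {f : Fun} : f ∈ AH M ↔ IsAH M f := Iff.rfl

theorem isHol_of_mem_AH {M : ℕ} [NeZero M] {f : Fun} (hf : f ∈ AH M) : IsHol f := hf.1

theorem smul_eq_of_mem_AH {M : ℕ} [NeZero M] {f : Fun} (hf : f ∈ AH M) {γ : SL(2, ℤ)}
    (hγ : γ ∈ CongruenceSubgroup.Gamma M) : γ • f = f := hf.2.1 γ hγ

theorem exists_hasExp_of_mem_AH {M : ℕ} [NeZero M] {f : Fun} (hf : f ∈ AH M) :
    ∃ a : LaurentSeries Kc, HasExp M f a := by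
  have := hf.2.2 1
  rwa [one_smul] at this

theorem smul_mem_AH {M : ℕ} [NeZero M] (γ : SL(2, ℤ)) {f : Fun} (hf : f ∈ AH M) :
    γ • f ∈ AH M := IsAH.sl_smul hf γ

/-- the ring `AL M` of cluster A (generated by the `γ • j_d`, `d ∣ M`) is contained in `AH M`. -/
theorem AL_le_AH (M : ℕ) [NeZero M] : AL M ≤ AH M := by
  intro f hf
  refine ⟨isHol_of_mem_AL hf, fun γ hγ => ?_, fun γ =>
    EmbFHom.exists_hasExp_of_mem_AL M (smul_mem_AL M γ hf)⟩
  have h := Gamma_smul_eq M γ hγ (algebraMap (AL M) (LL M) ⟨f, hf⟩)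
  rw [LL.smul_algebraMap] at h
  exact congrArg Subtype.val (IsFractionRing.injective (AL M) (LL M) h)

instance instMulSemiringActionAH (M : ℕ) [NeZero M] : MulSemiringAction SL(2, ℤ) (AH M) where
  smul γ f := ⟨γ • (f : Fun), smul_mem_AH γ f.2⟩
  one_smul f := Subtype.ext (one_smul _ _)
  mul_smul γ γ' f := Subtype.ext (mul_smul _ _ _)
  smul_zero γ := Subtype.ext (smul_zero _)
  smul_add γ f g := Subtype.ext (smul_add _ _ _)
  smul_one γ := Subtype.ext (smul_one _)
  smul_mul γ f g := Subtype.ext (smul_mul' _ _ _)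

@[simp] theorem AH.coe_smul (M : ℕ) [NeZero M] (γ : SL(2, ℤ)) (f : AH M) :
    ((γ • f : AH M) : Fun) = γ • (f : Fun) := rfl

instance instSMulCommClassAH (M : ℕ) [NeZero M] : SMulCommClass SL(2, ℤ) Kc (AH M) where
  smul_comm γ a f := Subtype.ext (smul_comm γ a (f : Fun))

instance instIsDomainAH (M : ℕ) [NeZero M] : IsDomain (AH M) := by
  have : Nontrivial (AH M) := by
    refine ⟨⟨0, 1, fun h => ?_⟩⟩
    have h1 : ((0 : AH M) : Fun) = ((1 : AH M) : Fun) := congrArg Subtype.val h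
    have h2 := congrFun h1 ⟨Complex.I, by simp⟩
    exact zero_ne_one h2
  have : NoZeroDivisors (AH M) := by
    refine ⟨fun {a b} h => ?_⟩
    have h1 : (a : Fun) * (b : Fun) = 0 := congrArg Subtype.val h
    rcases (isHol_of_mem_AH a.2).eq_zero_or_eq_zero_of_mul_eq_zero
      (isHol_of_mem_AH b.2) h1 with h2 | h2
    · exact Or.inl (Subtype.ext h2)
    · exact Or.inr (Subtype.ext h2)
  exact NoZeroDivisors.to_isDomain _

/-- **the field of modular functions of level `M`.** -/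
abbrev LH (M : ℕ) [NeZero M] : Type := FractionRing (AH M)

instance instMulSemiringActionLH (M : ℕ) [NeZero M] : MulSemiringAction SL(2, ℤ) (LH M) :=
  IsFractionRing.mulSemiringAction SL(2, ℤ) (AH M) (LH M)

theorem LH.smul_algebraMap (M : ℕ) [NeZero M] (γ : SL(2, ℤ)) (f : AH M) :
    γ • (algebraMap (AH M) (LH M) f) = algebraMap (AH M) (LH M) (γ • f) := by
  have := (IsFractionRing.smulDistribClass SL(2, ℤ) (AH M) (LH M)).smul_distrib_smul γ f (1 : LH M)
  simpa [Algebra.smul_def] using this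

instance instSMulCommClassLH (M : ℕ) [NeZero M] : SMulCommClass SL(2, ℤ) Kc (LH M) where
  smul_comm γ a x := by
    have h1 : γ • (algebraMap Kc (LH M) a) = algebraMap Kc (LH M) a := by
      rw [IsScalarTower.algebraMap_apply Kc (AH M) (LH M), LH.smul_algebraMap]
      rfl
    rw [Algebra.smul_def, Algebra.smul_def, smul_mul', h1]

/-- an element of `AH M` from a function. -/
def AH.mk {M : ℕ} [NeZero M] (f : Fun) (hf : IsAH M f) : AH M := ⟨f, hf⟩

/-- an element of `LH M` from a function. -/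
def LH.ofFun {M : ℕ} [NeZero M] (f : Fun) (hf : IsAH M f) : LH M :=
  algebraMap (AH M) (LH M) ⟨f, hf⟩

theorem LH.ofFun_injective {M : ℕ} [NeZero M] {f g : Fun} (hf : IsAH M f) (hg : IsAH M g)
    (h : LH.ofFun f hf = LH.ofFun g hg) : f = g :=
  congrArg Subtype.val (IsFractionRing.injective (AH M) (LH M) h)

theorem LH.smul_ofFun {M : ℕ} [NeZero M] (γ : SL(2, ℤ)) (f : Fun) (hf : IsAH M f) :
    γ • LH.ofFun f hf = LH.ofFun (γ • f) (hf.sl_smul γ) :=
  LH.smul_algebraMap M γ ⟨f, hf⟩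

/-- `Γ(M)` acts trivially on `LH M`. -/
theorem Gamma_smul_eq_LH (M : ℕ) [NeZero M] (γ : SL(2, ℤ))
    (hγ : γ ∈ CongruenceSubgroup.Gamma M) (x : LH M) : γ • x = x := by
  have hAH : ∀ f : AH M, γ • f = f := fun f => Subtype.ext (smul_eq_of_mem_AH f.2 hγ)
  obtain ⟨a, b, -, rfl⟩ := IsFractionRing.div_surjective (A := AH M) x
  rw [div_eq_mul_inv, smul_mul', smul_inv'', LH.smul_algebraMap, LH.smul_algebraMap, hAH a,
    hAH b]

theorem exists_finiteIndex_fixing_LH (M : ℕ) [NeZero M] :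
    ∃ Γ' : Subgroup SL(2, ℤ), Γ'.FiniteIndex ∧ ∀ g ∈ Γ', ∀ x : LH M, g • x = x :=
  ⟨CongruenceSubgroup.Gamma M, inferInstance, fun g hg x => Gamma_smul_eq_LH M g hg x⟩

/-- the inclusion `AL M → AH M`. -/
def inclAH (M : ℕ) [NeZero M] : AL M →ₐ[Kc] AH M := Subalgebra.inclusion (AL_le_AH M)

/-- `j` as an element of `AH M`. -/
def jAH (M : ℕ) [NeZero M] : AH M := inclAH M (jAL M)

@[simp] theorem coe_jAH (M : ℕ) [NeZero M] : ((jAH M : AH M) : Fun) = jFun := rfl

/-- `j` as an element of `LH M`. -/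
def jLH (M : ℕ) [NeZero M] : LH M := algebraMap (AH M) (LH M) (jAH M)

theorem smul_jLH (M : ℕ) [NeZero M] (g : SL(2, ℤ)) : g • jLH M = jLH M := by
  rw [jLH, LH.smul_algebraMap]
  congr 1
  apply Subtype.ext
  exact jFun_smul g

/-- `j_d` (`d ∣ M`) as an element of `LH M`. -/
def jdLH (M d : ℕ) [NeZero M] [NeZero d] (hd : d ∣ M) : LH M :=
  algebraMap (AH M) (LH M) (inclAH M (EmbFHom.jdAL M d hd))

/-! ### the expansion at `∞` -/

theorem AH_le_EL (M : ℕ) [NeZero M] : AH M ≤ EL M := fun _ hf => exists_hasExp_of_mem_AH hf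

/-- the expansion at `∞` (in `u = exp(2πiτ/M)`) on `AH M`. -/
def expAH (M : ℕ) [NeZero M] : AH M →ₐ[Kc] LaurentSeries Kc :=
  (expELHom M).comp (Subalgebra.inclusion (AH_le_EL M))

theorem hasExp_expAH {M : ℕ} [NeZero M] (f : AH M) : HasExp M (f : Fun) (expAH M f) :=
  hasExp_expEL (Subalgebra.inclusion (AH_le_EL M) f)

theorem expAH_eq {M : ℕ} [NeZero M] {f : AH M} {a : LaurentSeries Kc}
    (h : HasExp M (f : Fun) a) : expAH M f = a :=
  (hasExp_expAH f).unique h

theorem expAH_injective (M : ℕ) [NeZero M] : Function.Injective (expAH M) :=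
  (expELHom_injective M).comp (Subalgebra.inclusion_injective (AH_le_EL M))

/-- the expansion at `∞` on the field `LH M`. -/
def expLH (M : ℕ) [NeZero M] : LH M →ₐ[Kc] LaurentSeries Kc :=
  IsFractionRing.liftAlgHom (expAH_injective M)

theorem expLH_algebraMap (M : ℕ) [NeZero M] (f : AH M) :
    expLH M (algebraMap (AH M) (LH M) f) = expAH M f := by
  unfold expLH
  rw [IsFractionRing.liftAlgHom_apply]
  exact IsFractionRing.lift_algebraMap _ _

theorem expLH_injective (M : ℕ) [NeZero M] : Function.Injective (expLH M) :=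
  (expLH M).toRingHom.injective

theorem expLH_ofFun {M : ℕ} [NeZero M] (f : Fun) (hf : IsAH M f) {a : LaurentSeries Kc}
    (h : HasExp M f a) : expLH M (LH.ofFun f hf) = a := by
  unfold LH.ofFun
  rw [expLH_algebraMap]
  exact expAH_eq h

theorem expLH_jdLH (M d : ℕ) [NeZero M] [NeZero d] (hd : d ∣ M) :
    expLH M (jdLH M d hd) = ModularCurve.qExpand Kc (M * d) (ModularCurve.jqModC Kc) := by
  unfold jdLH
  rw [expLH_algebraMap]
  exact expAH_eq (hasExp_jd M d hd)

theorem jdLH_one (M : ℕ) [NeZero M] : jdLH M 1 (one_dvd M) = jLH M := by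
  unfold jdLH jLH jAH
  rw [EmbFHom.jdAL_one]

end Fermat.Agent.S48WA2
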