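/-
S48 wall (W), block A2 (helper36): the DEFINITIONS that the seats of the dictionary for `Γ₁(M)`
share (definitions only + trivial lemmas; no sorry).

* `Gamma1pm M` = `± Γ₁(M)`, the stabiliser of the function field of `X₁(M)` in `SL(2,ℤ)`;
* `jBar1 M`    = `j` as an element of `FC1 M`;
* `IsPhi M φ`  : `φ : FC1 M → LH M` is the inverse of the expansion at `∞`
                 (`expLH M (φ x) = x(u^M)`); there is at most one such `φ`;
* `WpForms M`  : the deliverable of hub A1 (A1c): the weight-2 forms `x_a` on `Γ₁(M)`;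
* `FrickeData M` : the analytic Fricke functions as elements of the ambient ring `AH M`.
-/
import Mathlib
import Fermat.Agent.S48.W.A.DictInterface
import Fermat.Agent.S48.W.A.Dict.Amb
import Fermat.Agent.S48.W.A.Dict.AmbVal

set_option autoImplicit false

noncomputable section

namespace Fermat.Agent.S48WA2

open UpperHalfPlane CongruenceSubgroup ModularCurve AlgebraicCurve Fermat.Agent.F3Dict
open Fermat.Agent.S48W
open scoped MatrixGroups ModularForm

/-- `± Γ₁(M)`. -/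
def Gamma1pm (M : ℕ) : Subgroup SL(2, ℤ) where
  carrier := {γ | γ ∈ Gamma1 M ∨ -γ ∈ Gamma1 M}
  one_mem' := Or.inl (one_mem _)
  mul_mem' := by
    rintro a b (ha | ha) (hb | hb)
    · exact Or.inl (mul_mem ha hb)
    · right
      have := mul_mem ha hb
      rwa [mul_neg] at this
    · right
      have := mul_mem ha hb
      rwa [neg_mul] at this
    · left
      have := mul_mem ha hb
      rwa [neg_mul_neg] at this
  inv_mem' := by
    rintro a (ha | ha)
    · exact Or.inl (inv_mem ha)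
    · right
      have h1 := inv_mem ha
      have h2 : (-a)⁻¹ = -a⁻¹ := by
        apply inv_eq_of_mul_eq_one_left
        rw [neg_mul_neg, inv_mul_cancel]
      rwa [h2] at h1

theorem mem_Gamma1pm {M : ℕ} {γ : SL(2, ℤ)} :
    γ ∈ Gamma1pm M ↔ γ ∈ Gamma1 M ∨ -γ ∈ Gamma1 M := Iff.rfl

theorem Gamma1_le_Gamma1pm (M : ℕ) : Gamma1 M ≤ Gamma1pm M := fun _ h => Or.inl h

theorem jq_mem_FOne' (M : ℕ) [NeZero M] : jq ∈ FOne M := by
  have h := jqd_mem_full M (one_dvd M)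
  rw [qExpand_one_apply] at h
  exact full_le_FOne M h

/-- `j ∈ FC1 M`. -/
def jBar1 (M : ℕ) [NeZero M] : FC1 M :=
  ⟨coeffEmb ℂ jq, coeffEmb_mem_laurentBaseChange ℂ (jq_mem_FOne' M)⟩

/-- the `q`-expansion of the Fricke function of `a`, as an element of `FC1 M`. -/
def frickeBar1 (M : ℕ) [NeZero M] (a : ZMod M) (ha : a ≠ 0) : FC1 M :=
  ⟨coeffEmb ℂ (fricke M a), coeffEmb_mem_laurentBaseChange ℂ (fricke_mem M ha)⟩

/-- `j(q^d)`, `d ∣ M`, as an element of `FC1 M`. -/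
def jdBar1 (M d : ℕ) [NeZero M] [NeZero d] (hd : d ∣ M) : FC1 M :=
  ⟨coeffEmb ℂ (qExpand ℚ d jq),
    coeffEmb_mem_laurentBaseChange ℂ (full_le_FOne M (jqd_mem_full M hd))⟩

/-- `φ` is the inverse of the expansion at `∞`: the expansion of `φ x` in `u = exp(2πiτ/M)` is
`x(u^M)`. -/
def IsPhi (M : ℕ) [NeZero M] (φ : FC1 M →ₐ[ℂ] LH M) : Prop :=
  ∀ x : FC1 M, expLH M (φ x) = qExpand ℂ M (x : LaurentSeries ℂ)

theorem IsPhi.unique {M : ℕ} [NeZero M] {φ ψ : FC1 M →ₐ[ℂ] LH M} (hφ : IsPhi M φ)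
    (hψ : IsPhi M ψ) : φ = ψ := by
  ext x
  exact expLH_injective M ((hφ x).trans (hψ x).symm)

/-- `φ x` is the class of the function `f` as soon as `f` has the expansion `x(u^M)`. -/
theorem IsPhi.eq_ofFun {M : ℕ} [NeZero M] {φ : FC1 M →ₐ[ℂ] LH M} (hφ : IsPhi M φ) (x : FC1 M)
    (f : Fun) (hf : IsAH M f) (h : HasExp M f (qExpand ℂ M (x : LaurentSeries ℂ))) :
    φ x = LH.ofFun f hf :=
  expLH_injective M ((hφ x).trans (expLH_ofFun f hf h).symm)

/-- **(A1c)** the deliverable of hub A1: the modular forms `x_a = 12 ℘(a τ; ℤ M τ + ℤ)/(2πi)²`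
of weight `2` on `Γ₁(M)`, their `q`-expansions, and the action of `Γ₀(M)`. -/
structure WpForms (M : ℕ) [NeZero M] where
  /-- the forms -/
  X : ZMod M → ModularForm (Gamma1 M) 2
  /-- `q`-expansion at `∞` -/
  qexp : ∀ a : ZMod M, a ≠ 0 →
    qExpansion 1 (X a) = (wpSeries M a).map (Int.castRingHom ℂ)
  /-- the action of `Γ₀(M)`: `x_a ∣ γ = x_{α a}`, `α = γ 0 0`. -/
  slash : ∀ γ : SL(2, ℤ), γ ∈ Gamma0 M → ∀ a : ZMod M, a ≠ 0 →
    (⇑(X a) ∣[(2 : ℤ)] γ) = ⇑(X (((γ 0 0 : ℤ) : ZMod M) * a))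

/-- the analytic Fricke functions, as elements of the ambient ring. -/
structure FrickeData (M : ℕ) [NeZero M] where
  /-- the Fricke function of `a` -/
  Fr : ZMod M → Fun
  /-- it is a modular function of level `M`, holomorphic on `ℍ` -/
  isAH : ∀ a : ZMod M, a ≠ 0 → IsAH M (Fr a)
  /-- its expansion at `∞` is `fricke M a` -/
  hasExp : ∀ a : ZMod M, a ≠ 0 →
    HasExp M (Fr a) (qExpand ℂ M (coeffEmb ℂ (fricke M a)))
  /-- the action of `Γ₀(M)`: `Fr a ∘ γ = Fr (α a)`, `α = γ 0 0` -/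
  smul : ∀ γ : SL(2, ℤ), γ ∈ Gamma0 M → ∀ a : ZMod M, a ≠ 0 →
    γ⁻¹ • Fr a = Fr (((γ 0 0 : ℤ) : ZMod M) * a)

/-- the Fricke function of `a` as an element of `LH M`. -/
def FrickeData.frLH {M : ℕ} [NeZero M] (D : FrickeData M) (a : ZMod M) (ha : a ≠ 0) : LH M :=
  LH.ofFun (D.Fr a) (D.isAH a ha)

/-- the generators `j_d` (`d ∣ M`), `Fr a` (`a ≠ 0`) in `LH M`. -/
def genSet1 {M : ℕ} [NeZero M] (D : FrickeData M) : Set (LH M) :=
  {y | ∃ (d : ℕ) (_ : NeZero d) (hd : d ∣ M), y = jdLH M d hd} ∪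
    {y | ∃ (a : ZMod M) (ha : a ≠ 0), y = D.frLH a ha}

/-- the field `ℂ(j_d, Fr a)` inside `LH M`: the image of `FC1 M`. -/
def genField1 {M : ℕ} [NeZero M] (D : FrickeData M) : IntermediateField ℂ (LH M) :=
  IntermediateField.adjoin ℂ (genSet1 D)

theorem IsPhi.frickeBar1 {M : ℕ} [NeZero M] {φ : FC1 M →ₐ[ℂ] LH M} (hφ : IsPhi M φ)
    (D : FrickeData M) (a : ZMod M) (ha : a ≠ 0) : φ (frickeBar1 M a ha) = D.frLH a ha :=
  hφ.eq_ofFun _ _ _ (D.hasExp a ha)

end Fermat.Agent.S48WA2
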