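/-
S48 wall (W), block A2, seat A2-INV (helper84): the inverse of a nowhere vanishing function on `ℍ`
which has a power series expansion in `u = exp(2πiτ/M)` has a Laurent expansion in `u`.

Proof: write the expansion as `p = X^m p₀`, `p₀(0) ≠ 0`.  The power series `p₀` converges on the
whole open unit disc (every `0 < |z| < 1` is a value of `u`), its sum `G` does not vanish there
(`D = u^m G(u)`, `G(0) = p₀(0)`), so `1/G` is holomorphic on the open unit disc and is the sum of its
Taylor series on the whole disc.  Hence `u^m / D = (1/G)(u)` has a power series expansion.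
(The holomorphy of `D` is not needed: it follows from the expansion.)
-/
import Mathlib
import Fermat.Agent.F3.DictC.Expansion
import Fermat.Agent.F3.DictC.JFun

set_option autoImplicit false
set_option linter.unusedVariables false

noncomputable section

namespace Fermat.Agent.S48WA2

open UpperHalfPlane Fermat.Agent.F3Dict
open scoped MatrixGroups

/-- a scalar power series which converges (absolutely) at every point of the punctured open unit
disc has radius of convergence `≥ 1`. -/
theorem invExp_one_le_radius (c : ℕ → ℂ)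
    (hs : ∀ z : ℂ, z ≠ 0 → ‖z‖ < 1 → Summable (fun n : ℕ => ‖c n‖ * ‖z‖ ^ n)) :
    (1 : ENNReal) ≤ (FormalMultilinearSeries.ofScalars ℂ c).radius := by
  refine le_of_forall_lt_imp_le_of_dense fun r hr => ?_
  rcases eq_or_ne r 0 with rfl | hr'
  · simp
  · lift r to NNReal using hr.ne_top
    apply FormalMultilinearSeries.le_radius_of_summable
    have hr1 : (r : ℝ) < 1 := by exact_mod_cast hr
    have hr0 : (r : ℂ) ≠ 0 := by
      have : r ≠ 0 := by exact_mod_cast hr'
      exact_mod_cast this
    have := hs (r : ℂ) hr0 (by simpa using hr1)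
    simpa [FormalMultilinearSeries.ofScalars_norm] using this

/-- the sum of a scalar power series of radius `≥ 1` at a point of the open unit disc. -/
theorem invExp_hasSum_sum (c : ℕ → ℂ)
    (hrad : (1 : ENNReal) ≤ (FormalMultilinearSeries.ofScalars ℂ c).radius) {z : ℂ}
    (hz1 : ‖z‖ < 1) :
    HasSum (fun n : ℕ => c n * z ^ n) ((FormalMultilinearSeries.ofScalars ℂ c).sum z) := by
  set P : FormalMultilinearSeries ℂ ℂ ℂ := FormalMultilinearSeries.ofScalars ℂ c with hP
  have hpos : 0 < P.radius := lt_of_lt_of_le one_pos hrad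
  have hF := P.hasFPowerSeriesOnBall hpos
  have h1 : HasSum (fun n : ℕ => P n fun _ => z) (P.sum z) := by
    have := hF.hasSum (y := z) (by
      have hz1' : ‖z‖ₑ < 1 := by
        rw [← ofReal_norm]
        exact (ENNReal.ofReal_lt_one).mpr hz1
      have : ‖z‖ₑ < P.radius := lt_of_lt_of_le hz1' hrad
      simpa [Metric.eball, edist_zero_right] using this)
    simpa using this
  have h2 : (fun n : ℕ => P n fun _ => z) = fun n => c n * z ^ n := by
    funext n
    simp [hP, mul_comm]
  rw [h2] at h1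
  exact h1

/-- the sum of a scalar power series of radius `≥ 1` is holomorphic on the open unit disc. -/
theorem invExp_differentiableOn (c : ℕ → ℂ)
    (hrad : (1 : ENNReal) ≤ (FormalMultilinearSeries.ofScalars ℂ c).radius) :
    DifferentiableOn ℂ (FormalMultilinearSeries.ofScalars ℂ c).sum (Metric.ball (0 : ℂ) 1) := by
  set P : FormalMultilinearSeries ℂ ℂ ℂ := FormalMultilinearSeries.ofScalars ℂ c with hP
  have hpos : 0 < P.radius := lt_of_lt_of_le one_pos hrad
  have hF := P.hasFPowerSeriesOnBall hpos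
  have hF1 : HasFPowerSeriesOnBall P.sum P 0 1 := hF.mono one_pos hrad
  have han := hF1.analyticOnNhd
  intro z hz
  have hz1 : ‖z‖ < 1 := by simpa using hz
  have hz1' : ‖z‖ₑ < 1 := by
    rw [← ofReal_norm]
    exact (ENNReal.ofReal_lt_one).mpr hz1
  have hz' : z ∈ Metric.eball (0 : ℂ) 1 := by
    simpa [Metric.eball, edist_zero_right] using hz1'
  exact (han z hz').differentiableAt.differentiableWithinAt

/-- **Inverse of a nonvanishing power series on the unit disc.** -/
theorem invExp_disc (c : ℕ → ℂ)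
    (hs : ∀ z : ℂ, z ≠ 0 → ‖z‖ < 1 → Summable (fun n : ℕ => ‖c n‖ * ‖z‖ ^ n))
    (hc0 : c 0 ≠ 0)
    (hne : ∀ z : ℂ, z ≠ 0 → ‖z‖ < 1 → ∀ s : ℂ, HasSum (fun n : ℕ => c n * z ^ n) s → s ≠ 0) :
    ∃ q : ℕ → ℂ, ∀ z : ℂ, ‖z‖ < 1 →
      Summable (fun n : ℕ => ‖q n‖ * ‖z‖ ^ n) ∧
      ∀ s : ℂ, HasSum (fun n : ℕ => c n * z ^ n) s → HasSum (fun n : ℕ => q n * z ^ n) s⁻¹ := by
  have hrad := invExp_one_le_radius c hs
  set G : ℂ → ℂ := (FormalMultilinearSeries.ofScalars ℂ c).sum with hG
  have hGsum : ∀ z : ℂ, ‖z‖ < 1 → HasSum (fun n : ℕ => c n * z ^ n) (G z) :=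
    fun z hz => invExp_hasSum_sum c hrad hz
  have hGne : ∀ z : ℂ, ‖z‖ < 1 → G z ≠ 0 := by
    intro z hz
    rcases eq_or_ne z 0 with rfl | hz0
    · have h0 : HasSum (fun n : ℕ => c n * (0 : ℂ) ^ n) (c 0) := by
        have := hasSum_single (f := fun n : ℕ => c n * (0 : ℂ) ^ n) 0
          (fun n hn => by simp [hn])
        simpa using this
      rw [(hGsum 0 hz).unique h0]
      exact hc0
    · exact hne z hz0 hz _ (hGsum z hz)
  have hGd : DifferentiableOn ℂ G (Metric.ball (0 : ℂ) 1) := invExp_differentiableOn c hrad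
  set H : ℂ → ℂ := fun z => (G z)⁻¹ with hH
  have hHd : DifferentiableOn ℂ H (Metric.ball (0 : ℂ) ((1 : NNReal) : ℝ)) := by
    have : DifferentiableOn ℂ H (Metric.ball (0 : ℂ) 1) :=
      hGd.inv (fun z hz => hGne z (by simpa using hz))
    simpa using this
  set q : ℕ → ℂ := fun n => ((n.factorial : ℂ))⁻¹ * iteratedDeriv n H 0 with hq
  have hHsum : ∀ z : ℂ, ‖z‖ < 1 → HasSum (fun n : ℕ => q n * z ^ n) (H z) := by
    intro z hz
    have hz' : z ∈ Metric.ball (0 : ℂ) ((1 : NNReal) : ℝ) := by simpa using hz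
    have := Complex.hasSum_taylorSeries_on_ball hHd hz'
    have e : (fun n : ℕ => q n * z ^ n) =
        fun n : ℕ => ((n.factorial : ℂ))⁻¹ • (z - 0) ^ n • iteratedDeriv n H 0 := by
      funext n
      simp only [hq, sub_zero, smul_eq_mul]
      ring
    rw [e]
    exact this
  have hqs : ∀ z : ℂ, ‖z‖ < 1 → Summable (fun n : ℕ => ‖q n‖ * ‖z‖ ^ n) := by
    have hradq : (1 : ENNReal) ≤ (FormalMultilinearSeries.ofScalars ℂ q).radius := by
      refine le_of_forall_lt_imp_le_of_dense fun r hr => ?_
      lift r to NNReal using hr.ne_top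
      have hr1 : (r : ℝ) < 1 := by exact_mod_cast hr
      have hsum := (hHsum (r : ℂ) (by simpa using hr1)).summable
      have ht := hsum.tendsto_atTop_zero
      have ht' : Filter.Tendsto (fun n : ℕ => ‖q n * (r : ℂ) ^ n‖) Filter.atTop (nhds 0) := by
        simpa using ht.norm
      apply FormalMultilinearSeries.le_radius_of_tendsto (l := 0)
      convert ht' using 1
      funext n
      simp
    intro z hz
    have hlt : ((‖z‖₊ : NNReal) : ENNReal) < (FormalMultilinearSeries.ofScalars ℂ q).radius := by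
      refine lt_of_lt_of_le ?_ hradq
      exact_mod_cast hz
    have := (FormalMultilinearSeries.ofScalars ℂ q).summable_norm_mul_pow hlt
    simpa [FormalMultilinearSeries.ofScalars_norm] using this
  refine ⟨q, fun z hz => ⟨hqs z hz, fun s hs' => ?_⟩⟩
  have : s = G z := hs'.unique (hGsum z hz)
  rw [this]
  exact hHsum z hz

/-- **A2-INV.** The inverse of a nowhere vanishing function with a power series expansion in `u`
has a Laurent expansion in `u`. -/
theorem hasExp_inv_of_ne_zero {M : ℕ} [NeZero M] {D : Fun} {p : PowerSeries ℂ} (hhol : IsHol D)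
    (hD : HasPExp M D p) (hne : ∀ τ : ℍ, D τ ≠ 0) :
    ∃ a : LaurentSeries ℂ, HasExp M (fun τ => (D τ)⁻¹) a := by
  -- `p ≠ 0`
  have hp0 : p ≠ 0 := by
    rintro rfl
    have h := (hD UpperHalfPlane.I).2
    have h0 : HasSum (fun n : ℕ => iota (PowerSeries.coeff n (0 : PowerSeries Kc)) *
        uParam M UpperHalfPlane.I ^ n) 0 := by
      have : (fun n : ℕ => iota (PowerSeries.coeff n (0 : PowerSeries Kc)) *
          uParam M UpperHalfPlane.I ^ n) = fun _ => (0 : ℂ) := by
        funext n
        simp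
      rw [this]
      exact hasSum_zero
    exact hne _ (h.unique h0)
  set m : ℕ := p.order.toNat with hm
  set c : ℕ → ℂ := fun n => PowerSeries.coeff (n + m) p with hc
  have hc0 : c 0 ≠ 0 := by
    simp only [hc, zero_add]
    exact PowerSeries.coeff_order hp0
  have hlow : ∀ i : ℕ, i < m → PowerSeries.coeff i p = 0 := by
    intro i hi
    exact PowerSeries.coeff_of_lt_order_toNat i hi
  -- the expansion of `D / u^m`
  have hsumm : ∀ τ : ℍ, Summable (fun n : ℕ => ‖c n‖ * ‖uParam M τ‖ ^ n) := by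
    intro τ
    have h1 := (hD τ).1
    have h2 := (summable_nat_add_iff m).mpr h1
    have h3 := h2.mul_right ((‖uParam M τ‖ ^ m)⁻¹)
    refine h3.congr (fun n => ?_)
    have hu : ‖uParam M τ‖ ^ m ≠ 0 := pow_ne_zero _ (norm_ne_zero_iff.mpr (uParam_ne_zero M τ))
    simp only [hc, iota_apply]
    rw [pow_add]
    field_simp
  have hsum : ∀ τ : ℍ, HasSum (fun n : ℕ => c n * uParam M τ ^ n)
      (D τ * (uParam M τ ^ m)⁻¹) := by
    intro τ
    have h1 := (hD τ).2
    have h2 := (hasSum_nat_add_iff' m).mpr h1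
    have hz : ∑ i ∈ Finset.range m, iota (PowerSeries.coeff i p) * uParam M τ ^ i = 0 := by
      refine Finset.sum_eq_zero (fun i hi => ?_)
      rw [hlow i (Finset.mem_range.mp hi), map_zero, zero_mul]
    rw [hz, sub_zero] at h2
    have h3 := h2.mul_right ((uParam M τ ^ m)⁻¹)
    have e : (fun n : ℕ => c n * uParam M τ ^ n) =
        fun i : ℕ => iota (PowerSeries.coeff (i + m) p) * uParam M τ ^ (i + m) *
          (uParam M τ ^ m)⁻¹ := by
      funext n
      have hu : uParam M τ ^ m ≠ 0 := pow_ne_zero _ (uParam_ne_zero M τ)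
      simp only [hc, iota_apply]
      rw [pow_add]
      field_simp
    rw [e]
    exact h3
  -- the inverse on the disc
  obtain ⟨q, hq⟩ := invExp_disc c
    (fun z hz0 hz1 => by
      obtain ⟨τ, rfl⟩ := exists_uParam_eq M hz0 hz1
      exact hsumm τ)
    hc0
    (fun z hz0 hz1 s hs => by
      obtain ⟨τ, rfl⟩ := exists_uParam_eq M hz0 hz1
      rw [hs.unique (hsum τ)]
      exact mul_ne_zero (hne τ) (inv_ne_zero (pow_ne_zero _ (uParam_ne_zero M τ))))
  refine ⟨HahnSeries.single (-(m : ℤ)) (1 : Kc) *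
    HahnSeries.ofPowerSeries ℤ Kc (PowerSeries.mk q), m, PowerSeries.mk q, rfl, fun τ => ?_⟩
  obtain ⟨h1, h2⟩ := hq (uParam M τ) (norm_uParam_lt_one M τ)
  refine ⟨?_, ?_⟩
  · simpa using h1
  · have h3 := h2 _ (hsum τ)
    have e : (D τ * (uParam M τ ^ m)⁻¹)⁻¹ = (D τ)⁻¹ * uParam M τ ^ m := by
      rw [mul_inv, inv_inv]
    rw [e] at h3
    simpa using h3

end Fermat.Agent.S48WA2
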