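/-
S48 wall (W), block A2 (sub-architect helper36), seat A2-FORM (helper6):
modular forms on `Γ₁(M)` in the ambient ring `AH M` of `Dict/Amb.lean`.

Port of `F3/Dict/RatioBridge.lean` (`hasExp_mfFun`) and `F3/Dict/RatioCusp.lean` (`hasPExp_slFun`)
from `Γ₀(N)` to `Γ₁(M)`:

* `mfFun1 A`, `slFun1 A γ` : a modular form on `Γ₁(M)` and its translates `A ∣[w] γ` as elements of
  `Fun`;
* `hasExp_mfFun1`  : the `u_M`-expansion of `A` is its `q`-expansion with `q ↦ u^M`;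
* `hasPExp_slFun1` : the `u_M`-expansion of `A ∣[w] γ` is `qExpansion M (A ∣[w] γ)`;
* `slFun1_eq_zero_iff`, `qExpansion_slash1_ne_zero`;
* `smul_div_fun`   : `γ • (A / B) = (A ∣ γ⁻¹) / (B ∣ γ⁻¹)`;
* `isAH_div`       : `A / B` is in `AH M` if `B` has no zero on `ℍ` (from the inversion of
  expansions, seat A2-INV, helper84's `hasExp_inv_of_ne_zero`);
* `expLH_divFun1_mul` : the expansion of `A / B` at `∞`.
-/
import Mathlib
import Fermat.Agent.S48.W.A.Dict.Amb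
import Fermat.Agent.S48.W.A.Dict.InvExp
import Fermat.Agent.F3.I2.DictInterface

set_option autoImplicit false

noncomputable section

namespace Fermat.Agent.S48WA2

open UpperHalfPlane CongruenceSubgroup Fermat.Agent.F3Dict
open Matrix.SpecialLinearGroup ConjAct
open scoped MatrixGroups ModularForm Pointwise Manifold

/-! ### modular forms on `Γ₁(M)` as functions -/

/-- A modular form on `Γ₁(M)` as an element of `Fun`. -/
def mfFun1 {M : ℕ} {w : ℤ} (A : ModularForm (Gamma1 M) w) : Fun := fun τ => A τ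

@[simp] theorem mfFun1_apply {M : ℕ} {w : ℤ} (A : ModularForm (Gamma1 M) w) (τ : ℍ) :
    mfFun1 A τ = A τ := rfl

theorem isHol_mfFun1 {M : ℕ} {w : ℤ} (A : ModularForm (Gamma1 M) w) : IsHol (mfFun1 A) :=
  ModularFormClass.holo A

theorem one_mem_strictPeriods_Gamma1_form (M : ℕ) :
    (1 : ℝ) ∈ (Gamma1 M : Subgroup (GL (Fin 2) ℝ)).strictPeriods := by
  simp [CongruenceSubgroup.strictPeriods_Gamma1]

/-- "HasExp of a modular form = its `q`-expansion", power series form, in `q = u₁`. -/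
theorem hasPExp_mfFun1 {M : ℕ} {w : ℤ} (A : ModularForm (Gamma1 M) w) :
    HasPExp 1 (mfFun1 A) (UpperHalfPlane.qExpansion 1 A) := by
  intro τ
  have hΓ := one_mem_strictPeriods_Gamma1_form M
  have : Fact (IsCusp OnePoint.infty (Gamma1 M : Subgroup (GL (Fin 2) ℝ))) :=
    ⟨Subgroup.isCusp_of_mem_strictPeriods one_pos hΓ⟩
  have h := ModularForm.hasSum_qExpansion (f := A) one_pos hΓ τ
  have hu : uParam 1 τ = Function.Periodic.qParam 1 (τ : ℂ) := by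
    simp [uParam]
  have e : (fun n : ℕ => iota (PowerSeries.coeff n (UpperHalfPlane.qExpansion 1 A)) *
        uParam 1 τ ^ n)
      = fun m : ℕ => (PowerSeries.coeff m) (UpperHalfPlane.qExpansion 1 A) *
          Function.Periodic.qParam 1 (τ : ℂ) ^ m := by
    funext n
    rw [hu, iota_apply]
  refine ⟨?_, ?_⟩
  · have := h.summable.norm
    simpa [norm_mul, norm_pow, hu] using this
  · rw [e]
    exact h

/-- "HasExp of a modular form = its `q`-expansion": the expansion in `u_M = q^{1/M}` of a modular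
form on `Γ₁(M')` is its `q`-expansion with `q ↦ u^M`. -/
theorem hasExp_mfFun1 (M : ℕ) [NeZero M] {M' : ℕ} {w : ℤ} (A : ModularForm (Gamma1 M') w) :
    HasExp M (mfFun1 A) (ModularCurve.qExpand Kc M (F3I2.qLaurent A)) := by
  have h1 : HasExp 1 (mfFun1 A) (HahnSeries.ofPowerSeries ℤ Kc (UpperHalfPlane.qExpansion 1 A)) :=
    HasExp.of_hasPExp (hasPExp_mfFun1 A)
  have : NeZero (1 * M) := ⟨by simpa using NeZero.ne M⟩
  have h2 := HasExp.qExpand (M := 1) M h1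
  have e : 1 * M = M := one_mul M
  rw [e] at h2
  exact h2

/-- `mfFun1 A = 0 ↔ A = 0`. -/
theorem mfFun1_eq_zero_iff {M : ℕ} {w : ℤ} (A : ModularForm (Gamma1 M) w) :
    mfFun1 A = 0 ↔ A = 0 := by
  constructor
  · intro h
    ext τ
    exact congrFun h τ
  · rintro rfl
    rfl

/-! ### translates -/

/-- `M` is a strict period of every `SL(2,ℤ)`-conjugate of `Γ₁(N)`, if `N ∣ M`. -/
theorem natCast_mem_strictPeriods_conj1 {N M : ℕ} (hNM : N ∣ M) (γ : SL(2, ℤ)) :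
    (M : ℝ) ∈ (ConjAct.toConjAct (mapGL ℝ γ)⁻¹ •
      ((Gamma1 N).map (mapGL ℝ) : Subgroup (GL (Fin 2) ℝ))).strictPeriods := by
  have hT : ModularGroup.T ^ (M : ℤ) ∈ Gamma N := by
    simpa using CongruenceSubgroup.ModularGroup_T_pow_mem_Gamma (N : ℤ) (M : ℤ)
      (by exact_mod_cast hNM)
  have hconj : γ * ModularGroup.T ^ (M : ℤ) * γ⁻¹ ∈ Gamma1 N := by
    have h := (CongruenceSubgroup.Gamma_normal N).conj_mem _ hT γ
    rw [Gamma1_mem]
    exact ⟨(Gamma_mem.mp h).1, (Gamma_mem.mp h).2.2.2, (Gamma_mem.mp h).2.2.1⟩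
  have hU : ∀ m : ℤ, Matrix.GeneralLinearGroup.upperRightHom ((m : ℝ)) =
      mapGL ℝ (ModularGroup.T ^ m) := by
    intro m
    simp only [Units.ext_iff, mapGL_coe_matrix, map_apply_coe]
    ext i j
    fin_cases i <;> fin_cases j <;> simp [ModularGroup.coe_T_zpow]
  have hU' := hU (M : ℤ)
  rw [Int.cast_natCast] at hU'
  rw [Subgroup.mem_strictPeriods_iff, Subgroup.mem_pointwise_smul_iff_inv_smul_mem,
    ← toConjAct_inv, inv_inv, toConjAct_smul, hU', ← map_inv, ← map_mul, ← map_mul]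
  exact Subgroup.mem_map_of_mem _ hconj

/-- The translate `A ∣[w] γ` of a modular form, as an element of `Fun`. -/
def slFun1 {M : ℕ} {w : ℤ} (A : ModularForm (Gamma1 M) w) (γ : SL(2, ℤ)) : Fun :=
  fun τ => ((⇑A ∣[w] γ : ℍ → ℂ)) τ

theorem slFun1_eq {M : ℕ} {w : ℤ} (A : ModularForm (Gamma1 M) w) (γ : SL(2, ℤ)) (τ : ℍ) :
    slFun1 A γ τ = ((⇑A ∣[w] γ : ℍ → ℂ)) τ := rfl

theorem slFun1_apply {M : ℕ} {w : ℤ} (A : ModularForm (Gamma1 M) w) (γ : SL(2, ℤ)) (τ : ℍ) :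
    slFun1 A γ τ = A (γ • τ) * (UpperHalfPlane.denom γ τ) ^ (-w) := by
  rw [slFun1_eq, ModularForm.SL_slash_apply]

theorem slFun1_one {M : ℕ} {w : ℤ} (A : ModularForm (Gamma1 M) w) : slFun1 A 1 = mfFun1 A := by
  funext τ
  rw [slFun1_eq, SlashAction.slash_one]
  rfl

/-- `A ∣[w] γ = A` for `γ ∈ Γ₁(M)`. -/
theorem slFun1_of_mem {M : ℕ} {w : ℤ} (A : ModularForm (Gamma1 M) w) {γ : SL(2, ℤ)}
    (hγ : γ ∈ Gamma1 M) : slFun1 A γ = mfFun1 A := by
  funext τ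
  have h : (⇑A ∣[w] (mapGL ℝ γ)) = ⇑A :=
    SlashInvariantFormClass.slash_action_eq A _ (Subgroup.mem_map_of_mem (mapGL ℝ) hγ)
  rw [slFun1_eq]
  exact congrFun h τ

theorem slFun1_mul {M : ℕ} {w : ℤ} (A : ModularForm (Gamma1 M) w) (γ δ : SL(2, ℤ)) (τ : ℍ) :
    slFun1 A (γ * δ) τ = slFun1 A γ (δ • τ) * (UpperHalfPlane.denom δ τ) ^ (-w) := by
  rw [slFun1_eq, SlashAction.slash_mul, ModularForm.SL_slash_apply]
  rfl

theorem isHol_slFun1 {M : ℕ} {w : ℤ} (A : ModularForm (Gamma1 M) w) (γ : SL(2, ℤ)) :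
    IsHol (slFun1 A γ) :=
  ModularFormClass.holo (ModularForm.translate A (mapGL ℝ γ))

/-- The `u_M`-expansion of a translate `A ∣[w] γ` of a modular form on `Γ₁(N)`, `N ∣ M`. -/
theorem hasPExp_slFun1_of_dvd {N M : ℕ} [NeZero M] (hNM : N ∣ M) {w : ℤ}
    (A : ModularForm (Gamma1 N) w) (γ : SL(2, ℤ)) :
    HasPExp M (slFun1 A γ) (UpperHalfPlane.qExpansion (M : ℝ) (⇑A ∣[w] γ)) := by
  intro τ
  have hΓ := natCast_mem_strictPeriods_conj1 hNM γ
  have hMpos : (0 : ℝ) < M := Nat.cast_pos.mpr (Nat.pos_of_ne_zero (NeZero.ne M))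
  have : Fact (IsCusp OnePoint.infty (ConjAct.toConjAct (mapGL ℝ γ)⁻¹ •
      ((Gamma1 N).map (mapGL ℝ) : Subgroup (GL (Fin 2) ℝ)))) :=
    ⟨Subgroup.isCusp_of_mem_strictPeriods hMpos hΓ⟩
  have h := ModularForm.hasSum_qExpansion (f := ModularForm.translate A (mapGL ℝ γ)) hMpos hΓ τ
  rw [ModularForm.coe_translate] at h
  have hcoe : (⇑A ∣[w] (mapGL ℝ γ)) = (⇑A ∣[w] γ) := rfl
  rw [hcoe] at h
  have hu : uParam M τ = Function.Periodic.qParam (M : ℝ) (τ : ℂ) := rfl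
  refine ⟨?_, ?_⟩
  · have := h.summable.norm
    simpa [norm_mul, norm_pow, hu] using this
  · rw [slFun1_eq]
    simpa [hu] using h

/-- The `u_M`-expansion of a translate `A ∣[w] γ` of a modular form on `Γ₁(M)`. -/
theorem hasPExp_slFun1 (M : ℕ) [NeZero M] {w : ℤ} (A : ModularForm (Gamma1 M) w)
    (γ : SL(2, ℤ)) :
    HasPExp M (slFun1 A γ) (UpperHalfPlane.qExpansion (M : ℝ) (⇑A ∣[w] γ)) :=
  hasPExp_slFun1_of_dvd (dvd_refl M) A γ

theorem hasExp_slFun1 (M : ℕ) [NeZero M] {w : ℤ} (A : ModularForm (Gamma1 M) w)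
    (γ : SL(2, ℤ)) :
    HasExp M (slFun1 A γ)
      (HahnSeries.ofPowerSeries ℤ Kc (UpperHalfPlane.qExpansion (M : ℝ) (⇑A ∣[w] γ))) :=
  HasExp.of_hasPExp (hasPExp_slFun1 M A γ)

theorem slFun1_eq_zero_iff {M : ℕ} {w : ℤ} (A : ModularForm (Gamma1 M) w) (γ : SL(2, ℤ)) :
    slFun1 A γ = 0 ↔ A = 0 := by
  constructor
  · intro h
    refine ModularForm.ext fun τ => ?_
    have h1 : slFun1 A γ (γ⁻¹ • τ) = 0 := congrFun h (γ⁻¹ • τ : ℍ)
    rw [slFun1_apply, smul_inv_smul] at h1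
    have hd : (UpperHalfPlane.denom γ ((γ⁻¹ • τ : ℍ) : ℂ)) ^ (-w) ≠ 0 :=
      zpow_ne_zero _ (UpperHalfPlane.denom_ne_zero _ _)
    exact (mul_eq_zero.mp h1).resolve_right hd
  · rintro rfl
    funext τ
    rw [slFun1_apply]
    simp

theorem qExpansion_slash1_ne_zero (M : ℕ) [NeZero M] {w : ℤ}
    {A : ModularForm (Gamma1 M) w} (hA : A ≠ 0) (γ : SL(2, ℤ)) :
    UpperHalfPlane.qExpansion (M : ℝ) (⇑A ∣[w] γ) ≠ 0 := by
  intro h0
  have h1 := hasPExp_slFun1 M A γ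
  rw [h0] at h1
  have h2 : HasPExp M (0 : Fun) (0 : PowerSeries Kc) := by
    have := HasPExp.const M (0 : Kc)
    simpa using this
  exact hA ((slFun1_eq_zero_iff A γ).mp (h1.fun_unique h2))

/-- a translate of a form without zeros on `ℍ` has no zeros on `ℍ`. -/
theorem slFun1_ne_zero {M : ℕ} {w : ℤ} (B : ModularForm (Gamma1 M) w) (hB : ∀ τ : ℍ, B τ ≠ 0)
    (γ : SL(2, ℤ)) (τ : ℍ) : slFun1 B γ τ ≠ 0 := by
  rw [slFun1_apply]
  exact mul_ne_zero (hB _) (zpow_ne_zero _ (UpperHalfPlane.denom_ne_zero _ _))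

/-! ### quotients -/

/-- the quotient `A / B` of two modular forms, as an element of `Fun`. -/
def divFun1 {M : ℕ} {w : ℤ} (A B : ModularForm (Gamma1 M) w) : Fun := fun τ => A τ / B τ

@[simp] theorem divFun1_apply {M : ℕ} {w : ℤ} (A B : ModularForm (Gamma1 M) w) (τ : ℍ) :
    divFun1 A B τ = A τ / B τ := rfl

/-- `γ • (A / B) = (A ∣ γ⁻¹) / (B ∣ γ⁻¹)`. -/
theorem smul_div_fun {M : ℕ} {w : ℤ} (A B : ModularForm (Gamma1 M) w) (γ : SL(2, ℤ)) :
    γ • divFun1 A B = fun τ => slFun1 A γ⁻¹ τ / slFun1 B γ⁻¹ τ := by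
  funext τ
  show A (γ⁻¹ • τ) / B (γ⁻¹ • τ) = slFun1 A γ⁻¹ τ / slFun1 B γ⁻¹ τ
  rw [slFun1_apply, slFun1_apply,
    mul_div_mul_right _ _ (zpow_ne_zero _ (UpperHalfPlane.denom_ne_zero _ _))]

theorem mdiff_div_fun {f g : ℍ → ℂ} (hf : MDifferentiable 𝓘(ℂ) 𝓘(ℂ) f)
    (hg : MDifferentiable 𝓘(ℂ) 𝓘(ℂ) g) (hne : ∀ τ : ℍ, g τ ≠ 0) :
    MDifferentiable 𝓘(ℂ) 𝓘(ℂ) (fun τ => f τ / g τ) := by
  intro τ
  have h1 := hf τ
  have h2 := hg τ
  rw [UpperHalfPlane.mdifferentiableAt_iff] at h1 h2 ⊢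
  have h3 := h1.div h2 (by simpa using hne τ)
  exact h3

theorem isHol_div_fun {f g : Fun} (hf : IsHol f) (hg : IsHol g) (hne : ∀ τ : ℍ, g τ ≠ 0) :
    IsHol ((fun τ => f τ / g τ) : Fun) :=
  mdiff_div_fun (f := fun τ => f τ) (g := fun τ => g τ) hf hg hne

theorem Gamma_le_Gamma1_form (M : ℕ) : Gamma M ≤ Gamma1 M := by
  intro γ hγ
  rw [Gamma1_mem]
  exact ⟨(Gamma_mem.mp hγ).1, (Gamma_mem.mp hγ).2.2.2, (Gamma_mem.mp hγ).2.2.1⟩

/-- the inversion of expansions (seat A2-INV, `Dict/InvExp.lean`), as a hypothesis. -/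
def InvExpProp (M : ℕ) : Prop :=
  ∀ {D : Fun} {p : PowerSeries Kc}, IsHol D → HasPExp M D p → (∀ τ : ℍ, D τ ≠ 0) →
    ∃ a : LaurentSeries Kc, HasExp M (fun τ => (D τ)⁻¹) a

/-- `A / B` is in the ambient ring `AH M` if `B` has no zero on `ℍ`. -/
theorem isAH_div_of (M : ℕ) [NeZero M] (hInv : InvExpProp M) {w : ℤ}
    (A B : ModularForm (Gamma1 M) w) (hB : ∀ τ : ℍ, B τ ≠ 0) :
    IsAH M (divFun1 A B) := by
  refine ⟨isHol_div_fun (isHol_mfFun1 A) (isHol_mfFun1 B) hB, fun γ hγ => ?_, fun γ => ?_⟩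
  · have hγ1 : γ⁻¹ ∈ Gamma1 M := inv_mem (Gamma_le_Gamma1_form M hγ)
    rw [smul_div_fun, slFun1_of_mem A hγ1, slFun1_of_mem B hγ1]
    rfl
  · rw [smul_div_fun]
    obtain ⟨a, ha⟩ := hInv (isHol_slFun1 B γ⁻¹) (hasPExp_slFun1 M B γ⁻¹)
      (slFun1_ne_zero B hB γ⁻¹)
    have h := (hasExp_slFun1 M A γ⁻¹).mul ha
    exact ⟨_, h⟩

/-- `isAH_div_of` with the quotient written as a `fun`. -/
theorem isAH_div_fun_of (M : ℕ) [NeZero M] (hInv : InvExpProp M) {w : ℤ}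
    (A B : ModularForm (Gamma1 M) w) (hB : ∀ τ : ℍ, B τ ≠ 0) :
    IsAH M (fun τ => A τ / B τ) :=
  isAH_div_of M hInv A B hB

/-- the expansion at `∞` of `A / B` (`B` without zeros on `ℍ`):
`expLH (A / B) · qExpand (q-expansion of B) = qExpand (q-expansion of A)`. -/
theorem expLH_divFun1_mul (M : ℕ) [NeZero M] {w : ℤ}
    (A B : ModularForm (Gamma1 M) w) (hB : ∀ τ : ℍ, B τ ≠ 0) (hAH : IsAH M (divFun1 A B)) :
    expLH M (LH.ofFun (divFun1 A B) hAH) * ModularCurve.qExpand Kc M (F3I2.qLaurent B)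
      = ModularCurve.qExpand Kc M (F3I2.qLaurent A) := by
  obtain ⟨a, ha⟩ := hAH.2.2 1
  rw [one_smul] at ha
  rw [expLH_ofFun _ hAH ha]
  have h1 := ha.mul (hasExp_mfFun1 M B)
  have h2 : divFun1 A B * mfFun1 B = mfFun1 A := by
    funext τ
    show A τ / B τ * B τ = A τ
    exact div_mul_cancel₀ _ (hB τ)
  rw [h2] at h1
  exact h1.unique (hasExp_mfFun1 M A)

theorem invExpProp (M : ℕ) [NeZero M] : InvExpProp M :=
  fun hhol hD hne => hasExp_inv_of_ne_zero hhol hD hne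

/-- **`A / B` is in the ambient ring `AH M`** if `B` has no zero on `ℍ`. -/
theorem isAH_div (M : ℕ) [NeZero M] {w : ℤ}
    (A B : ModularForm (Gamma1 M) w) (hB : ∀ τ : ℍ, B τ ≠ 0) :
    IsAH M (fun τ => A τ / B τ) :=
  isAH_div_of M (invExpProp M) A B hB

theorem isAH_divFun1 (M : ℕ) [NeZero M] {w : ℤ}
    (A B : ModularForm (Gamma1 M) w) (hB : ∀ τ : ℍ, B τ ≠ 0) :
    IsAH M (divFun1 A B) :=
  isAH_div_of M (invExpProp M) A B hB

end Fermat.Agent.S48WA2
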