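/-
S48 wall (W), block A2 (sub-architect helper36), seat A2-DIAM (helper6):
the DIAMOND automorphisms of the function field `FC1 M` of `X₁(M)` over `ℂ`.

For `γ ∈ Γ₀(M)` the translation `y ↦ γ⁻¹ • y` of the ambient field `LH M` preserves
`ℂ(j_d, Fr a) = φ (FC1 M)` (`j_d ↦ j_d`, `Fr a ↦ Fr (α a)`, `α = γ 0 0`), hence induces an
automorphism `σ` of `FC1 M` with `φ (σ x) = γ⁻¹ • φ x`; it is the diamond `⟨α⟩`.

* `diam_exists_sigma`     : the automorphism `σ` induced by `γ ∈ Γ₀(M)`;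
* `dictDiamondExists_of`  : `DictDiamondExists M`;
* `diam_phi_eq_smul`      : every `σ` with `IsDiamondC M d σ` satisfies `φ (σ x) = γ⁻¹ • φ x`
                            (`γ ∈ Γ₀(M)`, `γ 0 0 ≡ d`);
* `dictD3Diamond_of`      : `DictD3Diamond M` (`x = A / B ⟹ ⟨d⟩ x = (A ∣ γ) / (B ∣ γ)`).
-/
import Mathlib
import Fermat.Agent.S48.W.A.Dict.Seats
import Fermat.Agent.S48.W.A.Dict.Forms
import Fermat.Agent.S48.W.A.Dict.Emb
import Fermat.Agent.S48.W.A.Dict.Stab
import Fermat.Agent.S48.W.A.Dict.Ratio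
import Fermat.Agent.S48.W.A.Dict.D3Gen

set_option autoImplicit false
set_option linter.unusedVariables false
set_option linter.unusedSectionVars false

noncomputable section

namespace Fermat.Agent.S48WA2

open UpperHalfPlane CongruenceSubgroup ModularCurve AlgebraicCurve Fermat.Agent.F3Dict
open Fermat.Agent.S48W
open scoped MatrixGroups ModularForm

variable {M : ℕ} [NeZero M]

/-! ### representatives -/

theorem diam_sl_mk (a b c d : ℤ) (h : a * d - b * c = 1) :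
    ∃ g : SL(2, ℤ), g 0 0 = a ∧ g 0 1 = b ∧ g 1 0 = c ∧ g 1 1 = d :=
  ⟨⟨!![a, b; c, d], by rw [Matrix.det_fin_two_of]; exact h⟩, rfl, rfl, rfl, rfl⟩

/-- a representative `γ ∈ Γ₀(M)` of the diamond `⟨d⟩`: upper left entry `≡ d`. -/
theorem diam_exists_rep (d : (ZMod M)ˣ) :
    ∃ γ : SL(2, ℤ), γ ∈ Gamma0 M ∧ ((γ 0 0 : ℤ) : ZMod M) = (d : ZMod M) := by
  have hcop : IsCoprime (((d : ZMod M).val : ℕ) : ℤ) (M : ℤ) := by
    rw [Nat.isCoprime_iff_coprime]
    have : IsUnit ((((d : ZMod M).val : ℕ)) : ZMod M) := by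
      rw [ZMod.natCast_zmod_val]
      exact d.isUnit
    exact (ZMod.isUnit_iff_coprime _ _).mp this
  obtain ⟨u, v, huv⟩ := hcop
  obtain ⟨γ, h00, -, h10, -⟩ := diam_sl_mk (((d : ZMod M).val : ℕ) : ℤ) (-v) (M : ℤ) u
    (by linear_combination huv)
  refine ⟨γ, ?_, ?_⟩
  · rw [Gamma0_mem, h10]
    simp
  · rw [h00]
    simp

theorem diam_unit_mul_ne_zero {γ : SL(2, ℤ)} (hγ : γ ∈ Gamma0 M) {a : ZMod M} (ha : a ≠ 0) :
    ((γ 0 0 : ℤ) : ZMod M) * a ≠ 0 := by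
  intro h
  have h1 := stab_unit_of_Gamma0 hγ
  apply ha
  calc a = (((γ 1 1 : ℤ) : ZMod M) * ((γ 0 0 : ℤ) : ZMod M)) * a := by
        rw [mul_comm ((γ 1 1 : ℤ) : ZMod M), h1, one_mul]
    _ = ((γ 1 1 : ℤ) : ZMod M) * (((γ 0 0 : ℤ) : ZMod M) * a) := mul_assoc _ _ _
    _ = 0 := by rw [h, mul_zero]

theorem diam_unit_mul_ne_zero' (d : (ZMod M)ˣ) {a : ZMod M} (ha : a ≠ 0) :
    (d : ZMod M) * a ≠ 0 := by
  intro h
  apply ha
  calc a = ((d⁻¹ : (ZMod M)ˣ) : ZMod M) * ((d : ZMod M) * a) := by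
        rw [← mul_assoc, Units.inv_mul, one_mul]
    _ = 0 := by rw [h, mul_zero]

/-! ### the action of `Γ₀(M)` on the generators -/

theorem FrickeData.frLH_congr (D : FrickeData M) {a b : ZMod M} (h : a = b) (ha : a ≠ 0)
    (hb : b ≠ 0) : D.frLH a ha = D.frLH b hb := by
  subst h
  rfl

/-- `Fr a ∘ γ = Fr (α a)` in `LH M`. -/
theorem diam_inv_smul_frLH (D : FrickeData M) {γ : SL(2, ℤ)} (hγ : γ ∈ Gamma0 M) (a : ZMod M)
    (ha : a ≠ 0) :
    γ⁻¹ • D.frLH a ha =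
      D.frLH (((γ 0 0 : ℤ) : ZMod M) * a) (diam_unit_mul_ne_zero hγ ha) := by
  unfold FrickeData.frLH
  rw [LH.smul_ofFun]
  exact LH.ofFun_congr _ _ (D.smul γ hγ a ha)

theorem diam_smul_mem_adjoin (D : FrickeData M) {γ : SL(2, ℤ)} (hγ : γ ∈ Gamma0 M)
    {y : LH M} (hy : y ∈ IntermediateField.adjoin ℂ (genSet1 D)) :
    γ⁻¹ • y ∈ IntermediateField.adjoin ℂ (genSet1 D) := by
  induction hy using IntermediateField.adjoin_induction with
  | mem x hx =>
    rcases hx with ⟨d, hd0, hd, rfl⟩ | ⟨a, ha, rfl⟩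
    · rw [stab_smul_jdLH M d hd (inv_mem hγ)]
      exact jdLH_mem_genField1 D d hd
    · rw [diam_inv_smul_frLH D hγ a ha]
      exact frLH_mem_genField1 D _ _
  | algebraMap c =>
    rw [smul_algebraMap]
    exact (IntermediateField.adjoin ℂ (genSet1 D)).algebraMap_mem c
  | add x y _ _ hx hy =>
    rw [smul_add]
    exact add_mem hx hy
  | inv x _ hx =>
    rw [smul_inv'']
    exact inv_mem hx
  | mul x y _ _ hx hy =>
    rw [smul_mul']
    exact mul_mem hx hy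

/-- `Γ₀(M)` preserves the field `ℂ(j_d, Fr a)`. -/
theorem diam_smul_mem_genField1 (D : FrickeData M) {γ : SL(2, ℤ)} (hγ : γ ∈ Gamma0 M)
    {y : LH M} (hy : y ∈ genField1 D) : γ⁻¹ • y ∈ genField1 D :=
  diam_smul_mem_adjoin D hγ hy

/-! ### the automorphism induced by `γ ∈ Γ₀(M)` -/

set_option synthInstance.maxHeartbeats 400000 in
/-- the automorphism `σ` of `FC1 M` induced by `γ ∈ Γ₀(M)`: `φ (σ x) = γ⁻¹ • φ x`. -/
theorem diam_exists_sigma (D : FrickeData M) {φ : FC1 M →ₐ[ℂ] LH M} (hφ : IsPhi M φ)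
    {γ : SL(2, ℤ)} (hγ : γ ∈ Gamma0 M) :
    ∃ σ : FC1 M ≃ₐ[ℂ] FC1 M, ∀ x : FC1 M, φ (σ x) = γ⁻¹ • φ x := by
  have hinj : Function.Injective φ := φ.toRingHom.injective
  have key : ∀ g : SL(2, ℤ), g ∈ Gamma0 M → ∀ x : FC1 M, ∃ x' : FC1 M, φ x' = g⁻¹ • φ x :=
    fun g hg x =>
      hφ.exists_eq_of_mem_genField1 D (diam_smul_mem_genField1 D hg (hφ.mem_genField1 D x))
  choose f hf using key
  refine ⟨{ toFun := f γ hγ
            invFun := f γ⁻¹ (inv_mem hγ)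
            left_inv := ?_
            right_inv := ?_
            map_mul' := ?_
            map_add' := ?_
            commutes' := ?_ }, fun x => hf γ hγ x⟩
  · intro x
    apply hinj
    rw [hf, hf, inv_inv, smul_inv_smul]
  · intro x
    apply hinj
    rw [hf, hf, inv_inv, inv_smul_smul]
  · intro x y
    apply hinj
    rw [hf, map_mul φ, map_mul φ, hf, hf, smul_mul']
  · intro x y
    apply hinj
    rw [hf, map_add φ, map_add φ, hf, hf, smul_add]
  · intro c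
    apply hinj
    rw [hf, AlgHom.commutes, smul_algebraMap]

/-- the automorphism induced by `γ ∈ Γ₀(M)` is the diamond `⟨γ 0 0⟩`. -/
theorem diam_isDiamondC_of_smul (D : FrickeData M) {φ : FC1 M →ₐ[ℂ] LH M} (hφ : IsPhi M φ)
    {γ : SL(2, ℤ)} (hγ : γ ∈ Gamma0 M) (d : (ZMod M)ˣ)
    (hd : ((γ 0 0 : ℤ) : ZMod M) = (d : ZMod M)) (σ : FC1 M ≃ₐ[ℂ] FC1 M)
    (hσ : ∀ x : FC1 M, φ (σ x) = γ⁻¹ • φ x) : IsDiamondC M d σ := by
  have hinj : Function.Injective φ := φ.toRingHom.injective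
  refine ⟨?_, ?_⟩
  · rintro x ⟨e, he0, he, rfl⟩ hx
    apply hinj
    have h1 : (⟨coeffEmb ℂ (qExpand ℚ e jq), hx⟩ : FC1 M) = jdBar1 M e he := rfl
    rw [h1, hσ, hφ.jdBar1 e he, stab_smul_jdLH M e he (inv_mem hγ)]
  · intro a ha h₁ h₂
    apply hinj
    have h1 : (⟨coeffEmb ℂ (fricke M a), h₁⟩ : FC1 M) = frickeBar1 M a ha := rfl
    have h2 : (⟨coeffEmb ℂ (fricke M ((d : ZMod M) * a)), h₂⟩ : FC1 M) =
        frickeBar1 M ((d : ZMod M) * a) (diam_unit_mul_ne_zero' d ha) := rfl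
    rw [h1, h2, hσ, hφ.frickeBar1 D a ha, hφ.frickeBar1 D, diam_inv_smul_frLH D hγ a ha]
    exact D.frLH_congr (by rw [hd]) _ _

/-- **(D3-δ, existence)** the diamond automorphisms of `FC1 M` exist. -/
theorem dictDiamondExists_of (D : FrickeData M) : DictDiamondExists M := by
  intro d
  obtain ⟨γ, hγ, hd⟩ := diam_exists_rep d
  obtain ⟨σ, hσ⟩ := diam_exists_sigma D (isPhi_embHom1 D) hγ
  exact ⟨σ, diam_isDiamondC_of_smul D (isPhi_embHom1 D) hγ d hd σ hσ⟩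

/-! ### uniqueness: every diamond is induced by `γ` -/

/-- every `σ` with `IsDiamondC M d σ` is induced by any `γ ∈ Γ₀(M)` with `γ 0 0 ≡ d`. -/
theorem diam_phi_eq_smul (D : FrickeData M) {φ : FC1 M →ₐ[ℂ] LH M} (hφ : IsPhi M φ)
    {γ : SL(2, ℤ)} (hγ : γ ∈ Gamma0 M) (d : (ZMod M)ˣ)
    (hd : ((γ 0 0 : ℤ) : ZMod M) = (d : ZMod M)) (σ : FC1 M ≃ₐ[ℂ] FC1 M)
    (hσ : IsDiamondC M d σ) (x : FC1 M) : φ (σ x) = γ⁻¹ • φ x := by
  set Φ₁ : laurentBaseChange ℂ (IntermediateField.adjoin ℚ (genOne M)) →+* LH M :=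
    (φ : FC1 M →+* LH M).comp (σ : FC1 M →+* FC1 M) with hΦ₁
  set Φ₂ : laurentBaseChange ℂ (IntermediateField.adjoin ℚ (genOne M)) →+* LH M :=
    (MulSemiringAction.toRingHom SL(2, ℤ) (LH M) γ⁻¹).comp (φ : FC1 M →+* LH M) with hΦ₂
  have h12 : Φ₁ = Φ₂ := by
    apply ringHom_ext_lbc
    · intro c
      show φ (σ (algebraMap ℂ (FC1 M) c)) = γ⁻¹ • φ (algebraMap ℂ (FC1 M) c)
      rw [AlgEquiv.commutes, AlgHom.commutes, smul_algebraMap]
    · rintro s (hs | ⟨a, ha, rfl⟩) h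
      · show φ (σ ⟨coeffEmb ℂ s, h⟩) = γ⁻¹ • φ ⟨coeffEmb ℂ s, h⟩
        rw [hσ.1 s hs h]
        obtain ⟨e, he0, he, rfl⟩ := hs
        have h1 : (⟨coeffEmb ℂ (qExpand ℚ e jq), h⟩ : FC1 M) = jdBar1 M e he := rfl
        rw [h1, hφ.jdBar1 e he, stab_smul_jdLH M e he (inv_mem hγ)]
      · show φ (σ ⟨coeffEmb ℂ (fricke M a), h⟩) = γ⁻¹ • φ ⟨coeffEmb ℂ (fricke M a), h⟩
        have h₂ : coeffEmb ℂ (fricke M ((d : ZMod M) * a)) ∈ FC1 M :=
          coeffEmb_mem_laurentBaseChange ℂ (fricke_mem M (diam_unit_mul_ne_zero' d ha))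
        rw [hσ.2 a ha h h₂]
        have h1 : (⟨coeffEmb ℂ (fricke M a), h⟩ : FC1 M) = frickeBar1 M a ha := rfl
        have h2 : (⟨coeffEmb ℂ (fricke M ((d : ZMod M) * a)), h₂⟩ : FC1 M) =
            frickeBar1 M ((d : ZMod M) * a) (diam_unit_mul_ne_zero' d ha) := rfl
        rw [h1, h2, hφ.frickeBar1 D a ha, hφ.frickeBar1 D, diam_inv_smul_frLH D hγ a ha]
        exact D.frLH_congr (by rw [hd]) _ _
  exact congrArg (fun Φ : laurentBaseChange ℂ (IntermediateField.adjoin ℚ (genOne M)) →+* LH M =>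
    Φ x) h12

/-! ### the diamonds in terms of modular forms -/

/-- converse of the cross-multiplication: if `A · b = B · a` as functions on `ℍ`, `b ≠ 0` and
`φ y = a / b`, then the `q`-expansion of `A` is `y` times the `q`-expansion of `B`. -/
theorem diam_qLaurent_eq_of_mul_eq_mul {φ : FC1 M →ₐ[ℂ] LH M} (hφ : IsPhi M φ) (y : FC1 M)
    {w : ℤ} (A B : ModularForm (Gamma1 M) w) (a b : AH M) (hb : b ≠ 0)
    (hy : φ y * algebraMap (AH M) (LH M) b = algebraMap (AH M) (LH M) a)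
    (hmul : mfFun1 A * (b : Fun) = mfFun1 B * (a : Fun)) :
    F3I2.qLaurent A = (y : LaurentSeries ℂ) * F3I2.qLaurent B := by
  have e1 : expLH M (φ y) = qExpand ℂ M (y : LaurentSeries ℂ) := hφ y
  have e2 := congrArg (expLH M) hy
  rw [map_mul, expLH_algebraMap, expLH_algebraMap, e1] at e2
  have hA := (hasExp_mfFun1 M A).mul (hasExp_expAH b)
  have hB := (hasExp_mfFun1 M B).mul (hasExp_expAH a)
  rw [hmul] at hA
  have key := hA.unique hB
  have hb' : expAH M b ≠ 0 := by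
    intro h0
    exact hb (expAH_injective M (by rw [h0, map_zero]))
  have key2 : qExpand ℂ M (F3I2.qLaurent A) =
      qExpand ℂ M ((y : LaurentSeries ℂ) * F3I2.qLaurent B) := by
    apply mul_right_cancel₀ hb'
    rw [map_mul]
    calc qExpand ℂ M (F3I2.qLaurent A) * expAH M b
        = qExpand Kc M (F3I2.qLaurent B) * expAH M a := key
      _ = qExpand ℂ M (y : LaurentSeries ℂ) * qExpand ℂ M (F3I2.qLaurent B) * expAH M b := by
          rw [← e2]
          ring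
  exact (qExpand ℂ M).injective key2

/-- **(D3-δ)** the diamond automorphism `⟨d⟩` in terms of modular forms: if `x = A / B` then
`⟨d⟩ x = (A ∣ γ) / (B ∣ γ)` for every `γ ∈ Γ₀(M)` with upper left entry `≡ d mod M`. -/
theorem dictD3Diamond_of (D : FrickeData M) : DictD3Diamond M := by
  intro d σ hσ γ hγ hd w A B x hx A' B' hA' hB'
  have hφ : IsPhi M (embHom1 D) := isPhi_embHom1 D
  set φ := embHom1 D with hφdef
  have hA1 : mfFun1 A' = slFun1 A γ := by
    funext τ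
    show A' τ = _
    rw [slFun1_eq, ← hA']
  have hB1 : mfFun1 B' = slFun1 B γ := by
    funext τ
    show B' τ = _
    rw [slFun1_eq, ← hB']
  refine ⟨?_, ?_⟩
  · intro h0
    apply hx.1
    rw [← slFun1_eq_zero_iff B γ, ← hB1, h0]
    exact (mfFun1_eq_zero_iff (0 : ModularForm (Gamma1 M) w)).mpr rfl
  · obtain ⟨a, b, hb, hab⟩ := IsFractionRing.div_surjective (A := AH M) (φ x)
    have hb0 : b ≠ 0 := nonZeroDivisors.ne_zero hb
    have hbL : algebraMap (AH M) (LH M) b ≠ 0 := by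
      intro h0
      exact hb0 ((IsFractionRing.injective (AH M) (LH M)) (by rw [h0, map_zero]))
    have hxab : φ x * algebraMap (AH M) (LH M) b = algebraMap (AH M) (LH M) a := by
      rw [← hab, div_mul_cancel₀ _ hbL]
    have hmul := hφ.mul_eq_mul_of_isRatio1 x A B hx a b hxab
    -- the translated identity
    have key1 : slFun1 A γ * ((γ⁻¹ • b : AH M) : Fun) =
        slFun1 B γ * ((γ⁻¹ • a : AH M) : Fun) := by
      ext τ
      have h1 : (mfFun1 A * (b : Fun)) (γ • τ) = (mfFun1 B * (a : Fun)) (γ • τ) := by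
        rw [hmul]
      rw [Fun.mul_apply, Fun.mul_apply, mfFun1_apply, mfFun1_apply] at h1
      rw [Fun.mul_apply, Fun.mul_apply, AH.coe_smul, AH.coe_smul, Fun.sl_smul_apply,
        Fun.sl_smul_apply, inv_inv, slFun1_apply, slFun1_apply]
      rw [mul_right_comm, h1]
      exact mul_right_comm _ _ _
    have hγb : (γ⁻¹ • b : AH M) ≠ 0 := by
      intro h0
      apply hb0
      have := congrArg (fun f => γ • f) h0
      simpa using this
    have hy : φ (σ x) * algebraMap (AH M) (LH M) (γ⁻¹ • b) =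
        algebraMap (AH M) (LH M) (γ⁻¹ • a) := by
      rw [diam_phi_eq_smul D hφ hγ d hd σ hσ x, ← LH.smul_algebraMap, ← LH.smul_algebraMap,
        ← smul_mul', hxab]
    rw [← hA1, ← hB1] at key1
    exact diam_qLaurent_eq_of_mul_eq_mul hφ (σ x) A' B' _ _ hγb hy key1

end Fermat.Agent.S48WA2
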