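/-
S48 wall (W), block A2, seat D1a (helper99): every element of the function field `FC1 M` of
`X₁(M)` is the quotient of two modular forms of equal weight on `Γ₁(M)` (`q`-expansions at `∞`).

`dictD1a1_of (W : WpForms M) : DictD1a1 M`.

Port of `F3/I2/Dict1.lean` (`Dict1IsRatio.*`, helper78): "is a ratio" is closed under the field
operations, and holds for the generators of `FC1 M`:
* constants;
* `j(q^d)`, `d ∣ M`: ratios of forms on `Γ₀(M) ⊇ Γ₁(M)` (`Dict1IsRatio.of_coeffEmb`);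
* the Fricke functions `fricke M a = (E₄ E₆ / Δ)(q^M) · wp_a(q)`:
  numerator `E₄(Mτ) E₆(Mτ) X_a(τ)`, denominator `Δ(Mτ)`, both of weight `12` on `Γ₁(M)`
  (`X_a` of weight `2` from hub A1, `WpForms M`).
-/
import Mathlib
import Fermat.Agent.S48.W.A.Dict.Seats
import Fermat.Agent.S48.W.A.K.Ratio
import Fermat.Agent.S48.W.A1.EqExp
import Fermat.Agent.F3.I2.Dict1

set_option autoImplicit false

noncomputable section

namespace Fermat.Agent.S48WA2

open UpperHalfPlane CongruenceSubgroup ModularCurve ModularForm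
open scoped MatrixGroups ModularForm
open Fermat.Agent.S23 Fermat.Agent.S48W Fermat.Agent.F3I2 Fermat.Agent.S28
open Fermat.Agent.S28.QExp
open Fermat.Agent.S48WA (G1)

/-! ### `Γ₁(M) ⊆ Γ₀(M)` -/

theorem d1a_G1_le_G0 (M : ℕ) : G1 M ≤ G0 M :=
  Subgroup.map_mono (Gamma1_in_Gamma0 M)

/-- `x` is the ratio of the expansions of two modular forms of the same weight on `Γ₁(M)`. -/
def D1aIsRatio (M : ℕ) (x : LaurentSeries ℂ) : Prop :=
  ∃ (k : ℤ) (a b : ℍ → ℂ), IsMF (G1 M) k a ∧ IsMF (G1 M) k b ∧ b ≠ 0 ∧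
    x * qLaurent b = qLaurent a

/-- ratios of forms on `Γ₀(M)` are ratios of forms on `Γ₁(M)`. -/
theorem D1aIsRatio.of_dict1 {M : ℕ} {x : LaurentSeries ℂ} (h : Dict1IsRatio M x) :
    D1aIsRatio M x := by
  obtain ⟨k, a, b, ha, hb, hb0, h⟩ := h
  exact ⟨k, a, b, ha.mono (d1a_G1_le_G0 M), hb.mono (d1a_G1_le_G0 M), hb0, h⟩

theorem D1aIsRatio.const (M : ℕ) (c : ℂ) :
    D1aIsRatio M (algebraMap ℂ (LaurentSeries ℂ) c) :=
  D1aIsRatio.of_dict1 (Dict1IsRatio.const M c)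

theorem D1aIsRatio.zero (M : ℕ) : D1aIsRatio M 0 :=
  D1aIsRatio.of_dict1 (Dict1IsRatio.zero M)

theorem D1aIsRatio.one (M : ℕ) : D1aIsRatio M 1 :=
  D1aIsRatio.of_dict1 (Dict1IsRatio.one M)

section Closure

variable {M : ℕ} [NeZero M]

theorem D1aIsRatio.add {x y : LaurentSeries ℂ} (hx : D1aIsRatio M x)
    (hy : D1aIsRatio M y) : D1aIsRatio M (x + y) := by
  obtain ⟨k, a, b, ha, hb, hb0, h⟩ := hx
  obtain ⟨k', a', b', ha', hb', hb0', h'⟩ := hy
  have h1 : IsMF (G1 M) (k + k') (a * b') := ha.mul hb'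
  have h2 : IsMF (G1 M) (k + k') (a' * b) := (ha'.mul hb).cast (add_comm _ _)
  refine ⟨k + k', a * b' + a' * b, b * b', h1.add h2, hb.mul hb',
    Fermat.Agent.S48WA.isMF_mul_ne_zero hb hb' hb0 hb0', ?_⟩
  rw [Fermat.Agent.S48WA.qLaurent_add_of_isMF h1 h2,
    Fermat.Agent.S48WA.qLaurent_mul_of_isMF ha hb',
    Fermat.Agent.S48WA.qLaurent_mul_of_isMF ha' hb,
    Fermat.Agent.S48WA.qLaurent_mul_of_isMF hb hb', ← h, ← h']
  ring

theorem D1aIsRatio.mul {x y : LaurentSeries ℂ} (hx : D1aIsRatio M x)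
    (hy : D1aIsRatio M y) : D1aIsRatio M (x * y) := by
  obtain ⟨k, a, b, ha, hb, hb0, h⟩ := hx
  obtain ⟨k', a', b', ha', hb', hb0', h'⟩ := hy
  refine ⟨k + k', a * a', b * b', ha.mul ha', hb.mul hb',
    Fermat.Agent.S48WA.isMF_mul_ne_zero hb hb' hb0 hb0', ?_⟩
  rw [Fermat.Agent.S48WA.qLaurent_mul_of_isMF ha ha',
    Fermat.Agent.S48WA.qLaurent_mul_of_isMF hb hb', ← h, ← h']
  ring

theorem D1aIsRatio.neg {x : LaurentSeries ℂ} (hx : D1aIsRatio M x) :
    D1aIsRatio M (-x) := by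
  obtain ⟨k, a, b, ha, hb, hb0, h⟩ := hx
  refine ⟨k, -a, b, ha.neg, hb, hb0, ?_⟩
  rw [Fermat.Agent.S48WA.qLaurent_neg_of_isMF ha, ← h]
  ring

theorem D1aIsRatio.inv {x : LaurentSeries ℂ} (hx : D1aIsRatio M x) :
    D1aIsRatio M x⁻¹ := by
  rcases eq_or_ne x 0 with rfl | hx0
  · simpa using D1aIsRatio.zero M
  obtain ⟨k, a, b, ha, hb, hb0, h⟩ := hx
  have hqb := Fermat.Agent.S48WA.qLaurent_ne_zero_of_isMF hb hb0
  have ha0 : a ≠ 0 := by
    rintro rfl
    rw [Fermat.Agent.S48WA.qLaurent_zero] at h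
    rcases mul_eq_zero.mp h with h1 | h1
    · exact hx0 h1
    · exact hqb h1
  refine ⟨k, b, a, hb, ha, ha0, ?_⟩
  rw [← h, ← mul_assoc, inv_mul_cancel₀ hx0, one_mul]

end Closure

/-! ### level raising `τ ↦ F (M τ)` of forms of level one -/

/-- `F ∣[k] diag(M, 1)` as a modular form on `Γ₀(M)`; its value at `τ` is `M^(k-1) F(M τ)`. -/
def d1aRaiseAux (M : ℕ) [NeZero M] {k : ℤ} (F : ModularForm 𝒮ℒ k) : ModularForm (G0 M) k where
  toFun := ⇑F ∣[k] heckeDiagMatrix M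
  slash_action_eq' γ hγ :=
    (ModularForm.translate F (heckeDiagMatrix M)).slash_action_eq' γ
      (Fermat.Agent.S23.Theta.G0_le_conj M hγ)
  holo' := (ModularForm.translate F (heckeDiagMatrix M)).holo'
  bdd_at_cusps' hc :=
    (ModularForm.translate F (heckeDiagMatrix M)).bdd_at_cusps'
      (hc.mono (Fermat.Agent.S23.Theta.G0_le_conj M))

/-- `τ ↦ F (M τ)` is a modular form of weight `k` on `Γ₀(M)`. -/
theorem d1a_isMF_comp_mulUH (M : ℕ) [NeZero M] {k : ℤ} (F : ModularForm 𝒮ℒ k) :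
    IsMF (G0 M) k (fun τ => F (mulUH M τ)) := by
  have hM : (M : ℂ) ≠ 0 := by exact_mod_cast NeZero.ne M
  refine ⟨(((M : ℂ) ^ (k - 1))⁻¹ : ℂ) • d1aRaiseAux M F, ?_⟩
  funext τ
  show ((M : ℂ) ^ (k - 1))⁻¹ • (⇑F ∣[k] heckeDiagMatrix M) τ = F (mulUH M τ)
  rw [slash_heckeDiagMatrix_apply k (NeZero.ne M), smul_eq_mul, ← mul_assoc,
    inv_mul_cancel₀ (zpow_ne_zero _ hM), one_mul, thmA_heckeDiag_smul]

/-- `τ ↦ F (M τ)` is a modular form of weight `k` on `Γ₁(M)`. -/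
theorem d1a_isMF1_comp_mulUH (M : ℕ) [NeZero M] {k : ℤ} (F : ModularForm 𝒮ℒ k) :
    IsMF (G1 M) k (fun τ => F (mulUH M τ)) :=
  (d1a_isMF_comp_mulUH M F).mono (d1a_G1_le_G0 M)

/-! ### the formal series -/

/-- The formal `E₆` with complex coefficients. -/
def d1aE6C : LaurentSeries ℂ :=
  HahnSeries.ofPowerSeries ℤ ℂ (PowerSeries.map (Int.castRingHom ℂ) eis6)

theorem d1a_hasQ_E6 : HasQ E₆ d1aE6C := by
  have := HasQ.of_isMF' (Γ := 𝒮ℒ) (by simp) (IsMF.of E₆)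
  rwa [Fermat.Agent.S48WA1Eq.qExpansion_E₆] at this

theorem d1a_coeffEmb_eisQuot :
    coeffEmb ℂ eisQuot = e4C * d1aE6C * deltaInvC := by
  unfold coeffEmb eisQuot e4C d1aE6C deltaInvC
  rw [map_mul, coeffMap_single, map_one, coeffMap_ofPowerSeries,
    ← RingHom.comp_apply (PowerSeries.map (algebraMap ℚ ℂ))
      (PowerSeries.map (Int.castRingHom ℚ)),
    ← PowerSeries.map_comp,
    RingHom.ext_int ((algebraMap ℚ ℂ).comp (Int.castRingHom ℚ)) (Int.castRingHom ℂ),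
    map_mul, map_mul, map_mul, map_mul]
  ring

theorem d1a_coeffEmb_fricke (M : ℕ) [NeZero M] (a : ZMod M) :
    coeffEmb ℂ (fricke M a) = qExpand ℂ M (e4C * d1aE6C * deltaInvC) *
      HahnSeries.ofPowerSeries ℤ ℂ ((wpSeries M a).map (Int.castRingHom ℂ)) := by
  rw [← d1a_coeffEmb_eisQuot]
  unfold fricke
  rw [map_mul]
  congr 1
  · exact coeffMap_qExpand (algebraMap ℚ ℂ) M eisQuot
  · unfold coeffEmb
    rw [coeffMap_ofPowerSeries,
      ← RingHom.comp_apply (PowerSeries.map (algebraMap ℚ ℂ))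
        (PowerSeries.map (Int.castRingHom ℚ)),
      ← PowerSeries.map_comp,
      RingHom.ext_int ((algebraMap ℚ ℂ).comp (Int.castRingHom ℚ)) (Int.castRingHom ℂ)]

/-! ### the Fricke functions are ratios -/

theorem D1aIsRatio.fricke {M : ℕ} [NeZero M] (W : WpForms M) (a : ZMod M) (ha : a ≠ 0) :
    D1aIsRatio M (coeffEmb ℂ (fricke M a)) := by
  -- the forms
  have h4 : IsMF (G1 M) 4 (fun τ => E₄ (mulUH M τ)) := d1a_isMF1_comp_mulUH M E₄
  have h6 : IsMF (G1 M) 6 (fun τ => E₆ (mulUH M τ)) := d1a_isMF1_comp_mulUH M E₆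
  have hΔ : IsMF (G1 M) 12 (fun τ => ModularForm.discriminant (mulUH M τ)) :=
    d1a_isMF1_comp_mulUH M (ModularFormClass.modularForm CuspForm.discriminant)
  have hX : IsMF (G1 M) 2 (⇑(W.X a)) := IsMF.of (W.X a)
  have hnum : IsMF (G1 M) 12
      (((fun τ => E₄ (mulUH M τ)) * fun τ => E₆ (mulUH M τ)) * ⇑(W.X a)) :=
    ((h4.mul h6).mul hX).cast (by norm_num)
  -- the expansions
  have q4 : HasQ (fun τ => E₄ (mulUH M τ)) (qExpand ℂ M e4C) := hasQ_E4.comp_mulUH M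
  have q6 : HasQ (fun τ => E₆ (mulUH M τ)) (qExpand ℂ M d1aE6C) := d1a_hasQ_E6.comp_mulUH M
  have qΔ := hasQ_discriminant_comp M
  have qX : HasQ (⇑(W.X a))
      (HahnSeries.ofPowerSeries ℤ ℂ ((wpSeries M a).map (Int.castRingHom ℂ))) := by
    have := Fermat.Agent.S48WA.hasQ_of_isMF hX
    unfold qLaurent at this
    rwa [W.qexp a ha] at this
  have e1 : qLaurent (fun τ => ModularForm.discriminant (mulUH M τ)) = qExpand ℂ M deltaC :=
    (Fermat.Agent.S48WA.hasQ_of_isMF hΔ).unique qΔ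
  have e2 : qLaurent (((fun τ => E₄ (mulUH M τ)) * fun τ => E₆ (mulUH M τ)) * ⇑(W.X a)) =
      qExpand ℂ M e4C * qExpand ℂ M d1aE6C *
        HahnSeries.ofPowerSeries ℤ ℂ ((wpSeries M a).map (Int.castRingHom ℂ)) :=
    (Fermat.Agent.S48WA.hasQ_of_isMF hnum).unique ((q4.mul q6).mul qX)
  refine ⟨12, _, _, hnum, hΔ, ?_, ?_⟩
  · intro h
    have := congrFun h ⟨Complex.I, by simp⟩
    exact discriminant_ne_zero _ this
  · rw [e1, e2, d1a_coeffEmb_fricke, map_mul, map_mul]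
    have hd : qExpand ℂ M deltaInvC * qExpand ℂ M deltaC = 1 := by
      rw [← map_mul, mul_comm, deltaC_mul_deltaInvC, map_one]
    calc qExpand ℂ M e4C * qExpand ℂ M d1aE6C * qExpand ℂ M deltaInvC *
          HahnSeries.ofPowerSeries ℤ ℂ ((wpSeries M a).map (Int.castRingHom ℂ)) *
          qExpand ℂ M deltaC
        = qExpand ℂ M e4C * qExpand ℂ M d1aE6C *
          HahnSeries.ofPowerSeries ℤ ℂ ((wpSeries M a).map (Int.castRingHom ℂ)) *
          (qExpand ℂ M deltaInvC * qExpand ℂ M deltaC) := by ring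
      _ = _ := by rw [hd, mul_one]

/-! ### (D1a) -/

theorem D1aIsRatio.of_coeffEmb {M : ℕ} [NeZero M] (W : WpForms M) {x₀ : LaurentSeries ℚ}
    (hx₀ : x₀ ∈ FOne M) : D1aIsRatio M (coeffEmb ℂ x₀) := by
  rw [FOne] at hx₀
  induction hx₀ using IntermediateField.adjoin_induction with
  | mem x hx =>
    rcases hx with hx | ⟨a, ha, rfl⟩
    · exact D1aIsRatio.of_dict1
        (Dict1IsRatio.of_coeffEmb M (IntermediateField.subset_adjoin ℚ _ hx))
    · exact D1aIsRatio.fricke W a ha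
  | algebraMap r =>
    have : coeffEmb ℂ (algebraMap ℚ (LaurentSeries ℚ) r) =
        algebraMap ℂ (LaurentSeries ℂ) (algebraMap ℚ ℂ r) := by
      rw [algebraMap_eq_single_zero, algebraMap_eq_single_zero, coeffEmb,
        coeffMap_single]
    rw [this]
    exact D1aIsRatio.const M _
  | add x y _ _ hx hy => rw [map_add]; exact hx.add hy
  | inv x _ hx => rw [map_inv₀]; exact hx.inv
  | mul x y _ _ hx hy => rw [map_mul]; exact hx.mul hy

theorem D1aIsRatio.of_mem {M : ℕ} [NeZero M] (W : WpForms M) {x : LaurentSeries ℂ}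
    (hx : x ∈ FC1 M) : D1aIsRatio M x := by
  rw [mem_laurentBaseChange_iff] at hx
  induction hx using Subfield.closure_induction with
  | mem x hx =>
    rcases hx with ⟨c, rfl⟩ | ⟨x₀, hx₀, rfl⟩
    · exact D1aIsRatio.const M c
    · exact D1aIsRatio.of_coeffEmb W hx₀
  | one => exact D1aIsRatio.one M
  | add x y _ _ hx hy => exact hx.add hy
  | neg x _ hx => exact hx.neg
  | inv x _ hx => exact hx.inv
  | mul x y _ _ hx hy => exact hx.mul hy

/-- **(D1a)** every element of `FC1 M` is a quotient of two modular forms of equal weight on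
`Γ₁(M)`. -/
theorem dictD1a1_of {M : ℕ} [NeZero M] (W : WpForms M) : DictD1a1 M := by
  intro x hx
  obtain ⟨k, a, b, ⟨A, rfl⟩, ⟨B, rfl⟩, hb0, h⟩ := D1aIsRatio.of_mem W x.2
  have hB : B ≠ 0 := by
    rintro rfl
    exact hb0 rfl
  have hqB := Fermat.Agent.S48WA.qLaurent_ne_zero_of_isMF (IsMF.of B) hb0
  have hx' : (x : LaurentSeries ℂ) ≠ 0 := fun h0 => hx (Subtype.ext h0)
  have hA : A ≠ 0 := by
    rintro rfl
    have h0 : qLaurent (⇑(0 : ModularForm (G1 M) k)) = 0 := Fermat.Agent.S48WA.qLaurent_zero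
    rw [h0] at h
    rcases mul_eq_zero.mp h with h1 | h1
    · exact hx' h1
    · exact hqB h1
  exact ⟨k, A, B, hA, hB, h.symm⟩

end Fermat.Agent.S48WA2
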