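/-
S48 wall (W), block A2, seat A2-GAL (helper98): the Galois correspondence for a Galois datum.

`Γ` acts on the field `L ⊇ φ(F)` through a finite quotient, the invariants of `L` are `K(φ t)`,
and `H` is the pointwise stabiliser of `φ(F)`.  Then every element of `L` fixed by `H` lies in
`φ(F)`.   (Abstract; the Galois group is built in `S24/GaloisDatum.lean`.)
-/
import Mathlib
import Fermat.Agent.S24.GaloisDatum

set_option autoImplicit false

namespace Fermat.Agent.S48WA2

/-- **A2-GAL.** Galois correspondence: an element of `L` fixed by the stabiliser `H` of `φ(F)`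
is in `φ(F)`. -/
theorem exists_eq_of_fixed {K F L Γ : Type*} [Field K] [Field F] [Field L]
    [Algebra K F] [Algebra K L] [Group Γ] [MulSemiringAction Γ L] [SMulCommClass Γ K L]
    (φ : F →ₐ[K] L) (t : F)
    (hfin : ∃ Γ' : Subgroup Γ, Γ'.FiniteIndex ∧ ∀ g ∈ Γ', ∀ x : L, g • x = x)
    (ht : ∀ g : Γ, g • φ t = φ t)
    (hfix : ∀ x : L, (∀ g : Γ, g • x = x) → x ∈ IntermediateField.adjoin K {φ t})
    (H : Subgroup Γ) (hH : ∀ g : Γ, g ∈ H ↔ ∀ x : F, g • φ x = φ x)
    (y : L) (hy : ∀ g ∈ H, g • y = y) : ∃ x : F, φ x = y := by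
  letI : Algebra F L := φ.toRingHom.toAlgebra
  haveI : IsScalarTower K F L := IsScalarTower.of_algebraMap_eq (fun a => (φ.commutes a).symm)
  haveI : Finite (S24Gal.imageGroup Γ L) := S24Gal.finite_imageGroup hfin
  have hG : IsGaloisGroup (S24Gal.imageGroup Γ L) (IntermediateField.adjoin K {t}) L :=
    S24Gal.isGaloisGroup_imageGroup (Γ := Γ) (L := L) (K := K) (F := F) t ht hfix
  have hGF : IsGaloisGroup (S24Gal.fixF Γ L F) F L :=
    IsGaloisGroup.of_isScalarTower _ (IntermediateField.adjoin K {t}) L F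
  have hinv := hGF.isInvariant.isInvariant y (fun σ => by
    obtain ⟨g, hg⟩ := S24Gal.imageGroup_smul_eq (Γ := Γ) (L := L) (σ : S24Gal.imageGroup Γ L)
    have hgH : g ∈ H := by
      rw [hH]
      intro x
      have h1 := (S24Gal.mem_fixF_iff (Γ := Γ) (L := L) (F := F)
        (σ : S24Gal.imageGroup Γ L)).mp σ.2 x
      rw [hg] at h1
      exact h1
    show (σ : S24Gal.imageGroup Γ L) • y = y
    rw [hg]
    exact hy g hgH)
  obtain ⟨x, hx⟩ := hinv
  exact ⟨x, hx⟩

end Fermat.Agent.S48WA2
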