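/-
S48 wall (W), block A2, seat A2-D1b (helper98): **(D1b) for `Γ₁(M)`**:
every quotient of two modular forms of equal weight on `Γ₁(M)` is an element of the function
field `FC1 M = ℂ(j(q^d), fricke M a)`.

Route (Galois correspondence in the ambient field `LH M`, sub-architect helper36):
for `x = A / B` put `P := A B¹¹ Δ^e / Δ^d`, `Q := B¹² Δ^e / Δ^d` (`e = |w|`, `d = w + e`), both in
the ambient ring `AH M` (`Dict/Forms.lean`); `y := P / Q ∈ LH M` is fixed by `± Γ₁(M)`, which is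
the stabiliser of `φ (FC1 M)`; so `y = φ x` (`Dict/GalFix.lean`, with the invariants
`LH M ^ SL(2,ℤ) = ℂ(j)` of `Dict/AmbInv.lean`), and comparing the expansions at `∞` gives
`qLaurent A = x · qLaurent B`.
-/
import Mathlib
import Fermat.Agent.S23.MF
import Fermat.Agent.S48.W.A.Dict.Seats
import Fermat.Agent.S48.W.A.Dict.Forms
import Fermat.Agent.S48.W.A.Dict.AmbInv
import Fermat.Agent.S48.W.A.Dict.GalFix

set_option autoImplicit false

noncomputable section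

namespace Fermat.Agent.S48WA2

open UpperHalfPlane CongruenceSubgroup ModularCurve AlgebraicCurve Fermat.Agent.F3Dict
open Fermat.Agent.S48W Fermat.Agent.F3I2 Fermat.Agent.S23
open scoped MatrixGroups ModularForm

/-! ### modular forms on `Γ₁(M)`: products, `Δ`, `q`-expansions -/

theorem d1b_G1_le_SL (M : ℕ) : (Gamma1 M : Subgroup (GL (Fin 2) ℝ)) ≤ 𝒮ℒ := by
  rintro _ ⟨γ, -, rfl⟩
  exact ⟨γ, rfl⟩

theorem d1b_isMF_discriminant (M : ℕ) :
    IsMF (Gamma1 M : Subgroup (GL (Fin 2) ℝ)) 12 (ModularForm.discriminant : ℍ → ℂ) :=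
  (IsMF.of (ModularFormClass.modularForm CuspForm.discriminant)).mono (d1b_G1_le_SL M)

theorem d1b_qa {M : ℕ} {k : ℤ} {f : ℍ → ℂ}
    (hf : IsMF (Gamma1 M : Subgroup (GL (Fin 2) ℝ)) k f) : QA f :=
  hf.qa (one_mem_strictPeriods_Gamma1_form M)

theorem d1b_qLaurent_mul {M : ℕ} {k₁ k₂ : ℤ} {a b : ℍ → ℂ}
    (ha : IsMF (Gamma1 M : Subgroup (GL (Fin 2) ℝ)) k₁ a)
    (hb : IsMF (Gamma1 M : Subgroup (GL (Fin 2) ℝ)) k₂ b) :
    qLaurent (a * b) = qLaurent a * qLaurent b := by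
  unfold qLaurent
  rw [(d1b_qa ha).qExpansion_mul (d1b_qa hb), map_mul]

theorem d1b_qLaurent_pow {M : ℕ} {k : ℤ} {a : ℍ → ℂ}
    (ha : IsMF (Gamma1 M : Subgroup (GL (Fin 2) ℝ)) k a) (n : ℕ) :
    qLaurent (a ^ n) = qLaurent a ^ n := by
  unfold qLaurent
  rw [(d1b_qa ha).qExpansion_pow n, map_pow]

/-- the `q`-expansion of a nonzero modular form on `Γ₁(M)` is nonzero. -/
theorem d1b_qLaurent_ne_zero {M : ℕ} {k : ℤ} (B : ModularForm (Gamma1 M) k) (hB : B ≠ 0) :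
    qLaurent B ≠ 0 := by
  intro h0
  have h1 : UpperHalfPlane.qExpansion 1 B = 0 := by
    have h2 : HahnSeries.ofPowerSeries ℤ ℂ (UpperHalfPlane.qExpansion 1 B)
        = HahnSeries.ofPowerSeries ℤ ℂ 0 := by
      rw [map_zero]
      exact h0
    exact HahnSeries.ofPowerSeries_injective h2
  have h3 := hasPExp_mfFun1 B
  rw [h1] at h3
  have h4 : HasPExp 1 (0 : Fun) (0 : PowerSeries Kc) := by
    have := HasPExp.const 1 (0 : Kc)
    simpa using this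
  exact hB ((mfFun1_eq_zero_iff B).mp (h3.fun_unique h4))

/-! ### `- 1` acts trivially -/

theorem d1b_neg_smul (γ : SL(2, ℤ)) (f : Fun) : (-γ) • f = γ • f := by
  ext τ
  show f ((-γ)⁻¹ • τ) = f (γ⁻¹ • τ)
  have h : (-γ)⁻¹ = -γ⁻¹ := by
    apply inv_eq_of_mul_eq_one_left
    rw [neg_mul_neg, inv_mul_cancel]
  rw [h, ModularGroup.SL_neg_smul]

/-- a quotient of two forms of the same weight on `Γ₁(M)` is invariant under `± Γ₁(M)`. -/
theorem d1b_smul_divFun1 {M : ℕ} {w : ℤ} (A B : ModularForm (Gamma1 M) w) {γ : SL(2, ℤ)}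
    (hγ : γ ∈ Gamma1pm M) : γ • divFun1 A B = divFun1 A B := by
  have key : ∀ δ : SL(2, ℤ), δ ∈ Gamma1 M → δ • divFun1 A B = divFun1 A B := by
    intro δ hδ
    rw [smul_div_fun, slFun1_of_mem A (inv_mem hδ), slFun1_of_mem B (inv_mem hδ)]
    rfl
  rcases hγ with h | h
  · exact key γ h
  · rw [← d1b_neg_smul]
    exact key _ h

/-! ### the main theorem -/

/-- **(D1b), core**: the ratio of two modular forms of the same weight on `Γ₁(M)` is in the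
image of `φ`, and the expansions match. -/
theorem d1b_exists_ratio {M : ℕ} [NeZero M] {φ : FC1 M →ₐ[ℂ] LH M} (hφ : IsPhi M φ)
    (hstab : ∀ γ : SL(2, ℤ), γ ∈ Gamma1pm M ↔ ∀ x : FC1 M, γ • φ x = φ x)
    (hj : φ (jBar1 M) = jLH M) {w : ℤ} (A B : ModularForm (Gamma1 M) w) (hB : B ≠ 0) :
    ∃ x : FC1 M, qLaurent A = (x : LaurentSeries ℂ) * qLaurent B := by
  -- the forms
  set e : ℕ := w.natAbs with he
  have hwe : 0 ≤ w + (e : ℤ) := by omega
  obtain ⟨d, hd⟩ := Int.eq_ofNat_of_zero_le hwe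
  have hA : IsMF (Gamma1 M : Subgroup (GL (Fin 2) ℝ)) w (A : ℍ → ℂ) := IsMF.of A
  have hBm : IsMF (Gamma1 M : Subgroup (GL (Fin 2) ℝ)) w (B : ℍ → ℂ) := IsMF.of B
  have hΔ := d1b_isMF_discriminant M
  have h1 : IsMF (Gamma1 M : Subgroup (GL (Fin 2) ℝ)) (12 * (d : ℤ))
      ((A : ℍ → ℂ) * (B : ℍ → ℂ) ^ 11 * (ModularForm.discriminant : ℍ → ℂ) ^ e) :=
    ((hA.mul (hBm.pow 11)).mul (hΔ.pow e)).cast (by rw [← hd]; push_cast; ring)
  have h2 : IsMF (Gamma1 M : Subgroup (GL (Fin 2) ℝ)) (12 * (d : ℤ))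
      ((B : ℍ → ℂ) ^ 12 * (ModularForm.discriminant : ℍ → ℂ) ^ e) :=
    ((hBm.pow 12).mul (hΔ.pow e)).cast (by rw [← hd]; push_cast; ring)
  have h3 : IsMF (Gamma1 M : Subgroup (GL (Fin 2) ℝ)) (12 * (d : ℤ))
      ((ModularForm.discriminant : ℍ → ℂ) ^ d) := hΔ.pow d
  obtain ⟨G₁, hG₁⟩ := h1
  obtain ⟨G₂, hG₂⟩ := h2
  obtain ⟨G₃, hG₃⟩ := h3
  have hG₃ne : ∀ τ : ℍ, G₃ τ ≠ 0 := by
    intro τ
    have : G₃ τ = (ModularForm.discriminant τ) ^ d := congrFun hG₃ τ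
    rw [this]
    exact pow_ne_zero _ (ModularForm.discriminant_ne_zero τ)
  -- the `q`-expansions
  have hqB : qLaurent B ≠ 0 := d1b_qLaurent_ne_zero B hB
  have hqΔ : qLaurent (ModularForm.discriminant : ℍ → ℂ) ≠ 0 := by
    obtain ⟨D, hD⟩ := hΔ
    rw [← hD]
    refine d1b_qLaurent_ne_zero D ?_
    intro h0
    have h4 : D (⟨Complex.I, by simp⟩ : ℍ) = 0 := by rw [h0]; rfl
    rw [hD] at h4
    exact ModularForm.discriminant_ne_zero _ h4
  have q1 : qLaurent G₁ = qLaurent A * qLaurent B ^ 11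
      * qLaurent (ModularForm.discriminant : ℍ → ℂ) ^ e := by
    rw [hG₁, d1b_qLaurent_mul (hA.mul (hBm.pow 11)) (hΔ.pow e), d1b_qLaurent_mul hA (hBm.pow 11),
      d1b_qLaurent_pow hBm, d1b_qLaurent_pow hΔ]
  have q2 : qLaurent G₂ = qLaurent B ^ 12
      * qLaurent (ModularForm.discriminant : ℍ → ℂ) ^ e := by
    rw [hG₂, d1b_qLaurent_mul (hBm.pow 12) (hΔ.pow e), d1b_qLaurent_pow hBm, d1b_qLaurent_pow hΔ]
  have hqG₂ : qLaurent G₂ ≠ 0 := by
    rw [q2]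
    exact mul_ne_zero (pow_ne_zero _ hqB) (pow_ne_zero _ hqΔ)
  have hG₂0 : G₂ ≠ 0 := by
    intro h0
    apply hqG₂
    have h5 : (G₂ : ℍ → ℂ) = 0 := by rw [h0]; rfl
    rw [h5]
    unfold qLaurent
    rw [UpperHalfPlane.qExpansion_zero, map_zero]
  -- the elements of the ambient ring
  have hP : IsAH M (divFun1 G₁ G₃) := isAH_divFun1 M G₁ G₃ hG₃ne
  have hQ : IsAH M (divFun1 G₂ G₃) := isAH_divFun1 M G₂ G₃ hG₃ne
  have eP := expLH_divFun1_mul M G₁ G₃ hG₃ne hP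
  have eQ := expLH_divFun1_mul M G₂ G₃ hG₃ne hQ
  set y : LH M := LH.ofFun (divFun1 G₁ G₃) hP / LH.ofFun (divFun1 G₂ G₃) hQ with hy
  -- `y` is fixed by `± Γ₁(M)`
  have hyfix : ∀ γ ∈ Gamma1pm M, γ • y = y := by
    intro γ hγ
    have e1 : γ • LH.ofFun (divFun1 G₁ G₃) hP = LH.ofFun (divFun1 G₁ G₃) hP := by
      rw [LH.smul_ofFun]
      congr 1
      exact d1b_smul_divFun1 G₁ G₃ hγ
    have e2 : γ • LH.ofFun (divFun1 G₂ G₃) hQ = LH.ofFun (divFun1 G₂ G₃) hQ := by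
      rw [LH.smul_ofFun]
      congr 1
      exact d1b_smul_divFun1 G₂ G₃ hγ
    rw [hy, div_eq_mul_inv, smul_mul', smul_inv'', e1, e2]
  -- Galois correspondence
  obtain ⟨x, hx⟩ := exists_eq_of_fixed (Γ := SL(2, ℤ)) φ (jBar1 M)
    (exists_finiteIndex_fixing_LH M)
    (fun g => by rw [hj]; exact smul_jLH M g)
    (fun z hz => by rw [hj]; exact mem_adjoin_jLH_of_invariant M z hz)
    (Gamma1pm M) hstab y hyfix
  refine ⟨x, ?_⟩
  -- comparison of the expansions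
  have hex : expLH M y = qExpand ℂ M (x : LaurentSeries ℂ) := by
    rw [← hx]
    exact hφ x
  have hqG₃ : qExpand Kc M (qLaurent G₃) ≠ 0 := by
    intro h0
    have h6 : qLaurent G₃ = 0 := qExpand_injective (R := Kc) M (h0.trans (map_zero _).symm)
    refine d1b_qLaurent_ne_zero G₃ ?_ h6
    intro h7
    have h8 : G₃ (⟨Complex.I, by simp⟩ : ℍ) = 0 := by rw [h7]; rfl
    exact hG₃ne _ h8
  have hQ0 : expLH M (LH.ofFun (divFun1 G₂ G₃) hQ) ≠ 0 := by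
    intro h0
    rw [h0, zero_mul] at eQ
    have h6 : qLaurent G₂ = 0 := qExpand_injective (R := Kc) M (eQ.symm.trans (map_zero _).symm)
    exact hqG₂ h6
  have hkey : qExpand Kc M ((x : LaurentSeries ℂ) * qLaurent G₂) = qExpand Kc M (qLaurent G₁) := by
    rw [map_mul, ← hex, hy, map_div₀, ← eQ, ← eP]
    field_simp
  have hkey2 : (x : LaurentSeries ℂ) * qLaurent G₂ = qLaurent G₁ :=
    qExpand_injective (R := Kc) M hkey
  rw [q1, q2] at hkey2
  have hc : qLaurent B ^ 11 * qLaurent (ModularForm.discriminant : ℍ → ℂ) ^ e ≠ 0 :=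
    mul_ne_zero (pow_ne_zero _ hqB) (pow_ne_zero _ hqΔ)
  apply mul_right_cancel₀ hc
  calc qLaurent A * (qLaurent B ^ 11 * qLaurent (ModularForm.discriminant : ℍ → ℂ) ^ e)
      = qLaurent A * qLaurent B ^ 11 * qLaurent (ModularForm.discriminant : ℍ → ℂ) ^ e := by
        ring
    _ = (x : LaurentSeries ℂ) * (qLaurent B ^ 12
          * qLaurent (ModularForm.discriminant : ℍ → ℂ) ^ e) := hkey2.symm
    _ = (x : LaurentSeries ℂ) * qLaurent B
          * (qLaurent B ^ 11 * qLaurent (ModularForm.discriminant : ℍ → ℂ) ^ e) := by ring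

/-- **(D1b) for `Γ₁(M)`.** -/
theorem dictD1b1_of {M : ℕ} [NeZero M] {φ : FC1 M →ₐ[ℂ] LH M} (hφ : IsPhi M φ)
    (hstab : ∀ γ : SL(2, ℤ), γ ∈ Gamma1pm M ↔ ∀ x : FC1 M, γ • φ x = φ x)
    (hj : φ (jBar1 M) = jLH M) : DictD1b1 M := by
  intro w A B hB
  obtain ⟨x, hx⟩ := d1b_exists_ratio hφ hstab hj A B hB
  exact ⟨x, hB, hx⟩

end Fermat.Agent.S48WA2
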