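/-
S48 wall (W), block A2 (helper36): ASSEMBLY of the dictionary for `Γ₁(M)`:
`DictD2a1 M`, `DictD2b1 M` (places of `FC1 M` ↔ points of `Γ₁(M) \ ℍ*`, with charts),
`DictHPD1 M`, `DictConst1 M`, from the data of the seats (structure `DictDatum M`):
the embedding `φ : FC1 M → LH M` (A2-EMB), its stabiliser `± Γ₁(M)` (A2-STAB), the local points
and the periods (A2-LOC), the ratio bridges (A2-RATIO); the invariants (A2-INVAR) are on main.
Port of `F3/Dict/ChartsC.lean` (helper84).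
-/
import Mathlib
import Fermat.Agent.S48.W.A.Dict.Seats
import Fermat.Agent.S48.W.A.Dict.AmbInv
import Fermat.Agent.F3.Dict.PlacesHom
import Fermat.Agent.F3.Dict.Witness
import Fermat.Agent.F3.Dict.ConstHPD
import Fermat.Agent.S20.JInjective

set_option autoImplicit false
set_option linter.style.haveILetI false
set_option linter.unusedSectionVars false

noncomputable section

namespace Fermat.Agent.S48WA2

open UpperHalfPlane CongruenceSubgroup ModularCurve AlgebraicCurve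
open Fermat.Agent.F3Dict Fermat.Agent.F3Places Fermat.Agent.F3I2
open scoped MatrixGroups ModularForm

/-- **the data of the seats** (everything that `Charts.lean` consumes). -/
structure DictDatum (M : ℕ) [NeZero M] where
  /-- the embedding (A2-EMB) -/
  φ : FC1 M →ₐ[ℂ] LH M
  isPhi : IsPhi M φ
  phi_j : φ (jBar1 M) = jLH M
  /-- the stabiliser (A2-STAB) -/
  stab : ∀ γ : SL(2, ℤ), γ ∈ Gamma1pm M ↔ ∀ x : FC1 M, γ • φ x = φ x
  /-- the local points (A2-LOC) -/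
  loc : ∀ c : ℂ, ∃ (τ : ℍ) (s : ℕ) (g : SL(2, ℤ)), jFun τ = c ∧ 0 < s ∧
      valLH M τ (jLH M - algebraMap ℂ (LH M) c) = WithZero.exp (-(s : ℤ)) ∧ g • τ = τ ∧
      (s = 1 ∨ s = 2 ∨ s = 3) ∧
      (∀ k : ℤ, (∀ x : LH M, (g ^ k) • x = x) ↔ (s : ℤ) ∣ k) ∧
      IsPrimitiveRoot ((((g 1 0 : ℤ) : ℂ) * (τ : ℂ) + ((g 1 1 : ℤ) : ℂ)) ^ 2) s
  /-- the period of `T` (A2-LOC) -/
  perT : ∀ k : ℤ, (∀ x : LH M, (ModularGroup.T ^ k) • x = x) ↔ (M : ℤ) ∣ k
  /-- a ratio with nonzero numerator is nonzero (A2-RATIO) -/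
  ratio_ne_zero : ∀ (x : FC1 M) (w : ℤ) (A B : ModularForm (Gamma1 M) w), A ≠ 0 →
    IsRatio1 M x A B → x ≠ 0
  /-- the ratio bridge at the points of `ℍ` (A2-RATIO) -/
  ratio : ∀ (x : FC1 M) (w : ℤ) (A B : ModularForm (Gamma1 M) w), A ≠ 0 → IsRatio1 M x A B →
    ∀ τ : ℍ, -WithZero.log (valLH M τ (φ x)) = ordAt A τ - ordAt B τ
  /-- the ratio bridge at the cusps (A2-RATIO) -/
  ratioInf : ∀ (x : FC1 M) (w : ℤ) (A B : ModularForm (Gamma1 M) w), A ≠ 0 →
    IsRatio1 M x A B → ∀ γ : SL(2, ℤ),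
      -WithZero.log (winfH M (γ • φ x)) = ordInf M (⇑A ∣[w] γ⁻¹) - ordInf M (⇑B ∣[w] γ⁻¹)

namespace DictDatum

variable {M : ℕ} [NeZero M]

theorem transcendental_jBar1 (D : DictDatum M) : Transcendental ℂ (jBar1 M) := by
  intro h
  have h1 : IsAlgebraic ℂ (D.φ (jBar1 M)) := IsAlgebraic.algHom D.φ h
  rw [D.phi_j] at h1
  exact transcendental_jLH M h1

theorem isFunctionFieldOver_jBar1 (D : DictDatum M) :
    Fermat.Agent.S24Diff.IsFunctionFieldOver ℂ (FC1 M) (jBar1 M) :=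
  isFunctionFieldOver_of_hom (Γ := SL(2, ℤ)) D.φ (jBar1 M) (jLH M) D.phi_j
    D.transcendental_jBar1 (exists_finiteIndex_fixing_LH M) (smul_jLH M)
    (mem_adjoin_jLH_of_invariant M)

/-- **(HPD)** principal divisors of `FC1 M`. -/
theorem dictHPD1 (D : DictDatum M) : DictHPD1 M :=
  Fermat.Agent.S24Diff.hasPrincipalDivisors D.isFunctionFieldOver_jBar1

/-- **(CONST)** an element of `FC1 M` without zeros and poles is constant. -/
theorem dictConst1 (D : DictDatum M) : DictConst1 M := fun x _ hv =>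
  exists_algebraMap_eq_of_forall_ord_eq_zero D.isFunctionFieldOver_jBar1 x hv

/-! ### charts -/

theorem neg_mem_Gamma1_smul (γ : SL(2, ℤ)) (τ : ℍ) : (-γ) • τ = γ • τ :=
  ModularGroup.SL_neg_smul γ τ

theorem cdFactor_neg_sq (γ : SL(2, ℤ)) (τ : ℍ) : cdFactor (-γ) τ ^ 2 = cdFactor γ τ ^ 2 := by
  have h : cdFactor (-γ) τ = -cdFactor γ τ := by
    unfold cdFactor
    simp only [Matrix.SpecialLinearGroup.coe_neg, Matrix.neg_apply, Int.cast_neg]
    ring
  rw [h, neg_sq]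

set_option maxHeartbeats 1000000 in
set_option synthInstance.maxHeartbeats 400000 in
/-- a chart at the point `γ⁻¹ τc` from the abstract data of one fibre. -/
theorem chart_of_fibre (D : DictDatum M) (τc : ℍ) (s : ℕ) (g : SL(2, ℤ))
    (hgτ : g • τc = τc) (hs : 0 < s) (hprim : IsPrimitiveRoot (cdFactor g τc ^ 2) s)
    (γ : SL(2, ℤ)) (e h : ℕ) (he : 0 < e) (hhe : h * e = s)
    (hmem : γ⁻¹ * g ^ h * γ ∈ Gamma1pm M)
    (v : Place ℂ (FC1 M))
    (hve : ∀ x : FC1 M, x ≠ 0 →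
      -WithZero.log (valLH M τc (γ • D.φ x)) = (e : ℤ) * v.ord x) :
    IsChartAt1 M v (γ⁻¹ • τc) e := by
  obtain ⟨hw1, hw2⟩ := witness γ g τc h hgτ
  have hprim' : IsPrimitiveRoot (cdFactor (γ⁻¹ * g ^ h * γ) (γ⁻¹ • τc) ^ 2) e := by
    rw [hw2]
    exact hprim.pow hs hhe.symm
  refine ⟨he, ?_, ?_⟩
  · rcases hmem with hm | hm
    · exact ⟨γ⁻¹ * g ^ h * γ, hm, hw1, hprim'⟩
    · refine ⟨-(γ⁻¹ * g ^ h * γ), hm, ?_, ?_⟩
      · rw [neg_mem_Gamma1_smul]
        exact hw1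
      · show IsPrimitiveRoot (cdFactor (-(γ⁻¹ * g ^ h * γ)) (γ⁻¹ • τc) ^ 2) e
        rw [cdFactor_neg_sq]
        exact hprim'
  · intro w A B x hA hr
    have hx0 := D.ratio_ne_zero x w A B hA hr
    rw [← hve x hx0, valLH_smul_eq]
    exact D.ratio x w A B hA hr (γ⁻¹ • τc)

theorem exists_smul_eq_of_jFun_eq (τ τ' : ℍ) (h : jFun τ = jFun τ') :
    ∃ γ : SL(2, ℤ), γ • τ = τ' := by
  apply Fermat.Agent.S20.exists_smul_eq_of_j_eq
  have h1 : ModularForm.discriminant τ ≠ 0 := ModularForm.discriminant_ne_zero τ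
  have h2 : ModularForm.discriminant τ' ≠ 0 := ModularForm.discriminant_ne_zero τ'
  have h3 : ModularForm.E₄ τ ^ 3 / ModularForm.discriminant τ =
      ModularForm.E₄ τ' ^ 3 / ModularForm.discriminant τ' := h
  field_simp at h3
  linear_combination h3

set_option maxHeartbeats 2000000 in
set_option synthInstance.maxHeartbeats 400000 in
/-- **(D2b)** points → places: every `τ ∈ ℍ` is the centre of a chart of a place of `FC1 M`. -/
theorem dictD2b1 (D : DictDatum M) : DictD2b1 M := by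
  intro τ
  obtain ⟨τc, s, g, hj, hs, hval, hgτ, -, hgs, hprim⟩ := D.loc (jFun τ)
  obtain ⟨γ', hγ'⟩ := exists_smul_eq_of_jFun_eq τc τ hj
  obtain ⟨ht1, ht2, ht3, ht4⟩ := fibre_hyps_sub (Γ := SL(2, ℤ)) D.φ (jBar1 M) (jLH M) D.phi_j
    D.transcendental_jBar1 (smul_jLH M) (mem_adjoin_jLH_of_invariant M) (jFun τ)
  obtain ⟨v, e, h, -, he, -, hhe, hmem, hve⟩ := exists_place_of_point_fibre_hom D.φ
    (jBar1 M - algebraMap ℂ (FC1 M) (jFun τ)) ht1 (exists_finiteIndex_fixing_LH M) ht2 ht3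
    (Gamma1pm M) D.stab (valLH M τc) s g
    (fun a ha => valLH_algebraMap_K M τc ha) hs (by rw [ht4]; exact hval)
    (fun x => valLH_smul M g hgτ x) hgs γ'⁻¹
  have hchart := D.chart_of_fibre τc s g hgτ hs hprim γ'⁻¹ e h he hhe hmem v hve
  rw [inv_inv, hγ'] at hchart
  exact ⟨v, e, hchart⟩

/-- the trace of a conjugate of `T^h` is `2`. -/
theorem conj_T_pow_trace (γ : SL(2, ℤ)) (h : ℕ) :
    (γ⁻¹ * ModularGroup.T ^ h * γ) 0 0 + (γ⁻¹ * ModularGroup.T ^ h * γ) 1 1 = 2 := by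
  have hT : ((ModularGroup.T ^ h : SL(2, ℤ)) : Matrix (Fin 2) (Fin 2) ℤ) = !![1, (h : ℤ); 0, 1] := by
    have := ModularGroup.coe_T_zpow (h : ℤ)
    rwa [zpow_natCast] at this
  have hdet := Fermat.Agent.F3Dict.GensExp.sl2_det γ
  simp only [Matrix.SpecialLinearGroup.coe_mul, Matrix.SpecialLinearGroup.coe_inv,
    Matrix.adjugate_fin_two, hT, Matrix.mul_apply, Fin.sum_univ_two, Matrix.of_apply,
    Matrix.cons_val', Matrix.cons_val_zero, Matrix.cons_val_one, Matrix.empty_val',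
    Matrix.cons_val_fin_one]
  linear_combination (2 : ℤ) * hdet

/-- for `5 ≤ M` all cusps of `Γ₁(M)` are regular. -/
theorem conj_T_pow_mem_Gamma1 (hM : 5 ≤ M) (γ : SL(2, ℤ)) (h : ℕ)
    (hmem : γ⁻¹ * ModularGroup.T ^ h * γ ∈ Gamma1pm M) :
    γ⁻¹ * ModularGroup.T ^ h * γ ∈ Gamma1 M := by
  rcases hmem with hm | hm
  · exact hm
  · exfalso
    rw [Gamma1_mem] at hm
    obtain ⟨h00, h11, -⟩ := hm
    have htr := conj_T_pow_trace γ h
    simp only [Matrix.SpecialLinearGroup.coe_neg, Matrix.neg_apply] at h00 h11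
    have h4 : (((-(γ⁻¹ * ModularGroup.T ^ h * γ) 0 0 + -(γ⁻¹ * ModularGroup.T ^ h * γ) 1 1 : ℤ)) :
        ZMod M) = 2 := by
      push_cast
      push_cast at h00 h11
      rw [h00, h11]
      norm_num
    have h5 : (-(γ⁻¹ * ModularGroup.T ^ h * γ) 0 0 + -(γ⁻¹ * ModularGroup.T ^ h * γ) 1 1 : ℤ)
        = -2 := by linarith
    rw [h5] at h4
    have h6 : ((4 : ℤ) : ZMod M) = 0 := by
      have : ((-2 : ℤ) : ZMod M) = 2 := h4
      have h7 : ((4 : ℤ) : ZMod M) = (2 : ZMod M) - ((-2 : ℤ) : ZMod M) := by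
        push_cast; ring
      rw [h7, this, sub_self]
    rw [ZMod.intCast_zmod_eq_zero_iff_dvd] at h6
    have : (M : ℤ) ≤ 4 := Int.le_of_dvd (by norm_num) h6
    omega

set_option maxHeartbeats 2000000 in
set_option synthInstance.maxHeartbeats 400000 in
/-- **(D2a)** places → points: every place of `FC1 M` has a chart at a point of `ℍ` or at a
cusp. -/
theorem dictD2a1 (D : DictDatum M) (hM : 5 ≤ M) : DictD2a1 M := by
  intro v
  rcases exists_ord_pos_or_neg_of_hom (Γ := SL(2, ℤ)) D.φ (jBar1 M) (jLH M) D.phi_j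
    D.transcendental_jBar1 (exists_finiteIndex_fixing_LH M) (smul_jLH M)
    (mem_adjoin_jLH_of_invariant M) v with ⟨c, hc⟩ | hinf
  · left
    obtain ⟨τc, s, g, -, hs, hval, hgτ, -, hgs, hprim⟩ := D.loc c
    obtain ⟨ht1, ht2, ht3, ht4⟩ := fibre_hyps_sub (Γ := SL(2, ℤ)) D.φ (jBar1 M) (jLH M) D.phi_j
      D.transcendental_jBar1 (smul_jLH M) (mem_adjoin_jLH_of_invariant M) c
    obtain ⟨γ, e, h, he, -, hhe, hmem, hve⟩ := exists_point_of_place_fibre_hom D.φ
      (jBar1 M - algebraMap ℂ (FC1 M) c) ht1 (exists_finiteIndex_fixing_LH M) ht2 ht3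
      (Gamma1pm M) D.stab (valLH M τc) s g
      (fun a ha => valLH_algebraMap_K M τc ha) hs (by rw [ht4]; exact hval)
      (fun x => valLH_smul M g hgτ x) hgs v hc
    exact ⟨γ⁻¹ • τc, e, D.chart_of_fibre τc s g hgτ hs hprim γ e h he hhe hmem v hve⟩
  · right
    obtain ⟨ht1, ht2, ht3, ht4⟩ := fibre_hyps_inv (Γ := SL(2, ℤ)) D.φ (jBar1 M) (jLH M) D.phi_j
      D.transcendental_jBar1 (smul_jLH M) (mem_adjoin_jLH_of_invariant M)
    have hM0 : 0 < M := by omega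
    obtain ⟨γ, e, h, he, hh, hhe, hmem, hve⟩ := exists_point_of_place_fibre_hom D.φ
      (jBar1 M)⁻¹ ht1 (exists_finiteIndex_fixing_LH M) ht2 ht3
      (Gamma1pm M) D.stab (winfH M) M ModularGroup.T
      (fun a ha => winfH_algebraMap_K M ha) hM0
      (by rw [ht4, map_inv₀, winfH_jLH, ← WithZero.exp_neg])
      (fun x => winfH_T_smul M x) D.perT v hinf
    refine ⟨γ⁻¹, h, e, hh, he, ?_, ?_⟩
    · rw [inv_inv]
      exact conj_T_pow_mem_Gamma1 hM γ h hmem
    · intro w A B x hA hr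
      have hx0 := D.ratio_ne_zero x w A B hA hr
      rw [← hve x hx0, hhe]
      exact D.ratioInf x w A B hA hr γ

end DictDatum

end Fermat.Agent.S48WA2
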