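/-
S48 wall (W), block A2 (helper36): FINAL WIRING of the dictionary for `Γ₁(M)`, part 1:
from the analytic Fricke functions (`FrickeData M`) to `DictD2a1 M`, `DictD2b1 M`, `DictHPD1 M`,
`DictConst1 M`  (seats EMB helper86, STAB helper84, LOC helper53, RATIO helper57, INVAR helper98,
assembly `Charts.lean`).
-/
import Mathlib
import Fermat.Agent.S48.W.A.Dict.Charts
import Fermat.Agent.S48.W.A.Dict.Emb
import Fermat.Agent.S48.W.A.Dict.StabFinal
import Fermat.Agent.S48.W.A.Dict.AmbLoc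
import Fermat.Agent.S48.W.A.Dict.Ratio

set_option autoImplicit false

noncomputable section

namespace Fermat.Agent.S48WA2

open UpperHalfPlane CongruenceSubgroup ModularCurve AlgebraicCurve
open Fermat.Agent.F3Dict Fermat.Agent.F3I2
open scoped MatrixGroups ModularForm

/-- **the datum of the dictionary**, from the analytic Fricke functions. -/
def dictDatum_of {M : ℕ} [NeZero M] (hM : 3 ≤ M) (FD : FrickeData M) : DictDatum M where
  φ := embHom1 FD
  isPhi := isPhi_embHom1 FD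
  phi_j := IsPhi.jBar1 (isPhi_embHom1 FD)
  stab := IsPhi.mem_Gamma1pm_iff hM FD (isPhi_embHom1 FD)
  loc := exists_local_point_LH M (by omega)
  perT := T_zpow_smul_eq_iff_LH M
  ratio_ne_zero := fun x _ A B hA h => ne_zero_of_isRatio1 A B x hA h
  ratio := fun x _ A B hA h τ => IsPhi.neg_log_valLH (isPhi_embHom1 FD) x A B hA h τ
  ratioInf := fun x _ A B hA h γ => IsPhi.neg_log_winfH_smul (isPhi_embHom1 FD) x A B hA h γ

/-- **(D2a)** for `Γ₁(M)`, `5 ≤ M`. -/
theorem dictD2a1_of_fricke {M : ℕ} [NeZero M] (hM : 5 ≤ M) (FD : FrickeData M) : DictD2a1 M :=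
  (dictDatum_of (by omega) FD).dictD2a1 hM

/-- **(D2b)** for `Γ₁(M)`, `3 ≤ M`. -/
theorem dictD2b1_of_fricke {M : ℕ} [NeZero M] (hM : 3 ≤ M) (FD : FrickeData M) : DictD2b1 M :=
  (dictDatum_of hM FD).dictD2b1

/-- **(HPD)** for `Γ₁(M)`, `3 ≤ M`. -/
theorem dictHPD1_of_fricke {M : ℕ} [NeZero M] (hM : 3 ≤ M) (FD : FrickeData M) : DictHPD1 M :=
  (dictDatum_of hM FD).dictHPD1

/-- **(CONST)** for `Γ₁(M)`, `3 ≤ M`. -/
theorem dictConst1_of_fricke {M : ℕ} [NeZero M] (hM : 3 ≤ M) (FD : FrickeData M) :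
    DictConst1 M :=
  (dictDatum_of hM FD).dictConst1

end Fermat.Agent.S48WA2
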