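/-
S48 wall (W), block A2 (sub-architect helper36), seat A2-FRICKE (helper33):
the analytic Fricke functions `Fr a τ = E₄(Mτ) E₆(Mτ) x_a(τ) / Δ(Mτ)` as elements of the ambient
ring `AH M`, from the weight-2 forms `x_a` of hub A1 (`WpForms M`).

* `lvlForm M F`  : `τ ↦ F(Mτ)` as a modular form on `Γ₁(M)`, `F` of level one;
* `frNum W a`, `frDen M` : numerator `E₄(M·) E₆(M·) x_a` and denominator `Δ(M·)` (weight 12);
* `frickeData_of W : FrickeData M`.
-/
import Mathlib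
import Fermat.Agent.S48.W.A.Dict.Seats
import Fermat.Agent.S48.W.A.Dict.Forms
import Fermat.Agent.S48.W.A1.EqExp
import Fermat.Agent.S23.ThetaDef

set_option autoImplicit false

noncomputable section

namespace Fermat.Agent.S48WA2

open UpperHalfPlane CongruenceSubgroup ModularCurve Fermat.Agent.F3Dict
open Fermat.Agent.S48W
open Matrix.SpecialLinearGroup ConjAct ModularForm
open scoped MatrixGroups ModularForm Pointwise Manifold

/-! ### `F(Mτ)` as a form on `Γ₁(M)` -/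

theorem Gamma1_map_le_conj_fr (M : ℕ) [NeZero M] :
    ((Gamma1 M).map (mapGL ℝ) : Subgroup (GL (Fin 2) ℝ)) ≤
      toConjAct (heckeDiagMatrix M)⁻¹ • (𝒮ℒ : Subgroup (GL (Fin 2) ℝ)) :=
  le_trans (Subgroup.map_mono (Gamma1_in_Gamma0 M)) (Fermat.Agent.S23.Theta.G0_le_conj M)

/-- `F ∣[k] diag(M, 1)` as a modular form on `Γ₁(M)`; its value at `τ` is `M^(k-1) F(M τ)`. -/
def lvlAux (M : ℕ) [NeZero M] {k : ℤ} (F : ModularForm 𝒮ℒ k) : ModularForm (Gamma1 M) k where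
  toFun := ⇑F ∣[k] heckeDiagMatrix M
  slash_action_eq' γ hγ :=
    (ModularForm.translate F (heckeDiagMatrix M)).slash_action_eq' γ
      (Gamma1_map_le_conj_fr M hγ)
  holo' := (ModularForm.translate F (heckeDiagMatrix M)).holo'
  bdd_at_cusps' hc :=
    (ModularForm.translate F (heckeDiagMatrix M)).bdd_at_cusps'
      (hc.mono (Gamma1_map_le_conj_fr M))

/-- `τ ↦ F(M τ)` as a modular form on `Γ₁(M)`. -/
def lvlForm (M : ℕ) [NeZero M] {k : ℤ} (F : ModularForm 𝒮ℒ k) : ModularForm (Gamma1 M) k :=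
  (((M : ℂ) ^ (k - 1))⁻¹ : ℂ) • lvlAux M F

theorem heckeDiagMatrix_smul_eq_scale (M : ℕ) [NeZero M] (τ : ℍ) :
    heckeDiagMatrix M • τ = scale M τ := by
  apply UpperHalfPlane.ext
  rw [coe_heckeDiagMatrix_smul (NeZero.ne M), coe_scale]

theorem lvlForm_apply (M : ℕ) [NeZero M] {k : ℤ} (F : ModularForm 𝒮ℒ k) (τ : ℍ) :
    lvlForm M F τ = F (scale M τ) := by
  have hM : (M : ℂ) ≠ 0 := by exact_mod_cast NeZero.ne M
  show (((M : ℂ) ^ (k - 1))⁻¹ : ℂ) • ((⇑F ∣[k] heckeDiagMatrix M) τ) = _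
  rw [slash_heckeDiagMatrix_apply k (NeZero.ne M), smul_eq_mul, ← mul_assoc,
    inv_mul_cancel₀ (zpow_ne_zero _ hM), one_mul, heckeDiagMatrix_smul_eq_scale]

/-- `lvlForm M F` is invariant under `Γ₀(M)` (not only `Γ₁(M)`). -/
theorem lvlForm_slash_Gamma0 (M : ℕ) [NeZero M] {k : ℤ} (F : ModularForm 𝒮ℒ k) {γ : SL(2, ℤ)}
    (hγ : γ ∈ Gamma0 M) : (⇑(lvlForm M F) ∣[k] γ) = ⇑(lvlForm M F) := by
  have h0 : mapGL ℝ γ ∈ Fermat.Agent.S23.G0 M := Subgroup.mem_map_of_mem _ hγ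
  have h1 : ((⇑F ∣[k] heckeDiagMatrix M) ∣[k] (γ : GL (Fin 2) ℝ)) =
      (⇑F ∣[k] heckeDiagMatrix M) :=
    (ModularForm.translate F (heckeDiagMatrix M)).slash_action_eq' _
      (Fermat.Agent.S23.Theta.G0_le_conj M h0)
  have hcoe : ⇑(lvlForm M F) = (((M : ℂ) ^ (k - 1))⁻¹ : ℂ) • (⇑F ∣[k] heckeDiagMatrix M) := rfl
  rw [hcoe, ModularForm.SL_slash, ModularForm.smul_slash]
  have hσ : UpperHalfPlane.σ (γ : GL (Fin 2) ℝ) (((M : ℂ) ^ (k - 1))⁻¹) =
      ((M : ℂ) ^ (k - 1))⁻¹ := by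
    simp [UpperHalfPlane.σ]
  rw [hσ, h1]

/-! ### numerator and denominator -/

/-- `Δ` as a modular form of level one. -/
def deltaMF1 : ModularForm 𝒮ℒ 12 where
  toFun := ModularForm.discriminant
  slash_action_eq' := CuspForm.discriminant.slash_action_eq'
  holo' := CuspForm.discriminant.holo'
  bdd_at_cusps' hc := ModularFormClass.bdd_at_cusps CuspForm.discriminant hc

@[simp] theorem deltaMF1_apply (τ : ℍ) : deltaMF1 τ = ModularForm.discriminant τ := rfl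

/-- the denominator `Δ(Mτ)`, of weight `12` on `Γ₁(M)`. -/
def frDen (M : ℕ) [NeZero M] : ModularForm (Gamma1 M) 12 := lvlForm M deltaMF1

theorem frDen_apply (M : ℕ) [NeZero M] (τ : ℍ) :
    frDen M τ = ModularForm.discriminant (scale M τ) :=
  lvlForm_apply M deltaMF1 τ

theorem frDen_ne_zero (M : ℕ) [NeZero M] (τ : ℍ) : frDen M τ ≠ 0 := by
  rw [frDen_apply]
  exact ModularForm.discriminant_ne_zero _

/-- the numerator `E₄(Mτ) E₆(Mτ) x_a(τ)`, of weight `12` on `Γ₁(M)`. -/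
def frNum {M : ℕ} [NeZero M] (W : WpForms M) (a : ZMod M) : ModularForm (Gamma1 M) 12 :=
  ModularForm.mcast (by norm_num)
    (((lvlForm M ModularForm.E₄).mul (lvlForm M ModularForm.E₆)).mul (W.X a))

theorem frNum_coe {M : ℕ} [NeZero M] (W : WpForms M) (a : ZMod M) :
    ⇑(frNum W a) = ⇑(lvlForm M ModularForm.E₄) * ⇑(lvlForm M ModularForm.E₆) * ⇑(W.X a) := rfl

theorem frNum_apply {M : ℕ} [NeZero M] (W : WpForms M) (a : ZMod M) (τ : ℍ) :
    frNum W a τ = ModularForm.E₄ (scale M τ) * ModularForm.E₆ (scale M τ) * W.X a τ := by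
  rw [frNum_coe, Pi.mul_apply, Pi.mul_apply, lvlForm_apply, lvlForm_apply]

/-- the action of `Γ₀(M)` on the numerator. -/
theorem frNum_slash {M : ℕ} [NeZero M] (W : WpForms M) {γ : SL(2, ℤ)} (hγ : γ ∈ Gamma0 M)
    (a : ZMod M) (ha : a ≠ 0) :
    (⇑(frNum W a) ∣[(12 : ℤ)] γ) = ⇑(frNum W (((γ 0 0 : ℤ) : ZMod M) * a)) := by
  rw [frNum_coe, frNum_coe]
  show ((⇑(lvlForm M ModularForm.E₄) * ⇑(lvlForm M ModularForm.E₆) * ⇑(W.X a))
    ∣[((4 : ℤ) + 6) + 2] γ) = _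
  rw [ModularForm.mul_slash_SL2, ModularForm.mul_slash_SL2, lvlForm_slash_Gamma0 M _ hγ,
    lvlForm_slash_Gamma0 M _ hγ, W.slash γ hγ a ha]

theorem frDen_slash (M : ℕ) [NeZero M] {γ : SL(2, ℤ)} (hγ : γ ∈ Gamma0 M) :
    (⇑(frDen M) ∣[(12 : ℤ)] γ) = ⇑(frDen M) :=
  lvlForm_slash_Gamma0 M deltaMF1 hγ

/-! ### the Fricke functions -/

/-- the analytic Fricke function `E₄(Mτ) E₆(Mτ) x_a(τ) / Δ(Mτ)`. -/
def frFun {M : ℕ} [NeZero M] (W : WpForms M) (a : ZMod M) : Fun :=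
  fun τ => frNum W a τ / frDen M τ

theorem frFun_eq_divFun1 {M : ℕ} [NeZero M] (W : WpForms M) (a : ZMod M) :
    frFun W a = divFun1 (frNum W a) (frDen M) := rfl

theorem isAH_frFun {M : ℕ} [NeZero M] (W : WpForms M) (a : ZMod M) : IsAH M (frFun W a) :=
  isAH_div M (frNum W a) (frDen M) (frDen_ne_zero M)

theorem frFun_smul {M : ℕ} [NeZero M] (W : WpForms M) {γ : SL(2, ℤ)} (hγ : γ ∈ Gamma0 M)
    (a : ZMod M) (ha : a ≠ 0) :
    γ⁻¹ • frFun W a = frFun W (((γ 0 0 : ℤ) : ZMod M) * a) := by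
  rw [frFun_eq_divFun1, smul_div_fun, inv_inv]
  funext τ
  show slFun1 (frNum W a) γ τ / slFun1 (frDen M) γ τ = _
  rw [slFun1_eq, slFun1_eq, frNum_slash W hγ a ha, frDen_slash M hγ]
  rfl

/-! ### the expansion at `∞` -/

/-- the formal power series `E₄ E₆ / Π (1 - qⁿ)²⁴` over `ℂ`. -/
def eqSerC : PowerSeries Kc :=
  PowerSeries.map (Int.castRingHom Kc)
    (ModularCurve.eisenstein4 * eis6 * ModularCurve.dedekindEtaUnitInv)

/-- `E₄ E₆ / Δ` as an element of `Fun`. -/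
def eqFunC : Fun := fun τ =>
  ModularForm.E₄ τ * ModularForm.E₆ τ / ModularForm.discriminant τ

theorem hasPExp_eqFunC : HasPExp 1 (fun τ => eqFunC τ * uParam 1 τ) eqSerC := by
  intro τ
  have h := Fermat.Agent.S48WA1Eq.hasSum_eq0 τ
  have e1 : uParam 1 τ = Function.Periodic.qParam 1 (τ : ℂ) := by
    simp [uParam]
  have e2 : ∀ n : ℕ, iota (PowerSeries.coeff n eqSerC)
      = ((PowerSeries.coeff n
        (ModularCurve.eisenstein4 * eis6 * ModularCurve.dedekindEtaUnitInv) : ℤ) : ℂ) := by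
    intro n
    rw [eqSerC, PowerSeries.coeff_map]
    simp [iota]
  have e3 : eqFunC τ * uParam 1 τ = Fermat.Agent.S48WA1Eq.eq0 τ := by
    rw [e1]
    rfl
  simp only [e2, e3]
  simp only [e1]
  exact h

theorem coeffEmb_eisQuot_C :
    ModularCurve.coeffEmb ℂ eisQuot
      = HahnSeries.single (-((1 : ℕ) : ℤ)) (1 : Kc) * HahnSeries.ofPowerSeries ℤ Kc eqSerC := by
  unfold ModularCurve.coeffEmb eisQuot eqSerC
  rw [map_mul, ModularCurve.coeffMap_single, map_one, ModularCurve.coeffMap_ofPowerSeries,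
    ← RingHom.comp_apply (PowerSeries.map (algebraMap ℚ ℂ))
      (PowerSeries.map (Int.castRingHom ℚ)),
    ← PowerSeries.map_comp,
    RingHom.ext_int ((algebraMap ℚ ℂ).comp (Int.castRingHom ℚ)) (Int.castRingHom ℂ)]
  rfl

/-- `τ ↦ (E₄ E₆ / Δ)(Mτ)`. -/
def eqScale (M : ℕ) [NeZero M] : Fun := fun τ => eqFunC (scale M τ)

/-- `(E₄ E₆ / Δ)(Mτ) = ∑ cₙ u^{M² n}`. -/
theorem hasExp_eqFunC_scale (M : ℕ) [NeZero M] :
    HasExp M (eqScale M)
      (ModularCurve.qExpand Kc (M * M) (ModularCurve.coeffEmb ℂ eisQuot)) := by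
  have hM : 0 < M := Nat.pos_of_ne_zero (NeZero.ne M)
  have hφ : ∀ τ : ℍ, uParam 1 (scale M τ) = iota 1 * uParam M τ ^ (M * M) := by
    intro τ
    rw [uParam_one_scale M M τ, map_one, one_mul]
  have h := GensExp.hasExp_subst hasPExp_eqFunC (scale M) 1 GensExp.iota_one_norm (M * M)
    (Nat.mul_pos hM hM) hφ
  have e : ModularCurve.qExpand Kc (M * M) (ModularCurve.coeffEmb ℂ eisQuot)
      = HahnSeries.single (-((M * M : ℕ) : ℤ)) (1 : Kc) *
        HahnSeries.ofPowerSeries ℤ Kc (GensExp.twist 1 (M * M) eqSerC) := by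
    rw [coeffEmb_eisQuot_C, map_mul, ModularCurve.qExpand_single,
      GensExp.qExpand_ofPowerSeries]
    congr 2
    simp
  rw [e]
  exact h

theorem frFun_eq_mul {M : ℕ} [NeZero M] (W : WpForms M) (a : ZMod M) :
    frFun W a = eqScale M * mfFun1 (W.X a) := by
  funext τ
  show frNum W a τ / frDen M τ = eqFunC (scale M τ) * W.X a τ
  rw [frNum_apply, frDen_apply, eqFunC]
  ring

theorem coeffEmb_fricke_C (M : ℕ) [NeZero M] (a : ZMod M) :
    ModularCurve.coeffEmb ℂ (fricke M a)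
      = ModularCurve.qExpand ℂ M (ModularCurve.coeffEmb ℂ eisQuot) *
        HahnSeries.ofPowerSeries ℤ ℂ ((wpSeries M a).map (Int.castRingHom ℂ)) := by
  unfold fricke
  rw [map_mul]
  congr 1
  · exact ModularCurve.coeffMap_qExpand _ M eisQuot
  · unfold ModularCurve.coeffEmb
    rw [ModularCurve.coeffMap_ofPowerSeries,
      ← RingHom.comp_apply (PowerSeries.map (algebraMap ℚ ℂ))
        (PowerSeries.map (Int.castRingHom ℚ)),
      ← PowerSeries.map_comp,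
      RingHom.ext_int ((algebraMap ℚ ℂ).comp (Int.castRingHom ℚ)) (Int.castRingHom ℂ)]

/-- the expansion of the Fricke function at `∞`. -/
theorem hasExp_frFun {M : ℕ} [NeZero M] (W : WpForms M) (a : ZMod M) (ha : a ≠ 0) :
    HasExp M (frFun W a) (ModularCurve.qExpand ℂ M (ModularCurve.coeffEmb ℂ (fricke M a))) := by
  have h1 := hasExp_eqFunC_scale M
  have h2 := hasExp_mfFun1 M (W.X a)
  have h := h1.mul h2
  rw [← frFun_eq_mul] at h
  have e : ModularCurve.qExpand ℂ M (ModularCurve.coeffEmb ℂ (fricke M a))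
      = ModularCurve.qExpand Kc (M * M) (ModularCurve.coeffEmb ℂ eisQuot) *
        ModularCurve.qExpand Kc M (F3I2.qLaurent (W.X a)) := by
    rw [coeffEmb_fricke_C, map_mul, ModularCurve.qExpand_qExpand, F3I2.qLaurent, W.qexp a ha]
  rw [e]
  exact h

/-- **(A2-FRICKE)** the analytic Fricke functions in the ambient ring `AH M`. -/
def frickeData_of {M : ℕ} [NeZero M] (W : WpForms M) : FrickeData M where
  Fr := frFun W
  isAH a _ := isAH_frFun W a
  hasExp a ha := hasExp_frFun W a ha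
  smul _ hγ a ha := frFun_smul W hγ a ha

end Fermat.Agent.S48WA2
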