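/-
S48 wall (W), block A2 (helper36): the deliverable of hub A1 (helper70, helper23:
`S48WA1.xFormFamily`) in the shape `WpForms M` consumed by the seats of A2.
-/
import Mathlib
import Fermat.Agent.S48.W.A.Dict.Seats
import Fermat.Agent.S48.W.A1.FormMain

set_option autoImplicit false

noncomputable section

namespace Fermat.Agent.S48WA2

open UpperHalfPlane CongruenceSubgroup
open scoped MatrixGroups ModularForm

/-- **the forms `x_a` of hub A1.** -/
def wpForms (M : ℕ) [NeZero M] : WpForms M where
  X := (Fermat.Agent.S48WA1.xFormFamily M).choose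
  qexp := fun a ha => (Fermat.Agent.S48WA1.xFormFamily M).choose_spec.1 a ha
  slash := fun γ hγ a ha => by
    rw [(Fermat.Agent.S48WA1.xFormFamily M).choose_spec.2 a ha γ hγ, mul_comm]

end Fermat.Agent.S48WA2
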