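/-
S48 wall (W), block A2 (helper36): FINAL WIRING of the dictionary for `Γ₁(M)`, part 2:
everything UNCONDITIONAL.

* `frickeDataMain M : FrickeData M`           (A2-FRICKE helper33 on the forms of hub A1);
* `dictDatumMain M (hM : 3 ≤ M) : DictDatum M`;
* `dictD1a1_main`, `dictD1b1_main`, `dictD2a1_main`, `dictD2b1_main`, `dictHPD1_main`,
  `dictConst1_main`;
* `hasDict1_main (hM : 5 ≤ M) : Fermat.Agent.S48WA.HasDict1 M`   (consumer: the `κ`-core);
* `isFunctionFieldOver_jBar1_main`, `transcendental_jBar1_main`.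
-/
import Mathlib
import Fermat.Agent.S48.W.A.Dict.Final
import Fermat.Agent.S48.W.A.Dict.WpMain
import Fermat.Agent.S48.W.A.Dict.Fricke
import Fermat.Agent.S48.W.A.Dict.D1a
import Fermat.Agent.S48.W.A.Dict.D1b
import Fermat.Agent.S48.W.A.K.Defs

set_option autoImplicit false

noncomputable section

namespace Fermat.Agent.S48WA2

open UpperHalfPlane CongruenceSubgroup ModularCurve AlgebraicCurve
open Fermat.Agent.F3Dict Fermat.Agent.F3I2
open scoped MatrixGroups ModularForm

/-- the analytic Fricke functions of level `Γ₁(M)` (unconditional). -/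
def frickeDataMain (M : ℕ) [NeZero M] : FrickeData M := frickeData_of (wpForms M)

/-- the datum of the dictionary (unconditional), `3 ≤ M`. -/
def dictDatumMain (M : ℕ) [NeZero M] (hM : 3 ≤ M) : DictDatum M :=
  dictDatum_of hM (frickeDataMain M)

/-- **(D1a)** for `Γ₁(M)`. -/
theorem dictD1a1_main (M : ℕ) [NeZero M] : DictD1a1 M := dictD1a1_of (wpForms M)

/-- **(D1b)** for `Γ₁(M)`, `3 ≤ M`. -/
theorem dictD1b1_main (M : ℕ) [NeZero M] (hM : 3 ≤ M) : DictD1b1 M :=
  dictD1b1_of (dictDatumMain M hM).isPhi (dictDatumMain M hM).stab (dictDatumMain M hM).phi_j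

/-- **(D2a)** for `Γ₁(M)`, `5 ≤ M`. -/
theorem dictD2a1_main (M : ℕ) [NeZero M] (hM : 5 ≤ M) : DictD2a1 M :=
  dictD2a1_of_fricke hM (frickeDataMain M)

/-- **(D2b)** for `Γ₁(M)`, `3 ≤ M`. -/
theorem dictD2b1_main (M : ℕ) [NeZero M] (hM : 3 ≤ M) : DictD2b1 M :=
  dictD2b1_of_fricke hM (frickeDataMain M)

/-- **(HPD)** for `Γ₁(M)`, `3 ≤ M`. -/
theorem dictHPD1_main (M : ℕ) [NeZero M] (hM : 3 ≤ M) : DictHPD1 M :=
  dictHPD1_of_fricke hM (frickeDataMain M)

/-- **(CONST)** for `Γ₁(M)`, `3 ≤ M`. -/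
theorem dictConst1_main (M : ℕ) [NeZero M] (hM : 3 ≤ M) : DictConst1 M :=
  dictConst1_of_fricke hM (frickeDataMain M)

/-- **The dictionary of block A2**, `5 ≤ M`, unconditional. -/
theorem hasDict1_main (M : ℕ) [NeZero M] (hM : 5 ≤ M) : Fermat.Agent.S48WA.HasDict1 M where
  d1a := dictD1a1_main M
  d1b := dictD1b1_main M (by omega)
  d2a := dictD2a1_main M hM
  d2b := dictD2b1_main M (by omega)
  hpd := dictHPD1_main M (by omega)
  const := dictConst1_main M (by omega)

/-- `ℂ(X₁(M))` is a function field over `ℂ` with separating element `j`, `3 ≤ M`. -/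
theorem isFunctionFieldOver_jBar1_main (M : ℕ) [NeZero M] (hM : 3 ≤ M) :
    Fermat.Agent.S24Diff.IsFunctionFieldOver ℂ (FC1 M) (jBar1 M) :=
  (dictDatumMain M hM).isFunctionFieldOver_jBar1

/-- `j` is transcendental over `ℂ` in `ℂ(X₁(M))`, `3 ≤ M`. -/
theorem transcendental_jBar1_main (M : ℕ) [NeZero M] (hM : 3 ≤ M) :
    Transcendental ℂ (jBar1 M) :=
  (dictDatumMain M hM).transcendental_jBar1

end Fermat.Agent.S48WA2
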