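/-
S48 wall (W), block A2, seat A2-LOC (helper53): the LOCAL POINTS of the ambient field `LH M`.

* `embLL M : LL M →ₐ[ℂ] LH M` : the field of cluster A (generated by the `γ • j_d`) inside the
  ambient field of modular functions of level `M`; it is `SL(2,ℤ)`-equivariant and injective.
* `S_zpow_smul_eq_iff_LH`, `ST_zpow_smul_eq_iff_LH`, `T_zpow_smul_eq_iff_LH` : the exact periods
  of `S`, `S * T`, `T` on `LH M`.
* `exists_local_point_LH` : for every `c : ℂ` an explicit point `τ` with `j τ = c`, the order `s`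
  of `j - c` at `τ`, a generator `g` of the stabiliser of `τ` modulo `± 1`, and the fact that the
  squared automorphy factor `(c_g τ + d_g)^2` is a primitive `s`-th root of unity.

Port of `F3/DictC/Periods.lean`, `F3/Dict/LocalPoint.lean` to `LH M`.
-/
import Mathlib
import Fermat.Agent.S48.W.A.Dict.Amb
import Fermat.Agent.S48.W.A.Dict.AmbVal
import Fermat.Agent.F3.Dict.LocalPoint

set_option autoImplicit false

noncomputable section

namespace Fermat.Agent.S48WA2

open UpperHalfPlane ModularGroup Fermat.Agent.F3Dict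
open scoped MatrixGroups

/-! ### the embedding `LL M → LH M` -/

theorem inclAH_injective (M : ℕ) [NeZero M] : Function.Injective (inclAH M) :=
  Subalgebra.inclusion_injective (AL_le_AH M)

theorem inclAH_smul (M : ℕ) [NeZero M] (γ : SL(2, ℤ)) (f : AL M) :
    inclAH M (γ • f) = γ • inclAH M f := rfl

/-- `AL M → AH M → LH M`. -/
def embAL (M : ℕ) [NeZero M] : AL M →ₐ[Kc] LH M :=
  (IsScalarTower.toAlgHom Kc (AH M) (LH M)).comp (inclAH M)

theorem embAL_apply (M : ℕ) [NeZero M] (f : AL M) :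
    embAL M f = algebraMap (AH M) (LH M) (inclAH M f) := rfl

theorem embAL_injective (M : ℕ) [NeZero M] : Function.Injective (embAL M) :=
  (IsFractionRing.injective (AH M) (LH M)).comp (inclAH_injective M)

/-- **the field `LL M` of cluster A inside the ambient field `LH M`.** -/
def embLL (M : ℕ) [NeZero M] : LL M →ₐ[Kc] LH M :=
  IsFractionRing.liftAlgHom (embAL_injective M)

theorem embLL_algebraMap (M : ℕ) [NeZero M] (f : AL M) :
    embLL M (algebraMap (AL M) (LL M) f) = algebraMap (AH M) (LH M) (inclAH M f) := by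
  unfold embLL
  rw [IsFractionRing.liftAlgHom_apply]
  exact IsFractionRing.lift_algebraMap _ _

theorem embLL_injective (M : ℕ) [NeZero M] : Function.Injective (embLL M) :=
  (embLL M).toRingHom.injective

theorem embLL_smul (M : ℕ) [NeZero M] (γ : SL(2, ℤ)) (x : LL M) :
    embLL M (γ • x) = γ • embLL M x := by
  obtain ⟨a, b, -, rfl⟩ := IsFractionRing.div_surjective (A := AL M) x
  rw [smul_div₀', LL.smul_algebraMap, LL.smul_algebraMap, map_div₀, map_div₀, smul_div₀',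
    embLL_algebraMap, embLL_algebraMap, embLL_algebraMap, embLL_algebraMap,
    LH.smul_algebraMap, LH.smul_algebraMap, inclAH_smul, inclAH_smul]

theorem embLL_jLL (M : ℕ) [NeZero M] : embLL M (jLL M) = jLH M := by
  unfold jLL
  rw [embLL_algebraMap]
  rfl

/-- an element fixing `LH M` pointwise fixes `LL M` pointwise. -/
theorem smul_eq_LL_of_smul_eq_LH (M : ℕ) [NeZero M] (γ : SL(2, ℤ))
    (h : ∀ x : LH M, γ • x = x) (x : LL M) : γ • x = x := by
  apply embLL_injective M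
  rw [embLL_smul, h]

/-! ### the periods of `S`, `S * T`, `T` -/

/-- The subgroup of `SL(2,ℤ)` acting trivially on `LH M`. -/
def fixerLH (M : ℕ) [NeZero M] : Subgroup SL(2, ℤ) where
  carrier := {γ | ∀ x : LH M, γ • x = x}
  one_mem' x := one_smul _ x
  mul_mem' {a b} ha hb x := by rw [mul_smul, hb x, ha x]
  inv_mem' {a} ha x := by
    rw [inv_smul_eq_iff, ha x]

theorem mem_fixerLH {M : ℕ} [NeZero M] {γ : SL(2, ℤ)} :
    γ ∈ fixerLH M ↔ ∀ x : LH M, γ • x = x := Iff.rfl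

theorem fixerLH_le_fixer (M : ℕ) [NeZero M] : fixerLH M ≤ Periods.fixer M :=
  fun γ h => smul_eq_LL_of_smul_eq_LH M γ h

/-- An element acting trivially on the upper half plane acts trivially on `LH M`. -/
theorem mem_fixerLH_of_forall_smul (M : ℕ) [NeZero M] (γ : SL(2, ℤ)) (h : ∀ τ : ℍ, γ • τ = τ) :
    γ ∈ fixerLH M := by
  have hFun : ∀ f : Fun, γ • f = f := by
    intro f
    ext τ
    rw [Fun.sl_smul_apply]
    congr 1
    rw [inv_smul_eq_iff, h τ]
  have hAH : ∀ f : AH M, γ • f = f := fun f => Subtype.ext (hFun f)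
  intro x
  obtain ⟨a, b, -, rfl⟩ := IsFractionRing.div_surjective (A := AH M) x
  rw [smul_div₀', LH.smul_algebraMap, LH.smul_algebraMap, hAH a, hAH b]

theorem S_sq_mem_fixerLH (M : ℕ) [NeZero M] : ModularGroup.S ^ 2 ∈ fixerLH M := by
  apply mem_fixerLH_of_forall_smul
  intro τ
  rw [pow_two, mul_smul, Periods.S_smul_S_smul]

theorem ST_cube_mem_fixerLH (M : ℕ) [NeZero M] :
    (ModularGroup.S * ModularGroup.T) ^ 3 ∈ fixerLH M := by
  apply mem_fixerLH_of_forall_smul
  intro τ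
  rw [Periods.ST_pow_three, ModularGroup.SL_neg_smul, one_smul]

theorem S_zpow_smul_eq_iff_LH (M : ℕ) [NeZero M] (hM : 2 ≤ M) (k : ℤ) :
    (∀ x : LH M, (ModularGroup.S ^ k) • x = x) ↔ (2 : ℤ) ∣ k :=
  Periods.zpow_mem_iff_of_prime (fixerLH M) ModularGroup.S 2 Nat.prime_two (S_sq_mem_fixerLH M)
    (fun h => Periods.S_not_mem_fixer M hM (fixerLH_le_fixer M h)) k

theorem ST_zpow_smul_eq_iff_LH (M : ℕ) [NeZero M] (hM : 2 ≤ M) (k : ℤ) :
    (∀ x : LH M, ((ModularGroup.S * ModularGroup.T) ^ k) • x = x) ↔ (3 : ℤ) ∣ k :=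
  Periods.zpow_mem_iff_of_prime (fixerLH M) (ModularGroup.S * ModularGroup.T) 3 Nat.prime_three
    (ST_cube_mem_fixerLH M)
    (fun h => Periods.ST_not_mem_fixer M hM (fixerLH_le_fixer M h)) k

theorem T_zpow_smul_eq_iff_LH (M : ℕ) [NeZero M] (k : ℤ) :
    (∀ x : LH M, (ModularGroup.T ^ k) • x = x) ↔ (M : ℤ) ∣ k := by
  constructor
  · intro h
    exact (T_zpow_smul_eq_iff M k).mp (smul_eq_LL_of_smul_eq_LH M _ h)
  · intro hk x
    apply Gamma_smul_eq_LH M
    have := CongruenceSubgroup.ModularGroup_T_pow_mem_Gamma (M : ℤ) k hk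
    simpa using this

/-! ### the local points -/

/-- **(LD) for `LH M`.**  Explicit local point above `j = c`. -/
theorem exists_local_point_LH (M : ℕ) [NeZero M] (hM : 2 ≤ M) (c : ℂ) :
    ∃ (τ : ℍ) (s : ℕ) (g : SL(2, ℤ)), jFun τ = c ∧ 0 < s ∧
      valLH M τ (jLH M - algebraMap ℂ (LH M) c) = WithZero.exp (-(s : ℤ)) ∧ g • τ = τ ∧
      (s = 1 ∨ s = 2 ∨ s = 3) ∧
      (∀ k : ℤ, (∀ x : LH M, (g ^ k) • x = x) ↔ (s : ℤ) ∣ k) ∧
      IsPrimitiveRoot ((((g 1 0 : ℤ) : ℂ) * (τ : ℂ) + ((g 1 1 : ℤ) : ℂ)) ^ 2) s := by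
  by_cases hc1 : c = 1728
  · -- the elliptic point `i`
    subst hc1
    refine ⟨UpperHalfPlane.I, 2, ModularGroup.S, JLocal.jFun_I, by norm_num, ?_,
      JLocal.S_smul_I', Or.inr (Or.inl rfl), ?_, ?_⟩
    · refine valLH_jLH_sub M _ _ 2 ?_
      rw [iota_ofNat_1728]
      exact JLocal.analyticOrderAt_jFun_I
    · intro k
      rw [S_zpow_smul_eq_iff_LH M hM k]
      norm_num
    · rw [S_apply_one_zero, S_apply_one_one]
      have : (((1 : ℤ) : ℂ) * ((UpperHalfPlane.I : ℍ) : ℂ) + ((0 : ℤ) : ℂ)) ^ 2 = -1 := by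
        simp
      rw [this]
      exact IsPrimitiveRoot.neg_one 0 (by norm_num)
  by_cases hc0 : c = 0
  · -- the elliptic point `ρ`
    subst hc0
    refine ⟨UpperHalfPlane.ρ, 3, ModularGroup.S * ModularGroup.T, JLocal.jFun_rho, by norm_num,
      ?_, JLocal.ST_smul_rho, Or.inr (Or.inr rfl), ?_, ?_⟩
    · refine valLH_jLH_sub M _ _ 3 ?_
      simp only [map_zero, sub_zero]
      exact JLocal.analyticOrderAt_jFun_rho
    · intro k
      rw [ST_zpow_smul_eq_iff_LH M hM k]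
      norm_num
    · rw [ST_apply_one_zero, ST_apply_one_one]
      have h2 : ((ρ : ℍ) : ℂ) ^ 2 = -(ρ : ℂ) - 1 := UpperHalfPlane.ρ_sq
      have : (((1 : ℤ) : ℂ) * ((UpperHalfPlane.ρ : ℍ) : ℂ) + ((1 : ℤ) : ℂ)) ^ 2 =
          ((ρ : ℍ) : ℂ) := by
        push_cast
        linear_combination h2
      rw [this]
      exact isPrimitiveRoot_rho
  · -- a generic point
    obtain ⟨τ₀, hτ₀⟩ := JLocal.jFun_surjective c
    have h0 : jFun τ₀ ≠ 0 := by
      rw [hτ₀]
      exact hc0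
    have h1 : jFun τ₀ ≠ 1728 := by
      rw [hτ₀]
      exact hc1
    refine ⟨τ₀, 1, 1, hτ₀, by norm_num, ?_, one_smul _ _, Or.inl rfl, ?_, ?_⟩
    · refine valLH_jLH_sub M _ _ 1 ?_
      rw [← hτ₀]
      exact_mod_cast JLocal.analyticOrderAt_jFun_sub τ₀ h0 h1
    · intro k
      simp
    · have : ((((1 : SL(2, ℤ)) 1 0 : ℤ) : ℂ) * (τ₀ : ℂ) + (((1 : SL(2, ℤ)) 1 1 : ℤ) : ℂ)) ^ 2
          = 1 := by
        simp
      rw [this]
      exact IsPrimitiveRoot.one

end Fermat.Agent.S48WA2
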