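/-
S48 wall (W), block A2 (sub-architect helper36), seat A2-D3 (helper78): shared DEFINITIONS of the
sub-seats D3-SUBST, D3-INCL, D3-SCALE, D3-GRP, D3-NORM (definitions only, no sorry).

* `affFun a e b f = f ∘ ((a τ + b) / e)`, `pScaleFun p f = f ∘ (p τ)`;
* the matrices `g₀⁻¹ = [1 t; M ps]`, `h₀ = [p t; M s]` (`p s - M t = 1`) and the coset
  representatives `γ_b = T^{-b} g₀ ∈ Γ₁(M)` of `Γ₁(M) ∩ Γ₀(p) \ Γ₁(M)` (besides `1`):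
  `[p 0; 0 1] γ_b⁻¹ = h₀ [1 b; 0 p]`, `h₀ ∈ Γ₀(M)` with upper left entry `p`.
-/
import Mathlib
import Fermat.Agent.S48.W.A.Dict.Seats
import Fermat.Agent.F3.DictC.GensExp

set_option autoImplicit false

noncomputable section

namespace Fermat.Agent.S48WA2

open UpperHalfPlane CongruenceSubgroup Fermat.Agent.F3Dict Fermat.Agent.F3Dict.GensExp
open scoped MatrixGroups

/-- `f ∘ ((a τ + b) / e)`. -/
def affFun (a e : ℕ) (b : ℤ) (ha : 0 < a) (he : 0 < e) (f : Fun) : Fun :=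
  fun τ => f (aff a e b ha he τ)

@[simp] theorem affFun_apply (a e : ℕ) (b : ℤ) (ha : 0 < a) (he : 0 < e) (f : Fun) (τ : ℍ) :
    affFun a e b ha he f τ = f (aff a e b ha he τ) := rfl

/-- `f ∘ (p τ)`. -/
def pScaleFun (p : ℕ) [NeZero p] (f : Fun) : Fun := fun τ => f (scale p τ)

@[simp] theorem pScaleFun_apply (p : ℕ) [NeZero p] (f : Fun) (τ : ℍ) :
    pScaleFun p f τ = f (scale p τ) := rfl

/-- `g₀⁻¹ = [1 t; M ps]`, `p s - M t = 1`. -/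
def d3G0inv (M p : ℕ) (s t : ℤ) (h : (p : ℤ) * s - (M : ℤ) * t = 1) : SL(2, ℤ) :=
  ⟨!![1, t; (M : ℤ), (p : ℤ) * s], by
    rw [Matrix.det_fin_two_of]
    linear_combination h⟩

/-- `h₀ = [p t; M s]`. -/
def d3H0 (M p : ℕ) (s t : ℤ) (h : (p : ℤ) * s - (M : ℤ) * t = 1) : SL(2, ℤ) :=
  ⟨!![(p : ℤ), t; (M : ℤ), s], by
    rw [Matrix.det_fin_two_of]
    linear_combination h⟩

/-- `γ_b = T^{-b} g₀`. -/
def d3Gam (M p : ℕ) (s t : ℤ) (h : (p : ℤ) * s - (M : ℤ) * t = 1) (b : ℕ) : SL(2, ℤ) :=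
  ModularGroup.T ^ (-(b : ℤ)) * (d3G0inv M p s t h)⁻¹

theorem d3H0_zero_zero (M p : ℕ) (s t : ℤ) (h : (p : ℤ) * s - (M : ℤ) * t = 1) :
    (d3H0 M p s t h) 0 0 = (p : ℤ) := rfl

theorem d3H0_one_zero (M p : ℕ) (s t : ℤ) (h : (p : ℤ) * s - (M : ℤ) * t = 1) :
    (d3H0 M p s t h) 1 0 = (M : ℤ) := rfl

end Fermat.Agent.S48WA2
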