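/-
S48 wall (W), block A2 (sub-architect helper36), seat A2-D3 (helper78), part D3-T:
the interface proposition `DictD3One M p` (norm description of `T_p` on ratios of modular forms
on `Γ₁(M)`) from the twisted norm product formula over `ℂ`
    `(Norm (y(q^p)))(q^p) = y(q^{p²}) · ∏_{b<p} (⟨p⟩ y)(ζ^b q)`
and the description `DictD3Diamond` of the diamond automorphisms.
Twisted version of `F3/I2/Dict3.lean`.
-/
import Mathlib
import Fermat.Agent.S48.W.A.Dict.D3Norm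
import Fermat.Agent.S48.W.A.Dict.Diamond
import Fermat.Agent.S48.W.A.Dict.D1b
import Fermat.Agent.S48.Neb.Group

set_option autoImplicit false

noncomputable section

namespace Fermat.Agent.S48WA2

open UpperHalfPlane ModularForm CongruenceSubgroup ModularCurve AlgebraicCurve
open Fermat.Agent.F3Dict Fermat.Agent.S48W Fermat.Agent.F3I2
open Fermat.Agent.S23 Fermat.Agent.S28 Fermat.Agent.S28.QExp
open Fermat.Agent.Kronecker (scaleL scaleL_coeff)
open Matrix.SpecialLinearGroup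
open P2MW.S_ModularForm_heckeT_slash_eq_self_of_mem_Gamma0.ModularForm.HeckeSlashInvariance
open scoped Real Topology Manifold MatrixGroups ModularForm

/-! ### the translate `A ∣ σ`, `σ ∈ Γ₀(M)`, as a modular form on `Γ₁(M)` -/

open ConjAct Pointwise in
/-- `Γ₀(M)` normalises `Γ₁(M)`, in `GL₂(ℝ)`. -/
theorem d3one_conj_Gamma1_eq (M : ℕ) (σ : SL(2, ℤ)) (hσ : σ ∈ Gamma0 M) :
    (Subgroup.map (mapGL ℝ) (Gamma1 M))
      = toConjAct (mapGL ℝ σ)⁻¹ • Subgroup.map (mapGL ℝ) (Gamma1 M) := by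
  ext x
  rw [Subgroup.mem_pointwise_smul_iff_inv_smul_mem, ConjAct.toConjAct_inv, inv_inv,
    ConjAct.smul_def, ConjAct.ofConjAct_toConjAct]
  constructor
  · rintro ⟨γ, hγ, rfl⟩
    refine ⟨σ * γ * σ⁻¹, Fermat.Agent.S48.Neb.conj_mem_Gamma1 M σ γ hσ hγ, ?_⟩
    simp
  · rintro ⟨γ, hγ, hx⟩
    refine ⟨σ⁻¹ * γ * σ, ?_, ?_⟩
    · have := Fermat.Agent.S48.Neb.conj_mem_Gamma1 M σ⁻¹ γ (inv_mem hσ) hγ
      rwa [inv_inv] at this
    · rw [map_mul, map_mul, hx, map_inv]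
      group

/-- The translate `A ∣ σ` (`σ ∈ Γ₀(M)`) as a modular form on `Γ₁(M)`. -/
def slashForm1 {M : ℕ} {w : ℤ} (A : ModularForm (Gamma1 M) w) (σ : SL(2, ℤ))
    (hσ : σ ∈ Gamma0 M) : ModularForm (Gamma1 M) w :=
  (ModularForm.translate A (mapGL ℝ σ)).copy ((A : ℍ → ℂ) ∣[w] (mapGL ℝ σ)) rfl
    (d3one_conj_Gamma1_eq M σ hσ)

theorem coe_slashForm1 {M : ℕ} {w : ℤ} (A : ModularForm (Gamma1 M) w) (σ : SL(2, ℤ))
    (hσ : σ ∈ Gamma0 M) : ⇑(slashForm1 A σ hσ) = ⇑A ∣[w] σ := rfl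

/-! ### `q`-expansions -/

theorem d3one_hasQ {M : ℕ} {w : ℤ} (A : ModularForm (Gamma1 M) w) : HasQ A (qLaurent A) :=
  HasQ.of_isMF' (one_mem_strictPeriods_Gamma1_form M) (IsMF.of A)

theorem d3one_scaleL_ne_zero (z : ℂˣ) {s : LaurentSeries ℂ} (hs : s ≠ 0) : scaleL z s ≠ 0 := by
  intro h
  apply hs
  ext n
  have := congrArg (fun y : LaurentSeries ℂ => y.coeff n) h
  simp only [scaleL_coeff, HahnSeries.coeff_zero] at this
  rcases mul_eq_zero.mp this with h1 | h1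
  · exact absurd h1 (Units.ne_zero _)
  · simpa using h1

/-- The twisted formal operator `(s, t) ↦ s(q^{p²}) · ∏_{b<p} t(ζ^b q)`. -/
def d3oneE (p : ℕ) [NeZero p] [NeZero (p * p)] (s t : LaurentSeries ℂ) : LaurentSeries ℂ :=
  qExpand ℂ (p * p) s * ∏ b ∈ Finset.range p, scaleL (dict3Zeta p ^ b) t

theorem d3oneE_mul (p : ℕ) [NeZero p] [NeZero (p * p)] (s s' t t' : LaurentSeries ℂ) :
    d3oneE p (s * s') (t * t') = d3oneE p s t * d3oneE p s' t' := by
  simp only [d3oneE, map_mul, Finset.prod_mul_distrib]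
  ring

theorem d3oneE_ne_zero (p : ℕ) [NeZero p] [NeZero (p * p)] {s t : LaurentSeries ℂ}
    (hs : s ≠ 0) (ht : t ≠ 0) : d3oneE p s t ≠ 0 := by
  unfold d3oneE
  refine mul_ne_zero ?_ (Finset.prod_ne_zero_iff.mpr fun b _ => d3one_scaleL_ne_zero _ ht)
  exact fun h => hs (qExpand_injective (R := ℂ) (p * p) (h.trans (map_zero _).symm))

/-- The product of the twisted Hecke translates, evaluated at `p τ`. -/
theorem d3one_prod_slash_mulUH (p : ℕ) [NeZero p] [NeZero (p * p)] (w : ℤ) (f g : ℍ → ℂ)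
    (τ : ℍ) :
    (f ∣[w] heckeRep p (OnePoint.infty : OnePoint (ZMod p))) (mulUH p τ) *
        ∏ b : ZMod p, (g ∣[w] heckeRep p (OnePoint.some b)) (mulUH p τ) =
      dict3Const p w * (f (mulUH (p * p) τ) *
        ∏ b ∈ Finset.range p, g ((b / p : ℝ) +ᵥ τ)) := by
  have h1 : ∀ b : ZMod p, (g ∣[w] heckeRep p (OnePoint.some b)) (mulUH p τ) =
      (g ∣[w] heckeMatrix p b.val) (mulUH p τ) := fun b => rfl
  have h2 : (f ∣[w] heckeRep p (OnePoint.infty : OnePoint (ZMod p))) (mulUH p τ) =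
      (f ∣[w] heckeDiagMatrix p) (mulUH p τ) := rfl
  rw [h2, Finset.prod_congr rfl (fun b _ => h1 b), dict3_slash_diag, dict3_diag_smul_mulUH,
    ← dict3_prod_range_eq_prod_zmod p (fun j => (g ∣[w] heckeMatrix p j) (mulUH p τ))]
  simp only [dict3_slash_upper, dict3_upper_smul_mulUH]
  rw [Finset.prod_mul_distrib, Finset.prod_const, Finset.card_range, dict3Const]
  ring

/-- **Key lemma**: the `q`-expansion of `A' = (A ∣ α_∞) · ∏_b (A ∣ σ) ∣ α_b`. -/
theorem d3one_qExpand_prod (M p : ℕ) [NeZero p] [NeZero (p * p)] {w w' : ℤ}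
    (A As : ModularForm (Gamma1 M) w) (A' : ModularForm (Gamma1 M) w') (σ : SL(2, ℤ))
    (hAs : ⇑As = ⇑A ∣[w] σ)
    (hA' : ⇑A' = fun z => (⇑A ∣[w] heckeRep p (OnePoint.infty : OnePoint (ZMod p))) z *
        ∏ b : ZMod p, ((⇑A ∣[w] σ) ∣[w] heckeRep p (OnePoint.some b)) z) :
    qExpand ℂ p (qLaurent A') =
      HahnSeries.C (dict3Const p w) * d3oneE p (qLaurent A) (qLaurent As) := by
  have hA : HasQ A (qLaurent A) := d3one_hasQ A
  have hAsQ : HasQ As (qLaurent As) := d3one_hasQ As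
  have h1 : HasQ (fun τ => A' (mulUH p τ)) (qExpand ℂ p (qLaurent A')) :=
    (d3one_hasQ A').comp_mulUH p
  have h2 : HasQ ((fun _ : ℍ => dict3Const p w) * ((fun τ => A (mulUH (p * p) τ)) *
      ∏ b ∈ Finset.range p, fun τ => As ((b / p : ℝ) +ᵥ τ)))
      (HahnSeries.C (dict3Const p w) * d3oneE p (qLaurent A) (qLaurent As)) :=
    (hasQ_const _).mul ((hA.comp_mulUH (p * p)).mul
      (HasQ.prod (Finset.range p) fun b _ =>
        dict3_hasQ_translate hAsQ (b / p : ℝ) (dict3Zeta p ^ b) (dict3Zeta_pow_coe p b)))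
  refine h1.eq_of_eq h2 fun τ => ?_
  rw [hA']
  simp only [Pi.mul_apply, Finset.prod_apply]
  rw [hAs]
  exact d3one_prod_slash_mulUH p w A (⇑A ∣[w] σ) τ

/-- **(D3-T)** from the twisted norm product formula, the diamond automorphisms and their
description on ratios of modular forms. -/
theorem dictD3One_of (M p : ℕ) [NeZero M] [NeZero p] [NeZero (p * p)]
    (hpu : IsUnit (p : ZMod M)) (hE : DictDiamondExists M) (hD : DictD3Diamond M)
    (hN : NormProductFormulaOneC M p) : DictD3One M p := by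
  intro σ hσ hσp w A B x _ hx w' A' B' hA' hB'
  obtain ⟨d, hd⟩ := hpu
  obtain ⟨δ, hδ⟩ := hE d
  have hxs : IsRatio1 M (δ x) (slashForm1 A σ hσ) (slashForm1 B σ hσ) :=
    hD d δ hδ σ hσ (by rw [hσp, hd]) w A B x hx _ _ (coe_slashForm1 A σ hσ)
      (coe_slashForm1 B σ hσ)
  obtain ⟨hB, hAB⟩ := hx
  obtain ⟨hBs, hABs⟩ := hxs
  have hqB : qLaurent B ≠ 0 := d1b_qLaurent_ne_zero B hB
  have hqBs : qLaurent (slashForm1 B σ hσ) ≠ 0 := d1b_qLaurent_ne_zero _ hBs
  have kA := d3one_qExpand_prod M p A (slashForm1 A σ hσ) A' σ (coe_slashForm1 A σ hσ) hA'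
  have kB := d3one_qExpand_prod M p B (slashForm1 B σ hσ) B' σ (coe_slashForm1 B σ hσ) hB'
  have hc := dict3Const_ne_zero p w
  have hC : (HahnSeries.C (dict3Const p w) : LaurentSeries ℂ) ≠ 0 := by
    intro h0
    have := congrArg (fun y : LaurentSeries ℂ => y.coeff 0) h0
    simp at this
    exact hc this
  have hB'0 : B' ≠ 0 := by
    rintro rfl
    have h0 : qLaurent (0 : ModularForm (Gamma1 M) w') = 0 := dict1QF_zero
    rw [h0, map_zero] at kB
    exact mul_ne_zero hC (d3oneE_ne_zero p hqB hqBs) kB.symm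
  refine ⟨hB'0, ?_⟩
  apply qExpand_injective (R := ℂ) p
  rw [map_mul, kA, kB, hN d hd δ hδ x, hAB, hABs, d3oneE_mul]
  unfold d3oneE
  ring

end Fermat.Agent.S48WA2
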