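/-
S48 wall (W), block A2 (sub-architect helper36), seat A2-D3 (helper78): FINAL statements.

* `dictD3One_of_fricke`  : `DictD3One M p` for `3 ≤ M`, `p` prime, `p ∤ M`, from the analytic
                           Fricke functions;
* `normProductFormulaOneC_main`, `dictD3One_main`, `dictD3Diamond_main`,
  `dictDiamondExists_main` : the unconditional statements (hub A1's `wpForms`).
-/
import Mathlib
import Fermat.Agent.S48.W.A.Dict.D3One
import Fermat.Agent.S48.W.A.Dict.HasDict

set_option autoImplicit false

noncomputable section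

namespace Fermat.Agent.S48WA2

open UpperHalfPlane CongruenceSubgroup ModularCurve AlgebraicCurve
open scoped MatrixGroups ModularForm

/-- **(D3-T)** for `Γ₁(M)`, `3 ≤ M`, `p` prime, `p ∤ M`, from the analytic Fricke functions. -/
theorem dictD3One_of_fricke (M p : ℕ) [NeZero M] [NeZero p] (hM : 3 ≤ M) (hp : p.Prime)
    (hpM : Nat.Coprime p M) (D : FrickeData M) : DictD3One M p := by
  haveI : NeZero (M * p) := ⟨mul_ne_zero (NeZero.ne M) (NeZero.ne p)⟩
  haveI : NeZero (p * p) := ⟨mul_ne_zero (NeZero.ne p) (NeZero.ne p)⟩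
  refine dictD3One_of M p ?_ (dictDiamondExists_of D) (dictD3Diamond_of D)
    (normProductFormulaOneC_of M p hM hp hpM D)
  exact ⟨ZMod.unitOfCoprime p hpM, ZMod.coe_unitOfCoprime p hpM⟩

/-- **The twisted norm product formula over `ℂ`** at level `Γ₁(M)`. -/
theorem normProductFormulaOneC_main (M p : ℕ) [NeZero M] [NeZero p] (hM : 3 ≤ M)
    (hp : p.Prime) (hpM : Nat.Coprime p M) : NormProductFormulaOneC M p := by
  haveI : NeZero (M * p) := ⟨mul_ne_zero (NeZero.ne M) (NeZero.ne p)⟩
  haveI : NeZero (p * p) := ⟨mul_ne_zero (NeZero.ne p) (NeZero.ne p)⟩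
  exact normProductFormulaOneC_of M p hM hp hpM (frickeDataMain M)

/-- **(D3-T)**: the norm description of `T_p` on ratios of modular forms on `Γ₁(M)`. -/
theorem dictD3One_main (M p : ℕ) [NeZero M] [NeZero p] (hM : 3 ≤ M) (hp : p.Prime)
    (hpM : Nat.Coprime p M) : DictD3One M p :=
  dictD3One_of_fricke M p hM hp hpM (frickeDataMain M)

/-- **(D3-δ)**: the diamond automorphisms on ratios of modular forms on `Γ₁(M)`. -/
theorem dictD3Diamond_main (M : ℕ) [NeZero M] : DictD3Diamond M :=
  dictD3Diamond_of (frickeDataMain M)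

/-- **(D3-δ, existence)**: the diamond automorphisms of `F₁(M)` over `ℂ` exist. -/
theorem dictDiamondExists_main (M : ℕ) [NeZero M] : DictDiamondExists M :=
  dictDiamondExists_of (frickeDataMain M)

end Fermat.Agent.S48WA2
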