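/-
S48 wall (W), block A2, seat A2-D3 (helper78), sub-seat D3-GRP (helper57): the MATRIX identities
of the coset representatives `γ_b = T^{-b} g₀` of `Γ₁(M) ∩ Γ₀(p) \ Γ₁(M)`.

* `d3Gam_mem_Gamma1`, `d3H0_mem_Gamma0`;
* `scale_d3Gam_inv_smul` : `p · (γ_b⁻¹ τ) = h₀ ((τ + b) / p)`;
* `d3_cover` : `Γ₁(M) = (Γ₁(M) ∩ Γ₀(p)) ∪ ⋃_{b < p} γ_b (Γ₁(M) ∩ Γ₀(p))`;
* `d3_conj_scale` : for `g ∈ Γ₁(M) ∩ Γ₀(p)` there is `k ∈ Γ₁(M)` with `p · (g⁻¹ τ) = k⁻¹ (p τ)`.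
-/
import Mathlib
import Fermat.Agent.S48.W.A.Dict.D3Defs
import Fermat.Agent.Lib.Kronecker.Formal

set_option autoImplicit false

noncomputable section

namespace Fermat.Agent.S48WA2

open UpperHalfPlane CongruenceSubgroup ModularCurve AlgebraicCurve Fermat.Agent.F3Dict
  Fermat.Agent.F3Dict.GensExp
open scoped MatrixGroups ModularForm

/-! ### entries -/

theorem d3Gam_inv (M p : ℕ) (s t : ℤ) (h : (p : ℤ) * s - (M : ℤ) * t = 1) (b : ℕ) :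
    (d3Gam M p s t h b)⁻¹ = d3G0inv M p s t h * ModularGroup.T ^ (b : ℤ) := by
  rw [d3Gam, mul_inv_rev, inv_inv, ← zpow_neg, neg_neg]

theorem d3G0inv_coe (M p : ℕ) (s t : ℤ) (h : (p : ℤ) * s - (M : ℤ) * t = 1) :
    (d3G0inv M p s t h : Matrix (Fin 2) (Fin 2) ℤ) = !![1, t; (M : ℤ), (p : ℤ) * s] := rfl

theorem d3Gam_inv_coe (M p : ℕ) (s t : ℤ) (h : (p : ℤ) * s - (M : ℤ) * t = 1) (b : ℕ) :
    (((d3Gam M p s t h b)⁻¹ : SL(2, ℤ)) : Matrix (Fin 2) (Fin 2) ℤ)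
      = !![1, (b : ℤ) + t; (M : ℤ), (M : ℤ) * b + (p : ℤ) * s] := by
  rw [d3Gam_inv, Matrix.SpecialLinearGroup.coe_mul, d3G0inv_coe, ModularGroup.coe_T_zpow]
  ext i j
  fin_cases i <;> fin_cases j <;> simp [Matrix.mul_apply, Fin.sum_univ_two]

theorem d3Gam_coe (M p : ℕ) (s t : ℤ) (h : (p : ℤ) * s - (M : ℤ) * t = 1) (b : ℕ) :
    ((d3Gam M p s t h b : SL(2, ℤ)) : Matrix (Fin 2) (Fin 2) ℤ)
      = !![(M : ℤ) * b + (p : ℤ) * s, -((b : ℤ) + t); -(M : ℤ), 1] := by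
  have h1 : d3Gam M p s t h b = (((d3Gam M p s t h b)⁻¹ : SL(2, ℤ))⁻¹ : SL(2, ℤ)) :=
    (inv_inv _).symm
  have h2 := Matrix.SpecialLinearGroup.SL2_inv_expl ((d3Gam M p s t h b)⁻¹ : SL(2, ℤ))
  have h3 := d3Gam_inv_coe M p s t h b
  rw [h1, h2]
  show !![((d3Gam M p s t h b)⁻¹ : SL(2, ℤ)) 1 1, -((d3Gam M p s t h b)⁻¹ : SL(2, ℤ)) 0 1;
      -((d3Gam M p s t h b)⁻¹ : SL(2, ℤ)) 1 0, ((d3Gam M p s t h b)⁻¹ : SL(2, ℤ)) 0 0] = _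
  have e00 : ((d3Gam M p s t h b)⁻¹ : SL(2, ℤ)) 0 0 = 1 := by
    show (((d3Gam M p s t h b)⁻¹ : SL(2, ℤ)) : Matrix (Fin 2) (Fin 2) ℤ) 0 0 = 1
    rw [h3]; rfl
  have e01 : ((d3Gam M p s t h b)⁻¹ : SL(2, ℤ)) 0 1 = (b : ℤ) + t := by
    show (((d3Gam M p s t h b)⁻¹ : SL(2, ℤ)) : Matrix (Fin 2) (Fin 2) ℤ) 0 1 = _
    rw [h3]; rfl
  have e10 : ((d3Gam M p s t h b)⁻¹ : SL(2, ℤ)) 1 0 = (M : ℤ) := by
    show (((d3Gam M p s t h b)⁻¹ : SL(2, ℤ)) : Matrix (Fin 2) (Fin 2) ℤ) 1 0 = _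
    rw [h3]; rfl
  have e11 : ((d3Gam M p s t h b)⁻¹ : SL(2, ℤ)) 1 1 = (M : ℤ) * b + (p : ℤ) * s := by
    show (((d3Gam M p s t h b)⁻¹ : SL(2, ℤ)) : Matrix (Fin 2) (Fin 2) ℤ) 1 1 = _
    rw [h3]; rfl
  rw [e00, e01, e10, e11]

theorem d3Gam_mem_Gamma1 (M p : ℕ) (s t : ℤ) (h : (p : ℤ) * s - (M : ℤ) * t = 1) (b : ℕ) :
    d3Gam M p s t h b ∈ Gamma1 M := by
  have hc := d3Gam_coe M p s t h b
  have e00 : (d3Gam M p s t h b) 0 0 = (M : ℤ) * b + (p : ℤ) * s := by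
    show ((d3Gam M p s t h b : SL(2, ℤ)) : Matrix (Fin 2) (Fin 2) ℤ) 0 0 = _
    rw [hc]; rfl
  have e11 : (d3Gam M p s t h b) 1 1 = 1 := by
    show ((d3Gam M p s t h b : SL(2, ℤ)) : Matrix (Fin 2) (Fin 2) ℤ) 1 1 = _
    rw [hc]; rfl
  have e10 : (d3Gam M p s t h b) 1 0 = -(M : ℤ) := by
    show ((d3Gam M p s t h b : SL(2, ℤ)) : Matrix (Fin 2) (Fin 2) ℤ) 1 0 = _
    rw [hc]; rfl
  rw [Gamma1_mem, e00, e11, e10]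
  refine ⟨?_, by simp, by simp⟩
  have h' : (p : ℤ) * s = 1 + (M : ℤ) * t := by linarith
  rw [h']
  push_cast
  simp

theorem d3H0_mem_Gamma0 (M p : ℕ) (s t : ℤ) (h : (p : ℤ) * s - (M : ℤ) * t = 1) :
    d3H0 M p s t h ∈ Gamma0 M := by
  rw [Gamma0_mem, d3H0_one_zero]
  simp

/-! ### the action on `ℍ` -/

theorem scale_d3Gam_inv_smul (M p : ℕ) [NeZero p] (s t : ℤ)
    (h : (p : ℤ) * s - (M : ℤ) * t = 1) (b : ℕ) (τ : ℍ) :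
    scale p ((d3Gam M p s t h b)⁻¹ • τ) =
      d3H0 M p s t h • aff 1 p (b : ℤ) one_pos (Nat.pos_of_ne_zero (NeZero.ne p)) τ := by
  apply UpperHalfPlane.ext
  have hc := d3Gam_inv_coe M p s t h b
  have e00 : ((d3Gam M p s t h b)⁻¹ : SL(2, ℤ)) 0 0 = 1 := by
    show (((d3Gam M p s t h b)⁻¹ : SL(2, ℤ)) : Matrix (Fin 2) (Fin 2) ℤ) 0 0 = 1
    rw [hc]; rfl
  have e01 : ((d3Gam M p s t h b)⁻¹ : SL(2, ℤ)) 0 1 = (b : ℤ) + t := by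
    show (((d3Gam M p s t h b)⁻¹ : SL(2, ℤ)) : Matrix (Fin 2) (Fin 2) ℤ) 0 1 = _
    rw [hc]; rfl
  have e10 : ((d3Gam M p s t h b)⁻¹ : SL(2, ℤ)) 1 0 = (M : ℤ) := by
    show (((d3Gam M p s t h b)⁻¹ : SL(2, ℤ)) : Matrix (Fin 2) (Fin 2) ℤ) 1 0 = _
    rw [hc]; rfl
  have e11 : ((d3Gam M p s t h b)⁻¹ : SL(2, ℤ)) 1 1 = (M : ℤ) * b + (p : ℤ) * s := by
    show (((d3Gam M p s t h b)⁻¹ : SL(2, ℤ)) : Matrix (Fin 2) (Fin 2) ℤ) 1 1 = _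
    rw [hc]; rfl
  have f00 : (d3H0 M p s t h) 0 0 = (p : ℤ) := rfl
  have f01 : (d3H0 M p s t h) 0 1 = t := rfl
  have f10 : (d3H0 M p s t h) 1 0 = (M : ℤ) := rfl
  have f11 : (d3H0 M p s t h) 1 1 = s := rfl
  have hd1 := sl2_denom_ne_zero ((d3Gam M p s t h b)⁻¹) τ
  have hd2 := sl2_denom_ne_zero (d3H0 M p s t h)
    (aff 1 p (b : ℤ) one_pos (Nat.pos_of_ne_zero (NeZero.ne p)) τ)
  rw [coe_scale, coe_sl2_smul, coe_sl2_smul] at *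
  rw [e00, e01, e10, e11] at *
  rw [f00, f01, f10, f11] at *
  rw [coe_aff] at *
  have hp : (p : ℂ) ≠ 0 := by exact_mod_cast NeZero.ne p
  push_cast at *
  have hd2' : (M : ℂ) * ((τ : ℂ) + (b : ℂ)) + (p : ℂ) * (s : ℂ) ≠ 0 := by
    intro h0
    apply hd1
    linear_combination h0
  have e1 : (M : ℂ) * (((1 : ℂ) * (τ : ℂ) + (b : ℂ)) / (p : ℂ)) + (s : ℂ)
      = ((M : ℂ) * ((τ : ℂ) + (b : ℂ)) + (p : ℂ) * (s : ℂ)) / (p : ℂ) := by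
    field_simp
  have e2 : (p : ℂ) * (((1 : ℂ) * (τ : ℂ) + (b : ℂ)) / (p : ℂ)) + (t : ℂ)
      = (τ : ℂ) + (b : ℂ) + (t : ℂ) := by
    field_simp
  have e3 : (M : ℂ) * (τ : ℂ) + ((M : ℂ) * (b : ℂ) + (p : ℂ) * (s : ℂ))
      = (M : ℂ) * ((τ : ℂ) + (b : ℂ)) + (p : ℂ) * (s : ℂ) := by ring
  rw [e1, e2, e3]
  field_simp
  ring

/-! ### the coset decomposition -/

theorem d3_cover (M p : ℕ) (hp : p.Prime) (s t : ℤ) (h : (p : ℤ) * s - (M : ℤ) * t = 1)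
    {g : SL(2, ℤ)} (hg : g ∈ Gamma1 M) :
    g ∈ Gamma0 p ∨ ∃ b < p, (d3Gam M p s t h b)⁻¹ * g ∈ Gamma0 p := by
  have hfact : Fact p.Prime := ⟨hp⟩
  have _hg := hg
  by_cases hc : ((g 1 0 : ℤ) : ZMod p) = 0
  · left
    rw [Gamma0_mem]
    exact hc
  · right
    -- `b ≡ - a c⁻¹ mod p`
    set a : ZMod p := ((g 0 0 : ℤ) : ZMod p) with ha
    set c : ZMod p := ((g 1 0 : ℤ) : ZMod p) with hc'
    refine ⟨(-a * c⁻¹).val, ZMod.val_lt _, ?_⟩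
    rw [Gamma0_mem]
    have hm : ((d3Gam M p s t h (-a * c⁻¹).val)⁻¹ * g) 1 0
        = (M : ℤ) * g 0 0 + ((M : ℤ) * ((-a * c⁻¹).val : ℕ) + (p : ℤ) * s) * g 1 0 := by
      rw [Matrix.SpecialLinearGroup.coe_mul, d3Gam_inv_coe]
      simp [Matrix.mul_apply, Fin.sum_univ_two]
    rw [hm]
    push_cast
    rw [ZMod.natCast_zmod_val, ← ha, ← hc']
    have hpz : ((p : ℕ) : ZMod p) = 0 := ZMod.natCast_self p
    rw [hpz]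
    field_simp
    ring

/-! ### conjugation by `[p 0; 0 1]` -/

theorem d3_exists_sl2 (a b c d : ℤ) (h : a * d - b * c = 1) :
    ∃ k : SL(2, ℤ), k 0 0 = a ∧ k 0 1 = b ∧ k 1 0 = c ∧ k 1 1 = d :=
  ⟨⟨!![a, b; c, d], by rw [Matrix.det_fin_two_of]; linear_combination h⟩, rfl, rfl, rfl, rfl⟩

theorem d3_inv_apply (g : SL(2, ℤ)) :
    (g⁻¹ : SL(2, ℤ)) 0 0 = g 1 1 ∧ (g⁻¹ : SL(2, ℤ)) 0 1 = -g 0 1 ∧
      (g⁻¹ : SL(2, ℤ)) 1 0 = -g 1 0 ∧ (g⁻¹ : SL(2, ℤ)) 1 1 = g 0 0 := by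
  have h := Matrix.SpecialLinearGroup.SL2_inv_expl g
  refine ⟨?_, ?_, ?_, ?_⟩ <;> rw [h] <;> rfl

theorem d3_conj_scale (M p : ℕ) [NeZero p] (hpM : Nat.Coprime p M) {g : SL(2, ℤ)}
    (hg1 : g ∈ Gamma1 M) (hgp : g ∈ Gamma0 p) :
    ∃ k ∈ Gamma1 M, ∀ τ : ℍ, scale p (g⁻¹ • τ) = k⁻¹ • scale p τ := by
  rw [Gamma1_mem] at hg1
  obtain ⟨h00, h11, h10⟩ := hg1
  rw [Gamma0_mem] at hgp
  have hpc : (p : ℤ) ∣ g 1 0 := (ZMod.intCast_zmod_eq_zero_iff_dvd _ _).mp hgp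
  have hMc : (M : ℤ) ∣ g 1 0 := (ZMod.intCast_zmod_eq_zero_iff_dvd _ _).mp h10
  obtain ⟨c', hc'⟩ := hpc
  have hMc' : (M : ℤ) ∣ c' := by
    have hcop : IsCoprime (M : ℤ) (p : ℤ) := by
      rw [Int.isCoprime_iff_gcd_eq_one]
      simpa [Int.gcd_natCast_natCast] using hpM.symm
    rw [hc'] at hMc
    exact hcop.dvd_of_dvd_mul_left hMc
  have hdet := sl2_det g
  obtain ⟨k, k00, k01, k10, k11⟩ := d3_exists_sl2 (g 0 0) ((p : ℤ) * g 0 1) c' (g 1 1) (by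
    rw [hc'] at hdet
    linear_combination hdet)
  refine ⟨k, ?_, ?_⟩
  · rw [Gamma1_mem, k00, k11, k10]
    exact ⟨h00, h11, (ZMod.intCast_zmod_eq_zero_iff_dvd _ _).mpr hMc'⟩
  · intro τ
    apply UpperHalfPlane.ext
    have hd1 := sl2_denom_ne_zero g⁻¹ τ
    obtain ⟨g00, g01, g10, g11⟩ := d3_inv_apply g
    obtain ⟨i00, i01, i10, i11⟩ := d3_inv_apply k
    rw [coe_scale, coe_sl2_smul, coe_sl2_smul, coe_scale]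
    rw [g10, g11] at hd1
    rw [g00, g01, g10, g11, i00, i01, i10, i11, k00, k01, k10, k11]
    have hcC : ((g 1 0 : ℤ) : ℂ) = (p : ℂ) * (c' : ℂ) := by exact_mod_cast hc'
    push_cast at hd1 ⊢
    rw [hcC] at hd1 ⊢
    have e : -(c' : ℂ) * ((p : ℂ) * (τ : ℂ)) + ((g 0 0 : ℤ) : ℂ)
        = -((p : ℂ) * (c' : ℂ)) * (τ : ℂ) + ((g 0 0 : ℤ) : ℂ) := by ring
    rw [e]
    field_simp

end Fermat.Agent.S48WA2
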