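/-
S48 wall (W), block A2, seat A2-D3, sub-seat D3-INCL (helper86): CHANGE OF LEVEL on the ambient
field, `LH M → LH (M * k)`.

* `IsAH.of_mul`   : a function of level `M` is of level `M * k`;
* `lhIncl M k : LH M →ₐ[ℂ] LH (M * k)` : the inclusion, `SL(2,ℤ)`-equivariant (`lhIncl_smul`),
  the identity on functions (`lhIncl_ofFun`), and `u_M = u_{Mk}^k` on expansions (`expLH_lhIncl`).
-/
import Mathlib
import Fermat.Agent.S48.W.A.Dict.D3Defs
import Fermat.Agent.Lib.Kronecker.Formal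

set_option autoImplicit false

noncomputable section

namespace Fermat.Agent.S48WA2

open UpperHalfPlane CongruenceSubgroup ModularCurve AlgebraicCurve Fermat.Agent.F3Dict
  Fermat.Agent.F3Dict.GensExp
open Fermat.Agent.Kronecker (scaleL scaleL_coeff)
open scoped MatrixGroups ModularForm

/-- `Γ(m') ≤ Γ(m)` for `m ∣ m'`. -/
theorem d3incl_Gamma_le {m m' : ℕ} (h : m ∣ m') : Gamma m' ≤ Gamma m := by
  intro γ hγ
  rw [CongruenceSubgroup.Gamma_mem] at hγ ⊢
  have key : ∀ x c : ℤ, ((x : ℤ) : ZMod m') = (c : ZMod m') →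
      ((x : ℤ) : ZMod m) = (c : ZMod m) := by
    intro x c hxc
    have := congrArg (ZMod.castHom h (ZMod m)) hxc
    simpa using this
  obtain ⟨h1, h2, h3, h4⟩ := hγ
  refine ⟨?_, ?_, ?_, ?_⟩
  · simpa using key (γ 0 0) 1 (by simpa using h1)
  · simpa using key (γ 0 1) 0 (by simpa using h2)
  · simpa using key (γ 1 0) 0 (by simpa using h3)
  · simpa using key (γ 1 1) 1 (by simpa using h4)

/-- **change of level**: a function of level `M` is of level `M * k`. -/
theorem IsAH.of_mul {M : ℕ} [NeZero M] (k : ℕ) [NeZero k] [NeZero (M * k)] {f : Fun}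
    (hf : IsAH M f) : IsAH (M * k) f := by
  refine ⟨hf.1, fun γ hγ => hf.2.1 γ (d3incl_Gamma_le (dvd_mul_right M k) hγ), fun γ => ?_⟩
  obtain ⟨a, ha⟩ := hf.2.2 γ
  exact ⟨_, ha.qExpand k⟩

theorem AH_le_AH_mul (M k : ℕ) [NeZero M] [NeZero k] [NeZero (M * k)] : AH M ≤ AH (M * k) :=
  fun _ hf => IsAH.of_mul k hf

/-- the inclusion `AH M → AH (M k)`. -/
def ahIncl (M k : ℕ) [NeZero M] [NeZero k] [NeZero (M * k)] : AH M →ₐ[ℂ] AH (M * k) :=
  Subalgebra.inclusion (AH_le_AH_mul M k)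

@[simp] theorem coe_ahIncl (M k : ℕ) [NeZero M] [NeZero k] [NeZero (M * k)] (f : AH M) :
    ((ahIncl M k f : AH (M * k)) : Fun) = (f : Fun) := rfl

theorem ahIncl_injective (M k : ℕ) [NeZero M] [NeZero k] [NeZero (M * k)] :
    Function.Injective (ahIncl M k) :=
  Subalgebra.inclusion_injective (AH_le_AH_mul M k)

theorem ahIncl_smul (M k : ℕ) [NeZero M] [NeZero k] [NeZero (M * k)] (γ : SL(2, ℤ)) (f : AH M) :
    ahIncl M k (γ • f) = γ • ahIncl M k f := rfl

/-- `AH M → AH (M k) → LH (M k)`. -/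
def ahInclLH (M k : ℕ) [NeZero M] [NeZero k] [NeZero (M * k)] : AH M →ₐ[ℂ] LH (M * k) :=
  (IsScalarTower.toAlgHom ℂ (AH (M * k)) (LH (M * k))).comp (ahIncl M k)

theorem ahInclLH_apply (M k : ℕ) [NeZero M] [NeZero k] [NeZero (M * k)] (f : AH M) :
    ahInclLH M k f = algebraMap (AH (M * k)) (LH (M * k)) (ahIncl M k f) := rfl

theorem ahInclLH_injective (M k : ℕ) [NeZero M] [NeZero k] [NeZero (M * k)] :
    Function.Injective (ahInclLH M k) :=
  (IsFractionRing.injective (AH (M * k)) (LH (M * k))).comp (ahIncl_injective M k)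

/-- the inclusion `LH M → LH (M k)`. -/
def lhIncl (M k : ℕ) [NeZero M] [NeZero k] [NeZero (M * k)] : LH M →ₐ[ℂ] LH (M * k) :=
  IsFractionRing.liftAlgHom (ahInclLH_injective M k)

theorem lhIncl_algebraMap (M k : ℕ) [NeZero M] [NeZero k] [NeZero (M * k)] (f : AH M) :
    lhIncl M k (algebraMap (AH M) (LH M) f) =
      algebraMap (AH (M * k)) (LH (M * k)) (ahIncl M k f) := by
  unfold lhIncl
  rw [IsFractionRing.liftAlgHom_apply]
  exact IsFractionRing.lift_algebraMap _ _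

theorem lhIncl_injective (M k : ℕ) [NeZero M] [NeZero k] [NeZero (M * k)] :
    Function.Injective (lhIncl M k) :=
  (lhIncl M k).toRingHom.injective

theorem lhIncl_ofFun (M k : ℕ) [NeZero M] [NeZero k] [NeZero (M * k)] (f : Fun)
    (hf : IsAH M f) : lhIncl M k (LH.ofFun f hf) = LH.ofFun f (hf.of_mul k) := by
  unfold LH.ofFun
  rw [lhIncl_algebraMap]
  rfl

theorem lhIncl_smul (M k : ℕ) [NeZero M] [NeZero k] [NeZero (M * k)] (γ : SL(2, ℤ)) (x : LH M) :
    lhIncl M k (γ • x) = γ • lhIncl M k x := by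
  obtain ⟨a, b, -, rfl⟩ := IsFractionRing.div_surjective (A := AH M) x
  rw [smul_div₀', LH.smul_algebraMap, LH.smul_algebraMap, map_div₀, map_div₀, smul_div₀',
    lhIncl_algebraMap, lhIncl_algebraMap, lhIncl_algebraMap, lhIncl_algebraMap,
    LH.smul_algebraMap, LH.smul_algebraMap, ahIncl_smul, ahIncl_smul]

theorem expAH_ahIncl (M k : ℕ) [NeZero M] [NeZero k] [NeZero (M * k)] (f : AH M) :
    expAH (M * k) (ahIncl M k f) = qExpand ℂ k (expAH M f) :=
  expAH_eq ((hasExp_expAH f).qExpand k)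

theorem expLH_lhIncl (M k : ℕ) [NeZero M] [NeZero k] [NeZero (M * k)] (x : LH M) :
    expLH (M * k) (lhIncl M k x) = qExpand ℂ k (expLH M x) := by
  obtain ⟨a, b, -, rfl⟩ := IsFractionRing.div_surjective (A := AH M) x
  rw [map_div₀, map_div₀, map_div₀, lhIncl_algebraMap, lhIncl_algebraMap, expLH_algebraMap,
    expLH_algebraMap, expLH_algebraMap, expLH_algebraMap, expAH_ahIncl, expAH_ahIncl]
  exact (map_div₀ (qExpand ℂ k) _ _).symm

end Fermat.Agent.S48WA2
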