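/-
S48 wall (W), block A2, seat A2-D3, sub-seat D3-SUBST (helper84): expansions at `∞` of
`f ∘ ((a τ + b) / e)` and of `f ∘ (p τ)`.

`u_M((a τ + b)/e) = z · u_{M a e}(τ)^{a²}`, `z = exp(2πi b/(e M))`, hence if `f` has the expansion
`s` in `u_M`, then `f ∘ ((a τ + b)/e)` has the expansion `(scaleL z s)(u^{a²})` in `u_{M a e}`.
Port of helper24's `S48/W/G/Kron/Scale.lean` (`hasPExp_substPS`, `uParam_aff_mul`) to `ℂ`.
-/
import Mathlib
import Fermat.Agent.S48.W.A.Dict.D3Defs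
import Fermat.Agent.Lib.Kronecker.Formal

set_option autoImplicit false
set_option linter.unusedSectionVars false
set_option linter.unusedVariables false

noncomputable section

namespace Fermat.Agent.S48WA2

open UpperHalfPlane CongruenceSubgroup ModularCurve AlgebraicCurve Fermat.Agent.F3Dict
  Fermat.Agent.F3Dict.GensExp
open Fermat.Agent.Kronecker (scaleL scaleL_coeff)
open scoped MatrixGroups ModularForm

/-! ### substitution `u ↦ z u^k` in a power series -/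

/-- the series `∑ pₙ zⁿ X^(k n)`. -/
def d3SubstPS (z : ℂ) (k : ℕ) (P : PowerSeries ℂ) : PowerSeries ℂ :=
  PowerSeries.mk fun n => if k ∣ n then z ^ (n / k) * PowerSeries.coeff (n / k) P else 0

theorem coeff_d3SubstPS (z : ℂ) (k : ℕ) (P : PowerSeries ℂ) (n : ℕ) :
    PowerSeries.coeff n (d3SubstPS z k P)
      = if k ∣ n then z ^ (n / k) * PowerSeries.coeff (n / k) P else 0 := by
  rw [d3SubstPS, PowerSeries.coeff_mk]

theorem coeff_d3SubstPS_mul (z : ℂ) (k : ℕ) (hk : 0 < k) (P : PowerSeries ℂ) (n : ℕ) :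
    PowerSeries.coeff (k * n) (d3SubstPS z k P) = z ^ n * PowerSeries.coeff n P := by
  rw [coeff_d3SubstPS, if_pos (dvd_mul_right k n), Nat.mul_div_cancel_left n hk]

theorem coeff_d3SubstPS_of_not_dvd (z : ℂ) (k : ℕ) (P : PowerSeries ℂ) {n : ℕ}
    (h : ¬ k ∣ n) : PowerSeries.coeff n (d3SubstPS z k P) = 0 := by
  rw [coeff_d3SubstPS, if_neg h]

/-- Substitution `u_{M₀} ∘ φ = z u_M^k` in a power series expansion. -/
theorem hasPExp_d3SubstPS {M₀ M : ℕ} {G : Fun} {P : PowerSeries ℂ} (hG : HasPExp M₀ G P)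
    (φ : ℍ → ℍ) (z : ℂ) (hz : ‖z‖ = 1) (k : ℕ) (hk : 0 < k)
    (hφ : ∀ τ, uParam M₀ (φ τ) = z * uParam M τ ^ k) :
    HasPExp M (fun τ => G (φ τ)) (d3SubstPS z k P) := by
  intro τ
  obtain ⟨hS, hH⟩ := hG (φ τ)
  have hinj : Function.Injective (fun n : ℕ => k * n) := fun a b h =>
    Nat.eq_of_mul_eq_mul_left hk h
  have hrange : ∀ m : ℕ, m ∉ Set.range (fun n : ℕ => k * n) → ¬ k ∣ m := by
    intro m hm hdvd
    obtain ⟨n, rfl⟩ := hdvd
    exact hm ⟨n, rfl⟩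
  have hnorm : ‖uParam M₀ (φ τ)‖ = ‖uParam M τ‖ ^ k := by
    rw [hφ τ, norm_mul, hz, one_mul, norm_pow]
  constructor
  · rw [← hinj.summable_iff]
    · refine hS.congr fun n => ?_
      simp only [Function.comp_apply, iota_apply]
      rw [coeff_d3SubstPS_mul z k hk, norm_mul, norm_pow, hz, one_pow, one_mul,
        hnorm, pow_mul]
    · intro m hm
      rw [coeff_d3SubstPS_of_not_dvd z k P (hrange m hm), map_zero, norm_zero, zero_mul]
  · rw [← hinj.hasSum_iff]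
    · have e2 : ((fun m => iota (PowerSeries.coeff m (d3SubstPS z k P)) * uParam M τ ^ m) ∘
            fun n : ℕ => k * n)
          = fun n => iota (PowerSeries.coeff n P) * uParam M₀ (φ τ) ^ n := by
        funext n
        simp only [Function.comp_apply, iota_apply]
        rw [coeff_d3SubstPS_mul z k hk, hφ τ, mul_pow, pow_mul]
        ring
      rw [e2]
      exact hH
    · intro m hm
      rw [coeff_d3SubstPS_of_not_dvd z k P (hrange m hm), map_zero, zero_mul]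

/-- `u_m((aτ + b)/e) = ζ · u_{m a e}(τ)^(a a)`, `ζ = e(b/(e m))`. -/
theorem d3_uParam_aff_mul (m a e : ℕ) (b : ℤ) (ha : 0 < a) (he : 0 < e) (hm : 0 < m) (τ : ℍ) :
    uParam m (aff a e b ha he τ)
      = Complex.exp (2 * Real.pi * Complex.I * (b : ℂ) / ((e : ℂ) * (m : ℂ)))
        * uParam (m * (a * e)) τ ^ (a * a) := by
  have he' : (e : ℂ) ≠ 0 := by exact_mod_cast he.ne'
  have hm' : (m : ℂ) ≠ 0 := by exact_mod_cast hm.ne'
  have ha' : (a : ℂ) ≠ 0 := by exact_mod_cast ha.ne'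
  unfold uParam Function.Periodic.qParam
  rw [← Complex.exp_nat_mul, ← Complex.exp_add]
  congr 1
  rw [coe_aff]
  push_cast
  field_simp
  ring

theorem d3_norm_exp (b : ℤ) (e m : ℕ) :
    ‖Complex.exp (2 * Real.pi * Complex.I * (b : ℂ) / ((e : ℂ) * (m : ℂ)))‖ = 1 := by
  have : 2 * Real.pi * Complex.I * (b : ℂ) / ((e : ℂ) * (m : ℂ))
      = ((2 * Real.pi * (b : ℝ) / ((e : ℝ) * (m : ℝ)) : ℝ) : ℂ) * Complex.I := by
    push_cast
    ring
  rw [this, Complex.norm_exp_ofReal_mul_I]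

/-! ### the Laurent series -/

/-- `(scaleL z (u^{-m} p))(u^k) = u^{-k m} (z^{-m} ∑ pₙ zⁿ u^{k n})`. -/
theorem d3_qExpand_scaleL (z : ℂˣ) (k m : ℕ) [NeZero k] (p : PowerSeries ℂ) :
    qExpand ℂ k (scaleL z
        (HahnSeries.single (-(m : ℤ)) (1 : ℂ) * HahnSeries.ofPowerSeries ℤ ℂ p))
      = HahnSeries.single (-((k * m : ℕ) : ℤ)) (1 : ℂ) *
          HahnSeries.ofPowerSeries ℤ ℂ
            (PowerSeries.C (((z : ℂ)⁻¹) ^ m) * d3SubstPS (z : ℂ) k p) := by
  have hk0 : 0 < k := Nat.pos_of_ne_zero (NeZero.ne k)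
  have hkz : (0 : ℤ) < (k : ℤ) := by exact_mod_cast hk0
  have hz0 : (z : ℂ) ≠ 0 := z.ne_zero
  ext n
  rw [HahnSeries.coeff_single_mul, one_mul]
  by_cases hn : (k : ℤ) ∣ n
  · obtain ⟨j, rfl⟩ := hn
    rw [qExpand_coeff_mul, scaleL_coeff, HahnSeries.coeff_single_mul, one_mul]
    have e1 : (k : ℤ) * j - -((k * m : ℕ) : ℤ) = (k : ℤ) * (j - -(m : ℤ)) := by
      push_cast
      ring
    rw [e1]
    by_cases hj : j - -(m : ℤ) < 0
    · rw [ModularCurve.ofPowerSeries_coeff_of_neg _ hj,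
        ModularCurve.ofPowerSeries_coeff_of_neg _ (by nlinarith), mul_zero]
    · rw [not_lt] at hj
      obtain ⟨i, hi⟩ := Int.eq_ofNat_of_zero_le hj
      rw [hi]
      have e2 : (k : ℤ) * ((i : ℕ) : ℤ) = ((k * i : ℕ) : ℤ) := by push_cast; ring
      rw [e2, HahnSeries.ofPowerSeries_apply_coeff, HahnSeries.ofPowerSeries_apply_coeff,
        PowerSeries.coeff_C_mul, coeff_d3SubstPS_mul _ k hk0]
      have hj' : j = (i : ℤ) - (m : ℤ) := by omega
      rw [hj', Units.val_zpow_eq_zpow_val, zpow_sub₀ hz0, zpow_natCast, zpow_natCast, inv_pow,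
        div_eq_mul_inv]
      ring
  · rw [qExpand_coeff_of_not_dvd k _ hn]
    by_cases hj : n - -((k * m : ℕ) : ℤ) < 0
    · rw [ModularCurve.ofPowerSeries_coeff_of_neg _ hj]
    · rw [not_lt] at hj
      obtain ⟨i, hi⟩ := Int.eq_ofNat_of_zero_le hj
      rw [hi, HahnSeries.ofPowerSeries_apply_coeff, PowerSeries.coeff_C_mul,
        coeff_d3SubstPS_of_not_dvd, mul_zero]
      intro hki
      apply hn
      have h1 : (k : ℤ) ∣ ((i : ℕ) : ℤ) := by exact_mod_cast hki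
      have h2 : n = (i : ℤ) - ((k * m : ℕ) : ℤ) := by omega
      rw [h2]
      refine dvd_sub h1 ?_
      push_cast
      exact dvd_mul_right _ _

/-! ### the seat -/

/-- **expansion of `f ∘ ((a τ + b)/e)`.** -/
theorem hasExp_affFun {M : ℕ} [NeZero M] {f : Fun} {s : LaurentSeries ℂ} (hf : HasExp M f s)
    (a e : ℕ) (b : ℤ) (ha : 0 < a) (he : 0 < e) (M' : ℕ) [NeZero M'] (hM' : M' = M * (a * e))
    [NeZero (a * a)] (z : ℂˣ)
    (hz : (z : ℂ) = Complex.exp (2 * Real.pi * Complex.I * (b : ℂ) / ((e : ℂ) * (M : ℂ)))) :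
    HasExp M' (affFun a e b ha he f) (qExpand ℂ (a * a) (scaleL z s)) := by
  subst hM'
  obtain ⟨m, p, rfl, hp⟩ := hf
  have hM0 : 0 < M := Nat.pos_of_ne_zero (NeZero.ne M)
  have hz1 : ‖(z : ℂ)‖ = 1 := by
    rw [hz]
    exact d3_norm_exp b e M
  have hz0 : (z : ℂ) ≠ 0 := z.ne_zero
  have hφ : ∀ τ, uParam M (aff a e b ha he τ) = (z : ℂ) * uParam (M * (a * e)) τ ^ (a * a) := by
    intro τ
    rw [d3_uParam_aff_mul M a e b ha he hM0, hz]
  have h1 := hasPExp_d3SubstPS hp (aff a e b ha he) (z : ℂ) hz1 (a * a) (Nat.mul_pos ha ha) hφ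
  have h2 := (HasPExp.const (M * (a * e)) (((z : ℂ)⁻¹) ^ m)).mul h1
  refine ⟨a * a * m, _, d3_qExpand_scaleL z (a * a) m p, HasExp.pexp_congr h2 fun τ => ?_⟩
  show f (aff a e b ha he τ) * uParam (M * (a * e)) τ ^ (a * a * m)
    = iota (((z : ℂ)⁻¹) ^ m) *
        (f (aff a e b ha he τ) * uParam M (aff a e b ha he τ) ^ m)
  rw [hφ τ, mul_pow, iota_apply, pow_mul]
  have hinv : ((z : ℂ)⁻¹) ^ m * (z : ℂ) ^ m = 1 := by
    rw [← mul_pow, inv_mul_cancel₀ hz0, one_pow]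
  linear_combination
    (-(f (aff a e b ha he τ) * (uParam (M * (a * e)) τ ^ (a * a)) ^ m)) * hinv

theorem d3_qExpand_eq_self (k : ℕ) [NeZero k] (hk : k = 1) (x : LaurentSeries ℂ) :
    qExpand ℂ k x = x := by
  subst hk
  exact qExpand_one_apply x

theorem d3_scale_eq_aff (p : ℕ) [NeZero p] (τ : ℍ) :
    scale p τ = aff p 1 0 (Nat.pos_of_ne_zero (NeZero.ne p)) one_pos τ := by
  apply UpperHalfPlane.ext
  rw [coe_scale, coe_aff]
  simp

/-- **expansion of `f ∘ (p τ)`.** -/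
theorem hasExp_pScaleFun {M : ℕ} [NeZero M] {f : Fun} {s : LaurentSeries ℂ} (hf : HasExp M f s)
    (p : ℕ) [NeZero p] [NeZero (M * p)] [NeZero (p * p)] :
    HasExp (M * p) (pScaleFun p f) (qExpand ℂ (p * p) s) := by
  have h := hasExp_affFun hf p 1 0 (Nat.pos_of_ne_zero (NeZero.ne p)) one_pos (M * p)
    (by rw [mul_one]) 1 (by simp)
  rw [Fermat.Agent.Kronecker.scaleL_one] at h
  have e : pScaleFun p f = affFun p 1 0 (Nat.pos_of_ne_zero (NeZero.ne p)) one_pos f := by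
    funext τ
    show f (scale p τ) = f (aff p 1 0 _ _ τ)
    rw [d3_scale_eq_aff]
  rw [e]
  exact h

/-- **expansion of `f ∘ ((τ + b)/p)`.** -/
theorem hasExp_affFun_one {M : ℕ} [NeZero M] {f : Fun} {s : LaurentSeries ℂ} (hf : HasExp M f s)
    (p : ℕ) [NeZero p] [NeZero (M * p)] (b : ℤ) (z : ℂˣ)
    (hz : (z : ℂ) = Complex.exp (2 * Real.pi * Complex.I * (b : ℂ) / ((p : ℂ) * (M : ℂ)))) :
    HasExp (M * p) (affFun 1 p b one_pos (Nat.pos_of_ne_zero (NeZero.ne p)) f) (scaleL z s) := by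
  have : NeZero (1 * 1) := ⟨by norm_num⟩
  have h := hasExp_affFun hf 1 p b one_pos (Nat.pos_of_ne_zero (NeZero.ne p)) (M * p)
    (by rw [one_mul]) z hz
  rwa [d3_qExpand_eq_self (1 * 1) (by norm_num)] at h

end Fermat.Agent.S48WA2
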