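/-
S48 wall (W), block A2, seat A2-D3, sub-seat D3-SCALE (helper53): the map `f ↦ f(p τ)` on the
ambient field, `LH M → LH (M * p)`.

* `IsAH.pScaleFun` : a function of level `M` composed with `τ ↦ p τ` is of level `M * p`
  (Hermite normal form for the translates);
* `lhScale M p : LH M →ₐ[ℂ] LH (M * p)`, `lhScale_ofFun`, `expLH_lhScale` (`u_M(pτ) = u_{Mp}^{p²}`);
* `smul_lhScale_of_conj`, `expLH_smul_lhScale_of_aff` : the translates of `x(p τ)`.

Port of helper24's `S48/W/G/Kron/Scale.lean` (`IsAHb.comp_scale`) to `ℂ`.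
-/
import Mathlib
import Fermat.Agent.S48.W.A.Dict.D3Defs
import Fermat.Agent.S48.W.A.Dict.D3Subst
import Fermat.Agent.Lib.Kronecker.Formal

set_option autoImplicit false

noncomputable section

namespace Fermat.Agent.S48WA2

open UpperHalfPlane CongruenceSubgroup ModularCurve AlgebraicCurve Fermat.Agent.F3Dict
  Fermat.Agent.F3Dict.GensExp
open Fermat.Agent.Kronecker (scaleL scaleL_coeff)
open scoped MatrixGroups ModularForm Manifold

/-! ### conjugation by `diag(d, 1)` -/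

/-- the conjugate `diag(d,1) g diag(d,1)⁻¹` of `g = [α β; d c' δ]`. -/
def d3ScaleConj (d : ℕ) (g : SL(2, ℤ)) (c' : ℤ) (hc : g 1 0 = d * c') : SL(2, ℤ) :=
  ⟨!![g 0 0, d * g 0 1; c', g 1 1], by
    rw [Matrix.det_fin_two_of]
    have := sl2_det g
    rw [hc] at this
    linear_combination this⟩

theorem d3_scale_smul_eq (d : ℕ) [NeZero d] (g : SL(2, ℤ)) (c' : ℤ) (hc : g 1 0 = d * c')
    (τ : ℍ) : scale d (g • τ) = d3ScaleConj d g c' hc • scale d τ := by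
  apply UpperHalfPlane.ext
  have hd : (d : ℂ) ≠ 0 := by exact_mod_cast NeZero.ne d
  have h1 := sl2_denom_ne_zero g τ
  have h2 := sl2_denom_ne_zero (d3ScaleConj d g c' hc) (scale d τ)
  rw [coe_scale, coe_sl2_smul, coe_sl2_smul, coe_scale]
  have e00 : (d3ScaleConj d g c' hc) 0 0 = g 0 0 := rfl
  have e01 : (d3ScaleConj d g c' hc) 0 1 = d * g 0 1 := rfl
  have e10 : (d3ScaleConj d g c' hc) 1 0 = c' := rfl
  have e11 : (d3ScaleConj d g c' hc) 1 1 = g 1 1 := rfl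
  rw [e10, e11, coe_scale] at h2
  rw [e00, e01, e10, e11]
  have hc' : ((g 1 0 : ℤ) : ℂ) = (d : ℂ) * (c' : ℂ) := by rw [hc]; push_cast; ring
  rw [hc'] at h1 ⊢
  have h3 : (c' : ℂ) * ((d : ℂ) * (τ : ℂ)) + ((g 1 1 : ℤ) : ℂ)
      = (d : ℂ) * (c' : ℂ) * (τ : ℂ) + ((g 1 1 : ℤ) : ℂ) := by ring
  rw [h3] at h2 ⊢
  push_cast
  field_simp

theorem d3ScaleConj_mem_Gamma {m d : ℕ} [NeZero d] {g : SL(2, ℤ)}
    (hg : g ∈ CongruenceSubgroup.Gamma (m * d)) (c' : ℤ) (hc : g 1 0 = d * c') :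
    d3ScaleConj d g c' hc ∈ CongruenceSubgroup.Gamma m := by
  rw [CongruenceSubgroup.Gamma_mem] at hg ⊢
  obtain ⟨h1, h2, h3, h4⟩ := hg
  have hdvd : ∀ x : ℤ, ((x : ℤ) : ZMod (m * d)) = 0 → ((m * d : ℕ) : ℤ) ∣ x := fun x hx =>
    (ZMod.intCast_zmod_eq_zero_iff_dvd x (m * d)).mp hx
  have hm : ∀ x : ℤ, ((m : ℕ) : ℤ) ∣ x → ((x : ℤ) : ZMod m) = 0 := fun x hx =>
    (ZMod.intCast_zmod_eq_zero_iff_dvd x m).mpr hx
  have e00 : (d3ScaleConj d g c' hc) 0 0 = g 0 0 := rfl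
  have e01 : (d3ScaleConj d g c' hc) 0 1 = d * g 0 1 := rfl
  have e10 : (d3ScaleConj d g c' hc) 1 0 = c' := rfl
  have e11 : (d3ScaleConj d g c' hc) 1 1 = g 1 1 := rfl
  have hd0 : (d : ℤ) ≠ 0 := by exact_mod_cast NeZero.ne d
  have k1 : ((m : ℕ) : ℤ) ∣ g 0 0 - 1 := by
    have : ((g 0 0 - 1 : ℤ) : ZMod (m * d)) = 0 := by push_cast; rw [h1]; ring
    exact (Dvd.intro _ (by push_cast; rfl)).trans (hdvd _ this)
  have k4 : ((m : ℕ) : ℤ) ∣ g 1 1 - 1 := by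
    have : ((g 1 1 - 1 : ℤ) : ZMod (m * d)) = 0 := by push_cast; rw [h4]; ring
    exact (Dvd.intro _ (by push_cast; rfl)).trans (hdvd _ this)
  have k2 : ((m : ℕ) : ℤ) ∣ d * g 0 1 := by
    have := hdvd _ h2
    exact Dvd.dvd.mul_left ((Dvd.intro _ (by push_cast; rfl)).trans this) _
  have k3 : ((m : ℕ) : ℤ) ∣ c' := by
    have := hdvd _ h3
    rw [hc] at this
    push_cast at this
    rw [mul_comm (m : ℤ) (d : ℤ)] at this
    exact (mul_dvd_mul_iff_left hd0).mp this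
  rw [e00, e01, e10, e11]
  refine ⟨?_, hm _ k2, hm _ k3, ?_⟩
  · have := hm _ k1
    push_cast at this
    exact sub_eq_zero.mp this
  · have := hm _ k4
    push_cast at this
    exact sub_eq_zero.mp this

/-! ### `f ↦ f(p τ)` on functions -/

theorem pScaleFun_smul_of_hermite (p : ℕ) [NeZero p] (f : Fun) (γ γ' : SL(2, ℤ)) (a e : ℕ)
    (b : ℤ) (ha : 0 < a) (he : 0 < e)
    (hτ : ∀ τ : ℍ, scale p (γ⁻¹ • τ) = γ' • aff a e b ha he τ) :
    γ • pScaleFun p f = affFun a e b ha he (γ'⁻¹ • f) := by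
  funext τ
  show f (scale p (γ⁻¹ • τ)) = f ((γ'⁻¹)⁻¹ • aff a e b ha he τ)
  rw [hτ τ, inv_inv]

/-- **composition with `τ ↦ p τ`**: a function of level `M` becomes a function of level
`M * p`. -/
theorem IsAH.pScaleFun {M : ℕ} [NeZero M] (p : ℕ) [NeZero p] [NeZero (M * p)] {f : Fun}
    (hf : IsAH M f) : IsAH (M * p) (pScaleFun p f) := by
  refine ⟨?_, fun γ hγ => ?_, fun γ => ?_⟩
  · exact (MDifferentiable.comp hf.1 (mdifferentiable_scale p) :
      MDifferentiable 𝓘(ℂ) 𝓘(ℂ) ((f : ℍ → ℂ) ∘ scale p))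
  · -- invariance under `Γ(M p)`
    have hγ' : γ⁻¹ ∈ CongruenceSubgroup.Gamma (M * p) := inv_mem hγ
    have h3 : (((γ⁻¹ : SL(2, ℤ)) 1 0 : ℤ) : ZMod (M * p)) = 0 :=
      ((CongruenceSubgroup.Gamma_mem).mp hγ').2.2.1
    have h4 : ((M * p : ℕ) : ℤ) ∣ (γ⁻¹ : SL(2, ℤ)) 1 0 :=
      (ZMod.intCast_zmod_eq_zero_iff_dvd _ (M * p)).mp h3
    obtain ⟨c', hc'⟩ : ((p : ℕ) : ℤ) ∣ (γ⁻¹ : SL(2, ℤ)) 1 0 :=
      (Dvd.intro_left _ (by push_cast; rfl)).trans h4
    ext τ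
    show f (scale p (γ⁻¹ • τ)) = f (scale p τ)
    rw [d3_scale_smul_eq p γ⁻¹ c' hc']
    have h5 := d3ScaleConj_mem_Gamma hγ' c' hc'
    have h6 := hf.2.1 _ (inv_mem h5)
    have h7 := congrFun h6 (scale p τ)
    rw [Fun.sl_smul_apply, inv_inv] at h7
    exact h7
  · -- expansions of the translates
    obtain ⟨γ', a, e, b, ha, he, hae, hτ⟩ := exists_hermite p γ⁻¹
    obtain ⟨A, hA⟩ := hf.2.2 γ'⁻¹
    have : NeZero (a * a) := ⟨(Nat.mul_pos ha ha).ne'⟩
    have hz0 : Complex.exp (2 * Real.pi * Complex.I * (b : ℂ) / ((e : ℂ) * (M : ℂ))) ≠ 0 :=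
      Complex.exp_ne_zero _
    have h := hasExp_affFun hA a e b ha he (M * p) (by rw [hae]) (Units.mk0 _ hz0) rfl
    rw [pScaleFun_smul_of_hermite p f γ γ' a e b ha he hτ]
    exact ⟨_, h⟩

/-- `f ↦ f(p τ)`, `AH M → AH (M p)`. -/
def ahScale (M p : ℕ) [NeZero M] [NeZero p] [NeZero (M * p)] : AH M →ₐ[ℂ] AH (M * p) where
  toFun f := ⟨pScaleFun p (f : Fun), IsAH.pScaleFun p f.2⟩
  map_one' := rfl
  map_mul' _ _ := rfl
  map_zero' := rfl
  map_add' _ _ := rfl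
  commutes' _ := rfl

@[simp] theorem coe_ahScale (M p : ℕ) [NeZero M] [NeZero p] [NeZero (M * p)] (f : AH M) :
    ((ahScale M p f : AH (M * p)) : Fun) = pScaleFun p (f : Fun) := rfl

theorem ahScale_injective (M p : ℕ) [NeZero M] [NeZero p] [NeZero (M * p)] :
    Function.Injective (ahScale M p) := by
  intro f g h
  apply Subtype.ext
  funext τ
  have h1 : pScaleFun p (f : Fun) = pScaleFun p (g : Fun) := congrArg Subtype.val h
  have h2 := congrFun h1 (Periods.unscale p τ)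
  rw [pScaleFun_apply, pScaleFun_apply, Periods.scale_unscale] at h2
  exact h2

/-- `AH M → AH (M p) → LH (M p)`. -/
def ahScaleLH (M p : ℕ) [NeZero M] [NeZero p] [NeZero (M * p)] : AH M →ₐ[ℂ] LH (M * p) :=
  (IsScalarTower.toAlgHom ℂ (AH (M * p)) (LH (M * p))).comp (ahScale M p)

theorem ahScaleLH_apply (M p : ℕ) [NeZero M] [NeZero p] [NeZero (M * p)] (f : AH M) :
    ahScaleLH M p f = algebraMap (AH (M * p)) (LH (M * p)) (ahScale M p f) := rfl

theorem ahScaleLH_injective (M p : ℕ) [NeZero M] [NeZero p] [NeZero (M * p)] :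
    Function.Injective (ahScaleLH M p) :=
  (IsFractionRing.injective (AH (M * p)) (LH (M * p))).comp (ahScale_injective M p)

/-! ### `x ↦ x(p τ)` on the field -/

/-- `f ↦ f(p τ)`, `LH M → LH (M p)`. -/
def lhScale (M p : ℕ) [NeZero M] [NeZero p] [NeZero (M * p)] : LH M →ₐ[ℂ] LH (M * p) :=
  IsFractionRing.liftAlgHom (ahScaleLH_injective M p)

theorem lhScale_algebraMap (M p : ℕ) [NeZero M] [NeZero p] [NeZero (M * p)] (f : AH M) :
    lhScale M p (algebraMap (AH M) (LH M) f) =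
      algebraMap (AH (M * p)) (LH (M * p)) (ahScale M p f) := by
  unfold lhScale
  rw [IsFractionRing.liftAlgHom_apply]
  exact IsFractionRing.lift_algebraMap _ _

theorem lhScale_injective (M p : ℕ) [NeZero M] [NeZero p] [NeZero (M * p)] :
    Function.Injective (lhScale M p) :=
  (lhScale M p).toRingHom.injective

theorem lhScale_ofFun (M p : ℕ) [NeZero M] [NeZero p] [NeZero (M * p)] (f : Fun)
    (hf : IsAH M f) : lhScale M p (LH.ofFun f hf) = LH.ofFun (pScaleFun p f) (hf.pScaleFun p) := by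
  unfold LH.ofFun
  rw [lhScale_algebraMap]
  rfl

theorem expAH_ahScale (M p : ℕ) [NeZero M] [NeZero p] [NeZero (M * p)] [NeZero (p * p)]
    (f : AH M) : expAH (M * p) (ahScale M p f) = qExpand ℂ (p * p) (expAH M f) :=
  expAH_eq (hasExp_pScaleFun (hasExp_expAH f) p)

theorem expLH_lhScale (M p : ℕ) [NeZero M] [NeZero p] [NeZero (M * p)] [NeZero (p * p)]
    (x : LH M) : expLH (M * p) (lhScale M p x) = qExpand ℂ (p * p) (expLH M x) := by
  obtain ⟨a, b, -, rfl⟩ := IsFractionRing.div_surjective (A := AH M) x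
  rw [map_div₀, map_div₀, map_div₀, lhScale_algebraMap, lhScale_algebraMap, expLH_algebraMap,
    expLH_algebraMap, expLH_algebraMap, expLH_algebraMap, expAH_ahScale, expAH_ahScale]
  exact (map_div₀ (qExpand ℂ (p * p)) _ _).symm

/-! ### the translates of `x(p τ)` -/

theorem smul_ahScale_of_conj (M p : ℕ) [NeZero M] [NeZero p] [NeZero (M * p)] {g k : SL(2, ℤ)}
    (h : ∀ τ : ℍ, scale p (g⁻¹ • τ) = k⁻¹ • scale p τ) (f : AH M) :
    g • ahScale M p f = ahScale M p (k • f) := by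
  apply Subtype.ext
  funext τ
  show (f : Fun) (scale p (g⁻¹ • τ)) = (f : Fun) (k⁻¹ • scale p τ)
  rw [h τ]

/-- conjugation: if `p (g⁻¹ τ) = k⁻¹ (p τ)` then `g • x(p τ) = (k • x)(p τ)`. -/
theorem smul_lhScale_of_conj (M p : ℕ) [NeZero M] [NeZero p] [NeZero (M * p)] {g k : SL(2, ℤ)}
    (h : ∀ τ : ℍ, scale p (g⁻¹ • τ) = k⁻¹ • scale p τ) (x : LH M) :
    g • lhScale M p x = lhScale M p (k • x) := by
  obtain ⟨a, b, -, rfl⟩ := IsFractionRing.div_surjective (A := AH M) x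
  rw [smul_div₀', LH.smul_algebraMap, LH.smul_algebraMap, map_div₀, map_div₀, smul_div₀',
    lhScale_algebraMap, lhScale_algebraMap, lhScale_algebraMap, lhScale_algebraMap,
    LH.smul_algebraMap, LH.smul_algebraMap, smul_ahScale_of_conj M p h,
    smul_ahScale_of_conj M p h]

theorem expAH_smul_ahScale_of_aff (M p : ℕ) [NeZero M] [NeZero p] [NeZero (M * p)]
    {g h : SL(2, ℤ)} (b : ℤ)
    (hgh : ∀ τ : ℍ, scale p (g⁻¹ • τ) =
      h • aff 1 p b one_pos (Nat.pos_of_ne_zero (NeZero.ne p)) τ)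
    (z : ℂˣ)
    (hz : (z : ℂ) = Complex.exp (2 * Real.pi * Complex.I * (b : ℂ) / ((p : ℂ) * (M : ℂ))))
    (f : AH M) :
    expAH (M * p) (g • ahScale M p f) = scaleL z (expAH M (h⁻¹ • f)) := by
  have h1 := hasExp_affFun_one (hasExp_expAH (h⁻¹ • f)) p b z hz
  have e : ((g • ahScale M p f : AH (M * p)) : Fun)
      = affFun 1 p b one_pos (Nat.pos_of_ne_zero (NeZero.ne p)) ((h⁻¹ • f : AH M) : Fun) := by
    funext τ
    show (f : Fun) (scale p (g⁻¹ • τ)) = (f : Fun) ((h⁻¹)⁻¹ • aff 1 p b _ _ τ)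
    rw [hgh τ, inv_inv]
  refine expAH_eq ?_
  rw [e]
  exact h1

/-- the conjugates: if `p (g⁻¹ τ) = h ((τ + b) / p)` then the expansion of `g • x(p τ)` is
`(h⁻¹ • x)(ζ^b u)`, `ζ = exp(2πi/(pM))`. -/
theorem expLH_smul_lhScale_of_aff (M p : ℕ) [NeZero M] [NeZero p] [NeZero (M * p)]
    {g h : SL(2, ℤ)} (b : ℤ)
    (hgh : ∀ τ : ℍ, scale p (g⁻¹ • τ) =
      h • aff 1 p b one_pos (Nat.pos_of_ne_zero (NeZero.ne p)) τ)
    (z : ℂˣ)
    (hz : (z : ℂ) = Complex.exp (2 * Real.pi * Complex.I * (b : ℂ) / ((p : ℂ) * (M : ℂ))))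
    (x : LH M) :
    expLH (M * p) (g • lhScale M p x) = scaleL z (expLH M (h⁻¹ • x)) := by
  obtain ⟨a, c, -, rfl⟩ := IsFractionRing.div_surjective (A := AH M) x
  rw [map_div₀, smul_div₀', map_div₀, smul_div₀', map_div₀, map_div₀,
    lhScale_algebraMap, lhScale_algebraMap, LH.smul_algebraMap, LH.smul_algebraMap,
    LH.smul_algebraMap, LH.smul_algebraMap, expLH_algebraMap, expLH_algebraMap,
    expLH_algebraMap, expLH_algebraMap, expAH_smul_ahScale_of_aff M p b hgh z hz,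
    expAH_smul_ahScale_of_aff M p b hgh z hz]

end Fermat.Agent.S48WA2
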