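/-
S48 wall (W), block A2 (sub-architect helper36), seat A2-D3 (helper78), part D3-NORM:
the TWISTED NORM PRODUCT FORMULA over `ℂ` at level `Γ₁(M)`,
  `(T_p y)(q^p) = y(q^{p²}) · ∏_{b<p} (⟨p⟩ y)(ζ^b q)`,   `T_p y = Norm_{F(Γ₁(M) ∩ Γ₀(p)) / F₁(M)} (y(q^p))`,
from helper37's abstract `normProduct_abstract` (K4) applied with `K = ℂ`, `L = LH (M p)`.
-/
import Mathlib
import Fermat.Agent.S48.W.A.Dict.Seats
import Fermat.Agent.S48.W.A.Dict.Emb
import Fermat.Agent.S48.W.A.Dict.StabFinal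
import Fermat.Agent.S48.W.A.Dict.D3Gen
import Fermat.Agent.S48.W.A.Dict.D3Defs
import Fermat.Agent.S48.W.A.Dict.D3Subst
import Fermat.Agent.S48.W.A.Dict.D3Incl
import Fermat.Agent.S48.W.A.Dict.D3Grp
import Fermat.Agent.S48.W.A.Dict.D3Scale
import Fermat.Agent.Lib.Kronecker.Formal
import Fermat.Agent.F3.DictC.GensExp
import Fermat.Agent.S48.W.G.Kron.AlgAbs
import Fermat.Agent.S48.W.A.Dict.AmbInv
import Fermat.Agent.F3.I2.Dict3Glue

set_option autoImplicit false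

noncomputable section

namespace Fermat.Agent.S48WA2

open UpperHalfPlane CongruenceSubgroup ModularCurve AlgebraicCurve Fermat.Agent.F3Dict
open Fermat.Agent.F3Dict.GensExp
open Fermat.Agent.S48W Fermat.Agent.F3I2
open Fermat.Agent.Kronecker (scaleL scaleL_coeff)
open scoped MatrixGroups ModularForm

/-- The **twisted norm product formula** over `ℂ` at level `Γ₁(M)` (formal `q`-expansion form):
`(T_p y)(q^p) = y(q^{p²}) · ∏_{b<p} (δ y)(ζ^b q)` for every diamond automorphism `δ = ⟨p⟩`. -/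
def NormProductFormulaOneC (M p : ℕ) [NeZero M] [NeZero p] : Prop :=
  ∀ d : (ZMod M)ˣ, (d : ZMod M) = (p : ZMod M) →
  ∀ δ : FC1 M ≃ₐ[ℂ] FC1 M, IsDiamondC M d δ →
  ∀ y : FC1 M,
    qExpand ℂ p ((heckeFunOne ℂ M p y : FC1 M) : LaurentSeries ℂ) =
      qExpand ℂ (p * p) (y : LaurentSeries ℂ) *
        ∏ b ∈ Finset.range p, scaleL (dict3Zeta p ^ b) ((δ y : FC1 M) : LaurentSeries ℂ)

/-! ### the diamond automorphism in the ambient field -/

/-- `φ (⟨d⟩ x) = γ⁻¹ • φ x` for `γ ∈ Γ₀(M)` with upper left entry `≡ d`. -/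
theorem d3_phi_diamond {M : ℕ} [NeZero M] (D : FrickeData M) {φ : FC1 M →ₐ[ℂ] LH M}
    (hφ : IsPhi M φ) {d : (ZMod M)ˣ} {δ : FC1 M ≃ₐ[ℂ] FC1 M} (hδ : IsDiamondC M d δ)
    {γ : SL(2, ℤ)} (hγ : γ ∈ Gamma0 M) (hγd : ((γ 0 0 : ℤ) : ZMod M) = (d : ZMod M))
    (x : FC1 M) : φ (δ x) = γ⁻¹ • φ x := by
  let Φ₁ : FC1 M →+* LH M := φ.toRingHom.comp δ.toAlgHom.toRingHom
  let Φ₂ : FC1 M →+* LH M :=
    (MulSemiringAction.toRingHom SL(2, ℤ) (LH M) γ⁻¹).comp φ.toRingHom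
  have key : Φ₁ = Φ₂ := by
    apply ringHom_ext_lbc (K := ℂ) (S := genOne M)
    · intro c
      show φ (δ (algebraMap ℂ (FC1 M) c)) = γ⁻¹ • φ (algebraMap ℂ (FC1 M) c)
      rw [AlgEquiv.commutes, AlgHom.commutes, smul_algebraMap]
    · rintro s (hs | ⟨a, ha, rfl⟩) h
      · obtain ⟨e, he, hed, rfl⟩ := hs
        show φ (δ ⟨_, h⟩) = γ⁻¹ • φ ⟨_, h⟩
        rw [hδ.1 _ (mem_divisorExpansions M hed) h]
        have h1 : (⟨coeffEmb ℂ (qExpand ℚ e jq), h⟩ : FC1 M) = jdBar1 M e hed := rfl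
        rw [h1, hφ.jdBar1 e hed, stab_smul_jdLH M e hed (inv_mem hγ)]
      · show φ (δ ⟨_, h⟩) = γ⁻¹ • φ ⟨_, h⟩
        have hda : (d : ZMod M) * a ≠ 0 := by
          intro h0
          apply ha
          have := congrArg (fun z => ((d⁻¹ : (ZMod M)ˣ) : ZMod M) * z) h0
          simpa using this
        have h2 : coeffEmb ℂ (fricke M ((d : ZMod M) * a)) ∈ FC1 M :=
          coeffEmb_mem_laurentBaseChange ℂ (fricke_mem M hda)
        rw [hδ.2 a ha h h2]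
        have h3 : (⟨coeffEmb ℂ (fricke M a), h⟩ : FC1 M) = frickeBar1 M a ha := rfl
        have h4 : (⟨coeffEmb ℂ (fricke M ((d : ZMod M) * a)), h2⟩ : FC1 M) =
            frickeBar1 M ((d : ZMod M) * a) hda := rfl
        rw [h3, h4, hφ.frickeBar1 D, hφ.frickeBar1 D]
        unfold FrickeData.frLH
        rw [LH.smul_ofFun]
        apply LH.ofFun_congr
        rw [D.smul γ hγ a ha, hγd]
  exact RingHom.congr_fun key x

/-! ### the embedding of `F(Γ₁(M) ∩ Γ₀(p))` in `LH (M p)` -/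

section Emb

variable (M p : ℕ) [NeZero M] [NeZero p] [NeZero (M * p)] [NeZero (p * p)]

/-- the embedding `F₁(M) → LH (M p)`. -/
def d3Phi (D : FrickeData M) : FC1 M →ₐ[ℂ] LH (M * p) := (lhIncl M p).comp (embHom1 D)

theorem expLH_d3Phi (D : FrickeData M) (x : FC1 M) :
    expLH (M * p) (d3Phi M p D x) = qExpand ℂ (M * p) (x : LaurentSeries ℂ) := by
  show expLH (M * p) (lhIncl M p (embHom1 D x)) = _
  rw [expLH_lhIncl, expLH_embHom1, qExpand_qExpand]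
  exact qExpand_congr (mul_comm p M) _

theorem expLH_lhScale_embHom1 (D : FrickeData M) (x : FC1 M) :
    expLH (M * p) (lhScale M p (embHom1 D x)) =
      qExpand ℂ (M * p) (qExpand ℂ p (x : LaurentSeries ℂ)) := by
  rw [expLH_lhScale, expLH_embHom1, qExpand_qExpand, qExpand_qExpand]
  exact qExpand_congr (by ring) _

/-- the embedding `F(Γ₁(M) ∩ Γ₀(p)) → LH (M p)`, inverse of the expansion at `∞`. -/
theorem d3_exists_phiP (D : FrickeData M) :
    ∃ φ' : FC1P M p →ₐ[ℂ] LH (M * p),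
      ∀ x, expLH (M * p) (φ' x) = qExpand ℂ (M * p) (x : LaurentSeries ℂ) := by
  refine exists_algHom_lbc (K := ℂ)
    (S := (FOne M : Set (LaurentSeries ℚ)) ∪ (qExpand ℚ p '' (FOne M))) (expLH (M * p))
    (expLH_injective (M * p)) (M * p) ?_
  rintro s (hs | ⟨s₀, hs₀, rfl⟩)
  · exact ⟨d3Phi M p D ⟨coeffEmb ℂ s, coeffEmb_mem_laurentBaseChange ℂ hs⟩, expLH_d3Phi M p D _⟩
  · refine ⟨lhScale M p (embHom1 D ⟨coeffEmb ℂ s₀, coeffEmb_mem_laurentBaseChange ℂ hs₀⟩), ?_⟩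
    rw [expLH_lhScale_embHom1, coeffEmb_qExpand_w]

theorem lhIncl_jLH : lhIncl M p (jLH M) = jLH (M * p) := by
  apply expLH_injective (M * p)
  rw [expLH_lhIncl, expLH_jLH, expLH_jLH, qExpand_qExpand]
  exact qExpand_congr (mul_comm p M) _

theorem d3Phi_jBar1 (D : FrickeData M) : d3Phi M p D (jBar1 M) = jLH (M * p) := by
  show lhIncl M p (embHom1 D (jBar1 M)) = _
  rw [(isPhi_embHom1 D).jBar1, lhIncl_jLH]

/-- `Γ₁(M)` fixes the image of `F₁(M)`. -/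
theorem smul_d3Phi (hM : 3 ≤ M) (D : FrickeData M) {g : SL(2, ℤ)} (hg : g ∈ Gamma1pm M)
    (x : FC1 M) : g • d3Phi M p D x = d3Phi M p D x := by
  show g • lhIncl M p (embHom1 D x) = lhIncl M p (embHom1 D x)
  rw [← lhIncl_smul, (IsPhi.mem_Gamma1pm_iff hM D (isPhi_embHom1 D) g).mp hg x]

/-- the stabiliser of the image of `F₁(M)` is `± Γ₁(M)`. -/
theorem mem_Gamma1pm_of_smul_d3Phi (hM : 3 ≤ M) (D : FrickeData M) {g : SL(2, ℤ)}
    (hg : ∀ x : FC1 M, g • d3Phi M p D x = d3Phi M p D x) : g ∈ Gamma1pm M := by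
  refine (IsPhi.mem_Gamma1pm_iff hM D (isPhi_embHom1 D) g).mpr fun x => ?_
  apply (lhIncl M p).toRingHom.injective
  show lhIncl M p (g • embHom1 D x) = lhIncl M p (embHom1 D x)
  rw [lhIncl_smul]
  exact hg x

/-- `Γ₁(M) ∩ Γ₀(p)` fixes the image of `F(Γ₁(M) ∩ Γ₀(p))`. -/
theorem smul_phiP_of_mem (hM : 3 ≤ M) (hpM : Nat.Coprime p M) (D : FrickeData M)
    {φ' : FC1P M p →ₐ[ℂ] LH (M * p)}
    (hφ' : ∀ x, expLH (M * p) (φ' x) = qExpand ℂ (M * p) (x : LaurentSeries ℂ))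
    {g : SL(2, ℤ)} (hg1 : g ∈ Gamma1 M) (hgp : g ∈ Gamma0 p) (x' : FC1P M p) :
    g • φ' x' = φ' x' := by
  let Φ₁ : FC1P M p →+* LH (M * p) :=
    (MulSemiringAction.toRingHom SL(2, ℤ) (LH (M * p)) g).comp φ'.toRingHom
  let Φ₂ : FC1P M p →+* LH (M * p) := φ'.toRingHom
  have key : Φ₁ = Φ₂ := by
    apply ringHom_ext_lbc (K := ℂ)
      (S := (FOne M : Set (LaurentSeries ℚ)) ∪ (qExpand ℚ p '' (FOne M)))
    · intro c
      show g • φ' (algebraMap ℂ (FC1P M p) c) = φ' (algebraMap ℂ (FC1P M p) c)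
      rw [AlgHom.commutes, smul_algebraMap]
    · rintro s (hs | ⟨s₀, hs₀, rfl⟩) h
      · show g • φ' ⟨_, h⟩ = φ' ⟨_, h⟩
        have e : φ' ⟨coeffEmb ℂ s, h⟩ =
            d3Phi M p D ⟨coeffEmb ℂ s, coeffEmb_mem_laurentBaseChange ℂ hs⟩ := by
          apply expLH_injective (M * p)
          rw [hφ', expLH_d3Phi]
        rw [e]
        exact smul_d3Phi M p hM D (Gamma1_le_Gamma1pm M hg1) _
      · show g • φ' ⟨_, h⟩ = φ' ⟨_, h⟩
        have e : φ' ⟨coeffEmb ℂ (qExpand ℚ p s₀), h⟩ =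
            lhScale M p (embHom1 D ⟨coeffEmb ℂ s₀, coeffEmb_mem_laurentBaseChange ℂ hs₀⟩) := by
          apply expLH_injective (M * p)
          rw [hφ', expLH_lhScale_embHom1]
          show qExpand ℂ (M * p) (coeffEmb ℂ (qExpand ℚ p s₀)) =
            qExpand ℂ (M * p) (qExpand ℂ p (coeffEmb ℂ s₀))
          rw [coeffEmb_qExpand_w]
        obtain ⟨k, hk, hconj⟩ := d3_conj_scale M p hpM hg1 hgp
        rw [e, smul_lhScale_of_conj M p hconj,
          (IsPhi.mem_Gamma1pm_iff hM D (isPhi_embHom1 D) k).mp (Gamma1_le_Gamma1pm M hk)]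
  exact RingHom.congr_fun key x'

end Emb

/-! ### the twisted norm product formula -/

theorem d3_isPrimitiveRoot_zeta (p : ℕ) [NeZero p] : IsPrimitiveRoot (dict3Zeta p) p := by
  rw [← IsPrimitiveRoot.coe_units_iff, dict3Zeta_coe]
  exact Complex.isPrimitiveRoot_exp p (NeZero.ne p)

/-- `exp(2πi b/(pM))` as a unit. -/
def d3Z (M p b : ℕ) : ℂˣ :=
  Units.mk0 (Complex.exp (2 * Real.pi * Complex.I * ((b : ℤ) : ℂ) / ((p : ℂ) * (M : ℂ))))
    (Complex.exp_ne_zero _)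

theorem d3Z_pow (M p b : ℕ) [NeZero M] [NeZero p] : d3Z M p b ^ M = dict3Zeta p ^ b := by
  apply Units.ext
  rw [Units.val_pow_eq_pow_val, Units.val_pow_eq_pow_val, dict3Zeta_coe]
  show Complex.exp _ ^ M = _
  rw [← Complex.exp_nat_mul, ← Complex.exp_nat_mul]
  congr 1
  have hM : (M : ℂ) ≠ 0 := by exact_mod_cast NeZero.ne M
  have hp : (p : ℂ) ≠ 0 := by exact_mod_cast NeZero.ne p
  push_cast
  field_simp

/-- **The twisted norm product formula over `ℂ`** at level `Γ₁(M)`, `M ≥ 3`, for a prime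
`p ∤ M`, from the analytic Fricke functions. -/
theorem normProductFormulaOneC_of (M p : ℕ) [NeZero M] [NeZero p] [NeZero (M * p)]
    [NeZero (p * p)] (hM : 3 ≤ M) (hp : p.Prime) (hpM : Nat.Coprime p M) (D : FrickeData M) :
    NormProductFormulaOneC M p := by
  intro d hd δ hδ
  obtain ⟨s, t, hst⟩ : ∃ s t : ℤ, (p : ℤ) * s - (M : ℤ) * t = 1 := by
    have h1 : IsCoprime (p : ℤ) (M : ℤ) := Nat.isCoprime_iff_coprime.mpr hpM
    obtain ⟨a, b, hab⟩ := h1
    exact ⟨a, -b, by linear_combination hab⟩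
  obtain ⟨φ', hφ'⟩ := d3_exists_phiP M p D
  have hφM := isPhi_embHom1 D
  -- the hypotheses of the abstract formula
  have hα : ∀ x, φ' (qSeriesAlpha ℂ (FOne_le_FOneP M p) x) = d3Phi M p D x := by
    intro x
    apply expLH_injective (M * p)
    rw [hφ', coe_qSeriesAlpha, expLH_d3Phi]
  have hβ : ∀ y, φ' (qSeriesBeta ℂ p (fun _ hy => qExpand_mem_FOneP M p hy) y) =
      lhScale M p (embHom1 D y) := by
    intro y
    apply expLH_injective (M * p)
    rw [hφ', coe_qSeriesBeta, expLH_lhScale_embHom1]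
  have hfix : ∀ {g : SL(2, ℤ)}, g ∈ Gamma1 M → g ∈ Gamma0 p → ∀ x', g • φ' x' = φ' x' :=
    fun hg1 hgp x' => smul_phiP_of_mem M p hM hpM D hφ' hg1 hgp x'
  have hneg : ∀ (g : SL(2, ℤ)) (y : LH (M * p)), (-g) • y = g • y :=
    fun g y => stab_neg_smul_LH (M * p) g y
  have hneg0 : ∀ {g : SL(2, ℤ)}, g ∈ Gamma0 p → -g ∈ Gamma0 p := by
    intro g hg
    rw [Gamma0_mem] at hg ⊢
    simpa using hg
  have hcov1 : ∀ g : SL(2, ℤ), g ∈ Gamma1 M →
      (∀ x', g • φ' x' = φ' x') ∨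
        ∃ b < p, ∀ x', g • φ' x' = d3Gam M p s t hst b • φ' x' := by
    intro g hg
    rcases d3_cover M p hp s t hst hg with hc | ⟨b, hb, hc⟩
    · exact Or.inl (hfix hg hc)
    · refine Or.inr ⟨b, hb, fun x' => ?_⟩
      have h1 := hfix (mul_mem (inv_mem (d3Gam_mem_Gamma1 M p s t hst b)) hg) hc x'
      rw [mul_smul, inv_smul_eq_iff] at h1
      exact h1
  have key := Fermat.Agent.S48WKron.normProduct_abstract (K := ℂ) (FOne_le_FOneP M p) p hp
    (fun _ hy => qExpand_mem_FOneP M p hy) δ (Γ := SL(2, ℤ)) (L := LH (M * p)) M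
    (d3Phi M p D) φ' hα (expLH (M * p) : LH (M * p) →+* LaurentSeries ℂ) hφ' (jBar1 M)
    (exists_finiteIndex_fixing_LH (M * p))
    (fun g => by rw [d3Phi_jBar1]; exact smul_jLH (M * p) g)
    (fun x hx => by rw [d3Phi_jBar1]; exact mem_adjoin_jLH_of_invariant (M * p) x hx)
    (d3Gam M p s t hst)
    (fun b x => smul_d3Phi M p hM D (Gamma1_le_Gamma1pm M (d3Gam_mem_Gamma1 M p s t hst b)) x)
    (fun g hg => by
      rcases mem_Gamma1pm_of_smul_d3Phi M p hM D hg with h1 | h1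
      · exact hcov1 g h1
      · rcases hcov1 (-g) h1 with h2 | ⟨b, hb, h2⟩
        · exact Or.inl fun x' => by rw [← hneg]; exact h2 x'
        · exact Or.inr ⟨b, hb, fun x' => by rw [← hneg]; exact h2 x'⟩)
    (dict3Zeta p) (d3_isPrimitiveRoot_zeta p)
    (fun b _ y => by
      rw [hβ]
      show expLH (M * p) (d3Gam M p s t hst b • lhScale M p (embHom1 D y)) = _
      rw [expLH_smul_lhScale_of_aff M p (b : ℤ) (scale_d3Gam_inv_smul M p s t hst b)
        (d3Z M p b) rfl,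
        ← d3_phi_diamond D hφM hδ (d3H0_mem_Gamma0 M p s t hst)
          (by rw [d3H0_zero_zero, hd]; simp) y,
        expLH_embHom1, Fermat.Agent.Kronecker.scaleL_qExpand, d3Z_pow])
    (jBar1 M)
    (hδ.1 jq ⟨1, inferInstance, one_dvd M, (qExpand_one_apply jq).symm⟩ _)
    (by
      show (coeffEmb ℂ jq).coeff (-1) ≠ 0
      rw [coeffEmb_coeff, coeff_jq_neg_one, map_one]
      exact one_ne_zero)
  exact key

end Fermat.Agent.S48WA2
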