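/-
S48 wall (W), block A2, seat A2-ELL (helper84): the RAMIFICATION of `j` on `X₁(M)` over `ℂ` at the
finite places.  For `4 ≤ M` the group `± Γ₁(M)` contains no elliptic element, hence

* every place of `FC1 M` above `j = 0` has `ord_v (j) = 3`,
* every place above `j = 1728` has `ord_v (j - 1728) = 2` (`3 ≤ M` suffices),
* every place above `j = c`, `c ≠ 0, 1728`, has `ord_v (j - c) = 1`.

Everything is deduced from the embedding `φ : FC1 M → LH M` with `φ j = j` (A2-EMB) and its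
stabiliser `± Γ₁(M)` (A2-STAB), through the abstract fibre lemma of `F3/Dict/PlacesHom.lean`.
-/
import Mathlib
import Fermat.Agent.S48.W.A.Dict.Charts
import Fermat.Agent.S48.W.A.Dict.AmbLoc

set_option autoImplicit false
set_option linter.style.haveILetI false
set_option linter.unusedSectionVars false
set_option linter.unusedVariables false

noncomputable section

namespace Fermat.Agent.S48WA2

open UpperHalfPlane CongruenceSubgroup ModularCurve AlgebraicCurve
open Fermat.Agent.F3Dict Fermat.Agent.F3Places Fermat.Agent.F3I2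
open scoped MatrixGroups ModularForm

/-! ### traces -/

/-- the trace of a conjugate. -/
theorem ell_trace_conj (γ A : SL(2, ℤ)) :
    (γ⁻¹ * A * γ) 0 0 + (γ⁻¹ * A * γ) 1 1 = A 0 0 + A 1 1 := by
  have hdet := Fermat.Agent.F3Dict.GensExp.sl2_det γ
  simp only [Matrix.SpecialLinearGroup.coe_mul, Matrix.SpecialLinearGroup.coe_inv,
    Matrix.adjugate_fin_two, Matrix.mul_apply, Fin.sum_univ_two, Matrix.of_apply,
    Matrix.cons_val', Matrix.cons_val_zero, Matrix.cons_val_one, Matrix.empty_val',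
    Matrix.cons_val_fin_one]
  linear_combination (A 0 0 + A 1 1) * hdet

/-- the trace of an element of `± Γ₁(M)` is `± 2` modulo `M`. -/
theorem ell_trace_of_mem_Gamma1pm {M : ℕ} {B : SL(2, ℤ)} (hB : B ∈ Gamma1pm M) :
    (((B 0 0 + B 1 1 : ℤ)) : ZMod M) = 2 ∨ (((B 0 0 + B 1 1 : ℤ)) : ZMod M) = -2 := by
  rcases hB with h | h
  · left
    rw [Gamma1_mem] at h
    push_cast
    rw [h.1, h.2.1]
    norm_num
  · right
    rw [Gamma1_mem] at h
    obtain ⟨h00, h11, -⟩ := h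
    simp only [Matrix.SpecialLinearGroup.coe_neg, Matrix.neg_apply, Int.cast_neg] at h00 h11
    push_cast
    have e1 : ((B 0 0 : ℤ) : ZMod M) = -1 := by rw [← h00, neg_neg]
    have e2 : ((B 1 1 : ℤ) : ZMod M) = -1 := by rw [← h11, neg_neg]
    rw [e1, e2]
    ring

/-- a conjugate of a matrix of trace `t` with `|t| ≤ 1` is not in `± Γ₁(M)`, `4 ≤ M`. -/
theorem ell_conj_notMem {M : ℕ} (γ A : SL(2, ℤ)) (t : ℤ) (ht : A 0 0 + A 1 1 = t)
    (hM : ∀ d : ℤ, (d = t - 2 ∨ d = t + 2) → ¬ (M : ℤ) ∣ d) :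
    γ⁻¹ * A * γ ∉ Gamma1pm M := by
  intro hmem
  have h1 := ell_trace_of_mem_Gamma1pm hmem
  rw [ell_trace_conj, ht] at h1
  rcases h1 with h1 | h1
  · apply hM (t - 2) (Or.inl rfl)
    rw [← ZMod.intCast_zmod_eq_zero_iff_dvd]
    push_cast
    rw [h1]
    ring
  · apply hM (t + 2) (Or.inr rfl)
    rw [← ZMod.intCast_zmod_eq_zero_iff_dvd]
    push_cast
    rw [h1]
    ring

theorem ell_S_trace : (ModularGroup.S : SL(2, ℤ)) 0 0 + (ModularGroup.S : SL(2, ℤ)) 1 1 = 0 := by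
  rw [ModularGroup.coe_S]
  simp

theorem ell_ST_trace :
    (ModularGroup.S * ModularGroup.T : SL(2, ℤ)) 0 0 +
      (ModularGroup.S * ModularGroup.T : SL(2, ℤ)) 1 1 = 1 := by
  rw [Matrix.SpecialLinearGroup.coe_mul, ModularGroup.coe_S, ModularGroup.coe_T]
  simp [Matrix.mul_apply, Fin.sum_univ_two]

theorem ell_ST_sq_trace :
    ((ModularGroup.S * ModularGroup.T) ^ 2 : SL(2, ℤ)) 0 0 +
      ((ModularGroup.S * ModularGroup.T) ^ 2 : SL(2, ℤ)) 1 1 = -1 := by
  rw [pow_two, Matrix.SpecialLinearGroup.coe_mul, Matrix.SpecialLinearGroup.coe_mul,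
    ModularGroup.coe_S, ModularGroup.coe_T]
  simp [Matrix.mul_apply, Fin.sum_univ_two]

/-! ### the ramification index at a fibre without elliptic elements -/

section core

variable {M : ℕ} [NeZero M]

theorem ell_transcendental_jBar1 (φ : FC1 M →ₐ[ℂ] LH M) (hφj : φ (jBar1 M) = jLH M) :
    Transcendental ℂ (jBar1 M) := by
  intro h
  have h1 : IsAlgebraic ℂ (φ (jBar1 M)) := IsAlgebraic.algHom φ h
  rw [hφj] at h1
  exact transcendental_jLH M h1

set_option maxHeartbeats 1000000 in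
set_option synthInstance.maxHeartbeats 400000 in
/-- **the ramification index of `j - c` at a place above it is the order `s` of `j - c` at a
point `τc` above `c`**, provided no conjugate of a proper power of the generator of the stabiliser
of `τc` lies in `± Γ₁(M)`. -/
theorem ell_ord_sub_eq (φ : FC1 M →ₐ[ℂ] LH M) (hφj : φ (jBar1 M) = jLH M)
    (hstab : ∀ γ : SL(2, ℤ), γ ∈ Gamma1pm M ↔ ∀ x : FC1 M, γ • φ x = φ x)
    (c : ℂ) (τc : ℍ) (s : ℕ) (g : SL(2, ℤ)) (hs : 0 < s)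
    (hval : valLH M τc (jLH M - algebraMap ℂ (LH M) c) = WithZero.exp (-(s : ℤ)))
    (hgτ : g • τc = τc) (hgs : ∀ k : ℤ, (∀ x : LH M, (g ^ k) • x = x) ↔ (s : ℤ) ∣ k)
    (hnot : ∀ (γ : SL(2, ℤ)) (h : ℕ), 0 < h → h < s → γ⁻¹ * g ^ h * γ ∉ Gamma1pm M)
    (v : Place ℂ (FC1 M)) (hv : 0 < v.ord (jBar1 M - algebraMap ℂ (FC1 M) c)) :
    v.ord (jBar1 M - algebraMap ℂ (FC1 M) c) = s := by
  have htr := ell_transcendental_jBar1 φ hφj
  obtain ⟨ht1, ht2, ht3, ht4⟩ := fibre_hyps_sub (Γ := SL(2, ℤ)) φ (jBar1 M) (jLH M) hφj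
    htr (smul_jLH M) (mem_adjoin_jLH_of_invariant M) c
  obtain ⟨γ, e, h, he, hh, hhe, hmem, hve⟩ := exists_point_of_place_fibre_hom φ
    (jBar1 M - algebraMap ℂ (FC1 M) c) ht1 (exists_finiteIndex_fixing_LH M) ht2 ht3
    (Gamma1pm M) hstab (valLH M τc) s g
    (fun a ha => valLH_algebraMap_K M τc ha) hs (by rw [ht4]; exact hval)
    (fun x => valLH_smul M g hgτ x) hgs v hv
  -- `h = s`, `e = 1`
  have hhs : ¬ h < s := fun hlt => hnot γ h hh hlt hmem
  have hle : h ≤ s := by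
    rw [← hhe]
    exact Nat.le_mul_of_pos_right h he
  have hh' : h = s := le_antisymm hle (not_lt.mp hhs)
  have he1 : e = 1 := by
    rw [hh'] at hhe
    have : s * e = s * 1 := by rw [hhe, mul_one]
    exact Nat.eq_of_mul_eq_mul_left hs this
  -- evaluate at `j - c`
  have hx0 : jBar1 M - algebraMap ℂ (FC1 M) c ≠ 0 := by
    intro h0
    apply ht1
    rw [h0]
    exact isAlgebraic_zero
  have h1 := hve _ hx0
  rw [ht2 γ, ht4, hval, he1] at h1
  simp only [WithZero.log_exp, neg_neg, Nat.cast_one, one_mul] at h1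
  exact h1.symm

/-- **above `j = 0` the function `j` has order `3`** (`4 ≤ M`). -/
theorem ell_ord_jBar1_eq_three (hM : 4 ≤ M) (φ : FC1 M →ₐ[ℂ] LH M) (hφj : φ (jBar1 M) = jLH M)
    (hstab : ∀ γ : SL(2, ℤ), γ ∈ Gamma1pm M ↔ ∀ x : FC1 M, γ • φ x = φ x)
    (v : Place ℂ (FC1 M)) (hv : 0 < v.ord (jBar1 M)) : v.ord (jBar1 M) = 3 := by
  have e0 : jBar1 M - algebraMap ℂ (FC1 M) 0 = jBar1 M := by rw [map_zero, sub_zero]
  have hval : valLH M UpperHalfPlane.ρ (jLH M - algebraMap ℂ (LH M) 0)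
      = WithZero.exp (-((3 : ℕ) : ℤ)) := by
    refine valLH_jLH_sub M _ _ 3 ?_
    simp only [map_zero, sub_zero]
    exact JLocal.analyticOrderAt_jFun_rho
  have hgs : ∀ k : ℤ, (∀ x : LH M, ((ModularGroup.S * ModularGroup.T) ^ k) • x = x) ↔
      ((3 : ℕ) : ℤ) ∣ k := by
    intro k
    rw [ST_zpow_smul_eq_iff_LH M (by omega) k]
    norm_num
  have hM' : (M : ℤ) ≥ 4 := by exact_mod_cast hM
  have key := ell_ord_sub_eq φ hφj hstab 0 UpperHalfPlane.ρ 3 (ModularGroup.S * ModularGroup.T)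
    (by norm_num) hval JLocal.ST_smul_rho hgs ?_ v (by rw [e0]; exact hv)
  · rw [e0] at key
    exact_mod_cast key
  · intro γ h h0 h3
    interval_cases h
    · rw [pow_one]
      refine ell_conj_notMem γ _ 1 ell_ST_trace ?_
      rintro d (rfl | rfl) hd
      · have := Int.le_of_dvd (by norm_num) ((dvd_neg).mpr hd)
        omega
      · have := Int.le_of_dvd (by norm_num) hd
        omega
    · refine ell_conj_notMem γ _ (-1) ell_ST_sq_trace ?_
      rintro d (rfl | rfl) hd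
      · have := Int.le_of_dvd (by norm_num) ((dvd_neg).mpr hd)
        omega
      · have := Int.le_of_dvd (by norm_num) hd
        omega

/-- **above `j = 1728` the function `j - 1728` has order `2`** (`3 ≤ M`). -/
theorem ell_ord_jBar1_sub_eq_two (hM : 3 ≤ M) (φ : FC1 M →ₐ[ℂ] LH M)
    (hφj : φ (jBar1 M) = jLH M)
    (hstab : ∀ γ : SL(2, ℤ), γ ∈ Gamma1pm M ↔ ∀ x : FC1 M, γ • φ x = φ x)
    (v : Place ℂ (FC1 M)) (hv : 0 < v.ord (jBar1 M - algebraMap ℂ (FC1 M) 1728)) :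
    v.ord (jBar1 M - algebraMap ℂ (FC1 M) 1728) = 2 := by
  have hval : valLH M UpperHalfPlane.I (jLH M - algebraMap ℂ (LH M) 1728)
      = WithZero.exp (-((2 : ℕ) : ℤ)) := by
    refine valLH_jLH_sub M _ _ 2 ?_
    rw [iota_ofNat_1728]
    exact JLocal.analyticOrderAt_jFun_I
  have hgs : ∀ k : ℤ, (∀ x : LH M, (ModularGroup.S ^ k) • x = x) ↔ ((2 : ℕ) : ℤ) ∣ k := by
    intro k
    rw [S_zpow_smul_eq_iff_LH M (by omega) k]
    norm_num
  have hM' : (M : ℤ) ≥ 3 := by exact_mod_cast hM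
  have key := ell_ord_sub_eq φ hφj hstab 1728 UpperHalfPlane.I 2 ModularGroup.S
    (by norm_num) hval JLocal.S_smul_I' hgs ?_ v hv
  · exact_mod_cast key
  · intro γ h h0 h3
    interval_cases h
    rw [pow_one]
    refine ell_conj_notMem γ _ 0 ell_S_trace ?_
    rintro d (rfl | rfl) hd
    · have := Int.le_of_dvd (by norm_num) ((dvd_neg).mpr hd)
      omega
    · have := Int.le_of_dvd (by norm_num) hd
      omega

/-- **above `j = c`, `c ≠ 0, 1728`, the function `j - c` has order `1`.** -/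
theorem ell_ord_jBar1_sub_eq_one (φ : FC1 M →ₐ[ℂ] LH M) (hφj : φ (jBar1 M) = jLH M)
    (hstab : ∀ γ : SL(2, ℤ), γ ∈ Gamma1pm M ↔ ∀ x : FC1 M, γ • φ x = φ x)
    (c : ℂ) (hc0 : c ≠ 0) (hc1 : c ≠ 1728)
    (v : Place ℂ (FC1 M)) (hv : 0 < v.ord (jBar1 M - algebraMap ℂ (FC1 M) c)) :
    v.ord (jBar1 M - algebraMap ℂ (FC1 M) c) = 1 := by
  obtain ⟨τ₀, hτ₀⟩ := JLocal.jFun_surjective c
  have h0 : jFun τ₀ ≠ 0 := by
    rw [hτ₀]
    exact hc0
  have h1 : jFun τ₀ ≠ 1728 := by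
    rw [hτ₀]
    exact hc1
  have hval : valLH M τ₀ (jLH M - algebraMap ℂ (LH M) c) = WithZero.exp (-((1 : ℕ) : ℤ)) := by
    refine valLH_jLH_sub M _ _ 1 ?_
    rw [← hτ₀]
    exact_mod_cast JLocal.analyticOrderAt_jFun_sub τ₀ h0 h1
  have key := ell_ord_sub_eq φ hφj hstab c τ₀ 1 1 (by norm_num) hval (one_smul _ _)
    (fun k => by simp) (fun γ h h0 h1 => by omega) v hv
  exact_mod_cast key

end core

/-! ### the versions for a `DictDatum` -/

namespace DictDatum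

variable {M : ℕ} [NeZero M]

/-- above `j = 0` the function `j` has order `3` (`4 ≤ M`). -/
theorem ord_jBar1_eq_three (D : DictDatum M) (hM : 4 ≤ M) (v : Place ℂ (FC1 M))
    (hv : 0 < v.ord (jBar1 M)) : v.ord (jBar1 M) = 3 :=
  ell_ord_jBar1_eq_three hM D.φ D.phi_j D.stab v hv

/-- above `j = 1728` the function `j - 1728` has order `2` (`3 ≤ M`). -/
theorem ord_jBar1_sub_eq_two (D : DictDatum M) (hM : 3 ≤ M) (v : Place ℂ (FC1 M))
    (hv : 0 < v.ord (jBar1 M - algebraMap ℂ (FC1 M) 1728)) :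
    v.ord (jBar1 M - algebraMap ℂ (FC1 M) 1728) = 2 :=
  ell_ord_jBar1_sub_eq_two hM D.φ D.phi_j D.stab v hv

/-- above `j = c`, `c ≠ 0, 1728`, the function `j - c` has order `1`. -/
theorem ord_jBar1_sub_eq_one (D : DictDatum M) (c : ℂ) (hc0 : c ≠ 0) (hc1 : c ≠ 1728)
    (v : Place ℂ (FC1 M)) (hv : 0 < v.ord (jBar1 M - algebraMap ℂ (FC1 M) c)) :
    v.ord (jBar1 M - algebraMap ℂ (FC1 M) c) = 1 :=
  ell_ord_jBar1_sub_eq_one D.φ D.phi_j D.stab c hc0 hc1 v hv

end DictDatum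

end Fermat.Agent.S48WA2
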